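/-
Sophie Germain's theorem (generalised form with an auxiliary prime `q`):
the first case of Fermat's Last Theorem for a prime exponent `p`.

If `q` is a prime such that
* `x^p + y^p + z^p = 0` in `ZMod q` forces `x*y*z = 0`, and
* `p` is not a `p`-th power in `ZMod q`,
then any integer solution of `a^p + b^p = c^p` with `a, b` coprime has `p ∣ a*b*c`.
-/
import Mathlib

set_option autoImplicit false

namespace Fermat.Agent.FLTReg

open Finset

/-- The cofactor `(y^p + z^p)/(y+z)` for odd `p`. -/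
def sgPhi (p : ℕ) (y z : ℤ) : ℤ := ∑ i ∈ range p, y ^ i * (-z) ^ (p - 1 - i)

theorem sgPhi_mul (p : ℕ) (hp : Odd p) (y z : ℤ) :
    (y + z) * sgPhi p y z = y ^ p + z ^ p := by
  have h := geom_sum₂_mul y (-z) p
  rw [hp.neg_pow] at h
  rw [sgPhi, mul_comm]
  linear_combination h

theorem sg_coprime (p : ℕ) (hp : p.Prime) (y z : ℤ) (hyz : IsCoprime y z)
    (hpyz : ¬ (p : ℤ) ∣ y + z) : IsCoprime (y + z) (sgPhi p y z) := by
  apply isCoprime_of_prime_dvd
  · rintro ⟨h0, -⟩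
    exact hpyz (h0 ▸ dvd_zero _)
  · intro r hr hr1 hr2
    have hrp : Prime r := hr
    have hsub : r ∣ y - (-z) := by simpa [sub_neg_eq_add] using hr1
    rw [sgPhi, dvd_geom_sum₂_iff_of_dvd_sub hsub] at hr2
    rcases hrp.dvd_or_dvd hr2 with h | h
    · -- r ∣ p, so r is associated to p
      have hpp : Prime (p : ℤ) := Nat.prime_iff_prime_int.mp hp
      have hass : Associated r (p : ℤ) := hrp.associated_of_dvd hpp h
      exact hpyz (hass.symm.dvd.trans hr1)
    · have hz : r ∣ z := by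
        have := hrp.dvd_of_dvd_pow h
        simpa using this
      have hy : r ∣ y := by
        have : y = (y + z) - z := by ring
        rw [this]
        exact dvd_sub hr1 hz
      exact hrp.not_isUnit (hyz.isUnit_of_dvd' hy hz)

/-- Under the hypotheses of the first case, `y + z` and its cofactor are both `p`-th powers. -/
theorem sg_pow (p : ℕ) (hp : p.Prime) (hp2 : p ≠ 2) (x y z : ℤ) (hyz : IsCoprime y z)
    (hpx : ¬ (p : ℤ) ∣ x) (H : x ^ p + y ^ p + z ^ p = 0) :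
    (∃ A : ℤ, y + z = A ^ p) ∧ ∃ T : ℤ, sgPhi p y z = T ^ p := by
  have hodd : Odd p := hp.odd_of_ne_two hp2
  have hpp : Prime (p : ℤ) := Nat.prime_iff_prime_int.mp hp
  have hmul : (y + z) * sgPhi p y z = (-x) ^ p := by
    rw [sgPhi_mul p hodd, hodd.neg_pow]
    linear_combination H
  have hpyz : ¬ (p : ℤ) ∣ y + z := by
    intro h
    have h1 : (p : ℤ) ∣ (-x) ^ p := by
      rw [← hmul]
      exact dvd_mul_of_dvd_left h _
    have h2 := hpp.dvd_of_dvd_pow h1
    exact hpx ((dvd_neg).1 h2)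
  exact Int.eq_pow_of_mul_eq_pow_odd (sg_coprime p hp y z hyz hpyz) hodd hmul

/-- Core of Sophie Germain's argument: the auxiliary prime cannot divide `x`. -/
theorem sg_core (p q : ℕ) (hp : p.Prime) (hp2 : p ≠ 2) [hq : Fact q.Prime]
    (h1 : ∀ u v w : ZMod q, u ^ p + v ^ p + w ^ p = 0 → u * v * w = 0)
    (h2 : ∀ t : ZMod q, t ^ p ≠ (p : ZMod q))
    (x y z : ℤ) (hxy : IsCoprime x y) (hyz : IsCoprime y z) (hzx : IsCoprime z x)
    (hpx : ¬ (p : ℤ) ∣ x) (hpy : ¬ (p : ℤ) ∣ y) (hpz : ¬ (p : ℤ) ∣ z)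
    (H : x ^ p + y ^ p + z ^ p = 0) (hqx : (q : ℤ) ∣ x) : False := by
  have hodd : Odd p := hp.odd_of_ne_two hp2
  have hqp : Prime (q : ℤ) := Nat.prime_iff_prime_int.mp hq.out
  obtain ⟨⟨A, hA⟩, ⟨T, hT⟩⟩ := sg_pow p hp hp2 x y z hyz hpx H
  obtain ⟨⟨B, hB⟩, -⟩ := sg_pow p hp hp2 y z x hzx hpy (by linear_combination H)
  obtain ⟨⟨C, hC⟩, -⟩ := sg_pow p hp hp2 z x y hxy hpz (by linear_combination H)
  have hx0 : ((x : ℤ) : ZMod q) = 0 := (ZMod.intCast_zmod_eq_zero_iff_dvd x q).2 hqx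
  -- `q ∤ y`, `q ∤ z`
  have hqy : ¬ (q : ℤ) ∣ y := fun h => hqp.not_isUnit (hxy.isUnit_of_dvd' hqx h)
  have hqz : ¬ (q : ℤ) ∣ z := fun h => hqp.not_isUnit (hzx.isUnit_of_dvd' h hqx)
  have hy0 : ((y : ℤ) : ZMod q) ≠ 0 := fun h => hqy ((ZMod.intCast_zmod_eq_zero_iff_dvd y q).1 h)
  have hz0 : ((z : ℤ) : ZMod q) ≠ 0 := fun h => hqz ((ZMod.intCast_zmod_eq_zero_iff_dvd z q).1 h)
  -- the relation `B^p + C^p + (-A)^p = 2x ≡ 0`
  have hrel : ((B : ℤ) : ZMod q) ^ p + ((C : ℤ) : ZMod q) ^ p + ((-A : ℤ) : ZMod q) ^ p = 0 := by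
    have : (B ^ p + C ^ p + (-A) ^ p : ℤ) = 2 * x := by
      rw [hodd.neg_pow, ← hA, ← hB, ← hC]; ring
    have h3 := congrArg (Int.cast : ℤ → ZMod q) this
    push_cast at h3 ⊢
    rw [h3, hx0, mul_zero]
  have hBC : ((B : ℤ) : ZMod q) ^ p = (z : ZMod q) := by
    have h3 := congrArg (Int.cast : ℤ → ZMod q) hB
    push_cast at h3
    rw [← h3, hx0, add_zero]
  have hCy : ((C : ℤ) : ZMod q) ^ p = (y : ZMod q) := by
    have h3 := congrArg (Int.cast : ℤ → ZMod q) hC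
    push_cast at h3
    rw [← h3, hx0, zero_add]
  have hprod := h1 _ _ _ hrel
  have hB0 : ((B : ℤ) : ZMod q) ≠ 0 := by
    intro h
    rw [h, zero_pow hp.ne_zero] at hBC
    exact hz0 hBC.symm
  have hC0 : ((C : ℤ) : ZMod q) ≠ 0 := by
    intro h
    rw [h, zero_pow hp.ne_zero] at hCy
    exact hy0 hCy.symm
  have hA0 : ((A : ℤ) : ZMod q) = 0 := by
    rcases mul_eq_zero.1 hprod with h | h
    · rcases mul_eq_zero.1 h with h | h
      · exact absurd h hB0
      · exact absurd h hC0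
    · push_cast at h
      exact neg_eq_zero.1 h
  -- hence `z = -y` in `ZMod q`
  have hzy : ((z : ℤ) : ZMod q) = -(y : ZMod q) := by
    have h3 := congrArg (Int.cast : ℤ → ZMod q) hA
    push_cast at h3
    rw [hA0, zero_pow hp.ne_zero] at h3
    exact eq_neg_of_add_eq_zero_right h3
  -- compute the cofactor modulo `q`
  have hTq : ((T : ℤ) : ZMod q) ^ p = (p : ZMod q) * (y : ZMod q) ^ (p - 1) := by
    have h3 := congrArg (Int.cast : ℤ → ZMod q) hT
    rw [sgPhi] at h3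
    push_cast at h3
    rw [← h3, hzy, neg_neg, geom_sum₂_self]
  -- contradiction with `h2`
  have hCp : ((C : ℤ) : ZMod q) ^ (p - 1) ≠ 0 := pow_ne_zero _ hC0
  apply h2 (((T : ℤ) : ZMod q) * (((C : ℤ) : ZMod q) ^ (p - 1))⁻¹)
  rw [mul_pow, hTq, ← hCy, inv_pow, ← pow_mul, ← pow_mul, mul_comm (p - 1) p,
    mul_inv_cancel_right₀]
  exact pow_ne_zero _ hC0

/-- **Sophie Germain's theorem** (generalised): first case of FLT for exponent `p`. -/
theorem caseI_of_auxPrime (p q : ℕ) (hp : p.Prime) (hp2 : p ≠ 2) [hq : Fact q.Prime]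
    (h1 : ∀ u v w : ZMod q, u ^ p + v ^ p + w ^ p = 0 → u * v * w = 0)
    (h2 : ∀ t : ZMod q, t ^ p ≠ (p : ZMod q))
    {a b c : ℤ} (hab : IsCoprime a b) (H : a ^ p + b ^ p = c ^ p) :
    (p : ℤ) ∣ a * b * c := by
  have hodd : Odd p := hp.odd_of_ne_two hp2
  have hpp : Prime (p : ℤ) := Nat.prime_iff_prime_int.mp hp
  have hqp : Prime (q : ℤ) := Nat.prime_iff_prime_int.mp hq.out
  by_contra hcon
  have hpa : ¬ (p : ℤ) ∣ a := fun h => hcon (dvd_mul_of_dvd_left (dvd_mul_of_dvd_left h _) _)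
  have hpb : ¬ (p : ℤ) ∣ b := fun h => hcon (dvd_mul_of_dvd_left (dvd_mul_of_dvd_right h _) _)
  have hpc : ¬ (p : ℤ) ∣ -c := fun h => hcon (dvd_mul_of_dvd_right ((dvd_neg).1 h) _)
  have H' : a ^ p + b ^ p + (-c) ^ p = 0 := by
    rw [hodd.neg_pow]; linear_combination H
  -- pairwise coprimality
  have hbc : IsCoprime b (-c) := by
    apply isCoprime_of_prime_dvd
    · rintro ⟨h0, -⟩
      exact hpb (h0 ▸ dvd_zero _)
    · intro r hr hr1 hr2
      have hrp : Prime r := hr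
      have hc : r ∣ c := (dvd_neg).1 hr2
      have : r ∣ a ^ p := by
        have : a ^ p = c ^ p - b ^ p := by linear_combination H
        rw [this]
        exact dvd_sub (dvd_pow hc hp.ne_zero) (dvd_pow hr1 hp.ne_zero)
      exact hrp.not_isUnit (hab.isUnit_of_dvd' (hrp.dvd_of_dvd_pow this) hr1)
  have hca : IsCoprime (-c) a := by
    apply isCoprime_of_prime_dvd
    · rintro ⟨-, h0⟩
      exact hpa (h0 ▸ dvd_zero _)
    · intro r hr hr1 hr2
      have hrp : Prime r := hr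
      have hc : r ∣ c := (dvd_neg).1 hr1
      have : r ∣ b ^ p := by
        have : b ^ p = c ^ p - a ^ p := by linear_combination H
        rw [this]
        exact dvd_sub (dvd_pow hc hp.ne_zero) (dvd_pow hr2 hp.ne_zero)
      exact hrp.not_isUnit (hab.isUnit_of_dvd' hr2 (hrp.dvd_of_dvd_pow this))
  -- the auxiliary prime divides one of them
  have hq3 : ((a : ℤ) : ZMod q) * ((b : ℤ) : ZMod q) * ((-c : ℤ) : ZMod q) = 0 := by
    apply h1
    have h3 := congrArg (Int.cast : ℤ → ZMod q) H'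
    push_cast at h3 ⊢
    exact h3
  rcases mul_eq_zero.1 hq3 with h | h
  · rcases mul_eq_zero.1 h with h | h
    · exact sg_core p q hp hp2 h1 h2 a b (-c) hab hbc hca hpa hpb hpc H'
        ((ZMod.intCast_zmod_eq_zero_iff_dvd a q).1 h)
    · exact sg_core p q hp hp2 h1 h2 b (-c) a hbc hca hab hpb hpc hpa (by linear_combination H')
        ((ZMod.intCast_zmod_eq_zero_iff_dvd b q).1 h)
  · exact sg_core p q hp hp2 h1 h2 (-c) a b hca hab hbc hpc hpa hpb (by linear_combination H')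
      ((ZMod.intCast_zmod_eq_zero_iff_dvd (-c) q).1 h)

end Fermat.Agent.FLTReg
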