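/-
First case of Fermat's Last Theorem for the exponents 5, 7, 11, 13
(via Sophie Germain's theorem with auxiliary primes 11, 29, 23, 53).
-/
import Fermat.Agent.FLTReg.SophieGermain

set_option autoImplicit false

namespace Fermat.Agent.FLTReg

theorem sg_h1_of_set (p q : ℕ) (_hp : p ≠ 0) [Fact q.Prime] (S : Finset (ZMod q))
    (hS : ∀ u : ZMod q, u ≠ 0 → u ^ p ∈ S)
    (hsum : ∀ s ∈ S, ∀ t ∈ S, ∀ r ∈ S, s + t + r ≠ 0) :
    ∀ u v w : ZMod q, u ^ p + v ^ p + w ^ p = 0 → u * v * w = 0 := by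
  intro u v w h
  by_contra hne
  have hu : u ≠ 0 := fun h0 => hne (by rw [h0]; ring)
  have hv : v ≠ 0 := fun h0 => hne (by rw [h0]; ring)
  have hw : w ≠ 0 := fun h0 => hne (by rw [h0]; ring)
  exact hsum _ (hS u hu) _ (hS v hv) _ (hS w hw) h

theorem sg_h2_of_set (p q : ℕ) (hp : p ≠ 0) [Fact q.Prime] (S : Finset (ZMod q))
    (hS : ∀ u : ZMod q, u ≠ 0 → u ^ p ∈ S)
    (hp0 : (p : ZMod q) ≠ 0) (hpS : (p : ZMod q) ∉ S) :
    ∀ t : ZMod q, t ^ p ≠ (p : ZMod q) := by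
  intro t ht
  by_cases h0 : t = 0
  · rw [h0, zero_pow hp] at ht
    exact hp0 ht.symm
  · exact hpS (ht ▸ hS t h0)

instance fact_prime_eleven' : Fact (Nat.Prime 11) := ⟨by norm_num⟩
instance fact_prime_twentythree : Fact (Nat.Prime 23) := ⟨by norm_num⟩
instance fact_prime_twentynine : Fact (Nat.Prime 29) := ⟨by norm_num⟩
instance fact_prime_fiftythree : Fact (Nat.Prime 53) := ⟨by norm_num⟩

theorem caseI_five {a b c : ℤ} (hab : IsCoprime a b) (H : a ^ 5 + b ^ 5 = c ^ 5) :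
    (5 : ℤ) ∣ a * b * c := by
  have hS : ∀ u : ZMod 11, u ≠ 0 → u ^ 5 ∈ ({1, 10} : Finset (ZMod 11)) := by decide
  have := caseI_of_auxPrime 5 11 (by norm_num) (by norm_num)
    (sg_h1_of_set 5 11 (by norm_num) _ hS (by decide))
    (sg_h2_of_set 5 11 (by norm_num) _ hS (by decide) (by decide)) hab H
  exact_mod_cast this

set_option maxRecDepth 100000 in
theorem caseI_seven {a b c : ℤ} (hab : IsCoprime a b) (H : a ^ 7 + b ^ 7 = c ^ 7) :
    (7 : ℤ) ∣ a * b * c := by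
  have hS : ∀ u : ZMod 29, u ≠ 0 → u ^ 7 ∈ ({1, 12, 17, 28} : Finset (ZMod 29)) := by decide
  have := caseI_of_auxPrime 7 29 (by norm_num) (by norm_num)
    (sg_h1_of_set 7 29 (by norm_num) _ hS (by decide))
    (sg_h2_of_set 7 29 (by norm_num) _ hS (by decide) (by decide)) hab H
  exact_mod_cast this

theorem caseI_eleven {a b c : ℤ} (hab : IsCoprime a b) (H : a ^ 11 + b ^ 11 = c ^ 11) :
    (11 : ℤ) ∣ a * b * c := by
  have hS : ∀ u : ZMod 23, u ≠ 0 → u ^ 11 ∈ ({1, 22} : Finset (ZMod 23)) := by decide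
  have := caseI_of_auxPrime 11 23 (by norm_num) (by norm_num)
    (sg_h1_of_set 11 23 (by norm_num) _ hS (by decide))
    (sg_h2_of_set 11 23 (by norm_num) _ hS (by decide) (by decide)) hab H
  exact_mod_cast this

set_option maxRecDepth 100000 in
theorem caseI_thirteen {a b c : ℤ} (hab : IsCoprime a b) (H : a ^ 13 + b ^ 13 = c ^ 13) :
    (13 : ℤ) ∣ a * b * c := by
  have hS : ∀ u : ZMod 53, u ≠ 0 → u ^ 13 ∈ ({1, 23, 30, 52} : Finset (ZMod 53)) := by decide
  have := caseI_of_auxPrime 13 53 (by norm_num) (by norm_num)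
    (sg_h1_of_set 13 53 (by norm_num) _ hS (by decide))
    (sg_h2_of_set 13 53 (by norm_num) _ hS (by decide) (by decide)) hab H
  exact_mod_cast this

end Fermat.Agent.FLTReg
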