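import Mathlib.NumberTheory.FLT.Three
import Mathlib.NumberTheory.NumberField.Cyclotomic.Ideal

/-!
# Kummer's descent ("case II") for a prime `p` such that `ℤ[ζ_p]` is a PID and Kummer's lemma holds

Helper file for the FLTReg project (module M4).
-/

set_option linter.unusedSectionVars false
set_option linter.style.haveILetI false

open NumberField Polynomial

namespace Fermat.Agent.FLTReg

section basic

variable {p : ℕ} [hp : Fact p.Prime] {K : Type*} [Field K] [NumberField K]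
  [IsCyclotomicExtension {p} ℚ K] {ζ : K} (hζ : IsPrimitiveRoot ζ p)

local notation3 "π" => hζ.toInteger - 1

include hζ in
lemma FA_card_quot_pi (hp2 : p ≠ 2) : Nat.card (𝓞 K ⧸ Ideal.span {π}) = p := by
  rw [hζ.card_quotient_toInteger_sub_one, hζ.norm_toInteger_sub_one_of_prime_ne_two' hp2]
  simp

/-- Every element of `𝓞 K` is congruent to a rational integer modulo `π = ζ - 1`. -/
lemma FA_exists_int_sub_dvd (hp2 : p ≠ 2) (x : 𝓞 K) : ∃ m : ℤ, π ∣ x - (m : 𝓞 K) := by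
  set Q := 𝓞 K ⧸ Ideal.span {π} with hQ
  have hcard : Nat.card Q = p := FA_card_quot_pi hζ hp2
  haveI : Fact (Nat.card Q).Prime := ⟨hcard ▸ hp.out⟩
  have hfin : Finite Q := Nat.finite_of_card_ne_zero (by rw [hcard]; exact hp.out.ne_zero)
  have hnt : Nontrivial Q := by
    rw [← Finite.one_lt_card_iff_nontrivial, hcard]
    exact hp.out.one_lt
  let H : AddSubgroup Q := (Int.castAddHom Q).range
  have hH : H = ⊤ := by
    rcases H.eq_bot_or_eq_top_of_prime_card with h | h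
    · exfalso
      have h1 : (1 : Q) ∈ H := ⟨1, by simp⟩
      rw [h, AddSubgroup.mem_bot] at h1
      exact one_ne_zero h1
    · exact h
  have hx : Ideal.Quotient.mk (Ideal.span {π}) x ∈ H := by rw [hH]; trivial
  obtain ⟨m, hm⟩ := hx
  refine ⟨m, ?_⟩
  rw [← Ideal.mem_span_singleton, ← Ideal.Quotient.eq_zero_iff_mem, map_sub, map_intCast]
  simp only [Int.coe_castAddHom] at hm
  rw [hm, sub_self]

include hζ in
lemma FA_p_dvd_pi_pow : (p : 𝓞 K) ∣ π ^ p := by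
  have h := (IsCyclotomicExtension.Rat.associated_zeta_sub_one_pow_prime p hζ).symm.dvd
  have hp1 : p = (p - 1) + 1 := (Nat.sub_add_cancel hp.out.one_le).symm
  calc (p : 𝓞 K) ∣ π ^ (p - 1) := h
    _ ∣ π ^ p := pow_dvd_pow _ (Nat.sub_le p 1)

include hζ in
/-- Every `p`-th power in `𝓞 K` is congruent to a rational integer modulo `p`. -/
lemma FA_exists_int_pow_sub_dvd (hp2 : p ≠ 2) (x : 𝓞 K) :
    ∃ m : ℤ, (p : 𝓞 K) ∣ x ^ p - (m : 𝓞 K) := by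
  obtain ⟨m, y, hy⟩ := FA_exists_int_sub_dvd hζ hp2 x
  obtain ⟨r, hr⟩ := exists_add_pow_prime_eq hp.out (m : 𝓞 K) (π * y)
  obtain ⟨s, hs⟩ := FA_p_dvd_pi_pow hζ
  refine ⟨m ^ p, ?_⟩
  have hx : x = (m : 𝓞 K) + π * y := by rw [← hy]; ring
  refine ⟨s * y ^ p + (m : 𝓞 K) * (π * y) * r, ?_⟩
  rw [hx, hr, mul_pow, hs]
  push_cast
  ring

/-- If `p ∣ a + η * b` with `a`, `b` congruent to integers mod `p`, the one for `b` prime to `p`,
then `η` is congruent to an integer mod `p`. -/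
lemma FA_exists_int_sub_dvd_of_dvd_add_mul {a b η : 𝓞 K} {m₁ m₂ : ℤ}
    (ha : (p : 𝓞 K) ∣ a - (m₁ : 𝓞 K)) (hb : (p : 𝓞 K) ∣ b - (m₂ : 𝓞 K))
    (hm₂ : ¬ (p : ℤ) ∣ m₂) (h : (p : 𝓞 K) ∣ a + η * b) :
    ∃ k : ℤ, (p : 𝓞 K) ∣ η - (k : 𝓞 K) := by
  have hcop : IsCoprime m₂ (p : ℤ) :=
    ((Nat.prime_iff_prime_int.mp hp.out).coprime_iff_not_dvd.mpr hm₂).symm
  obtain ⟨s, t, hst⟩ := hcop
  obtain ⟨a', ha'⟩ := ha
  obtain ⟨b', hb'⟩ := hb
  obtain ⟨c', hc'⟩ := h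
  refine ⟨-s * m₁, η * t + s * (-η * b' - a' + c'), ?_⟩
  have h1 : ((s * m₂ + t * (p : ℤ) : ℤ) : 𝓞 K) = 1 := by rw [hst]; simp
  push_cast at h1
  have e1 : (m₁ : 𝓞 K) = a - (p : 𝓞 K) * a' := by rw [← ha']; ring
  have e2 : (m₂ : 𝓞 K) = b - (p : 𝓞 K) * b' := by rw [← hb']; ring
  calc η - ((-s * m₁ : ℤ) : 𝓞 K) = η * 1 + (s : 𝓞 K) * (m₁ : 𝓞 K) := by push_cast; ring
    _ = η * ((s : 𝓞 K) * (m₂ : 𝓞 K) + (t : 𝓞 K) * (p : 𝓞 K)) + (s : 𝓞 K) * (m₁ : 𝓞 K) := by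
        rw [h1]
    _ = η * (t : 𝓞 K) * (p : 𝓞 K) + (s : 𝓞 K) * ((a + η * b) - (p : 𝓞 K) * (η * b' + a')) := by
        rw [e1, e2]; ring
    _ = (p : 𝓞 K) * (η * (t : 𝓞 K) + (s : 𝓞 K) * (-η * b' - a' + c')) := by
        rw [hc']; ring

end basic

section general

/-- In a Bezout domain, if a finite product of pairwise coprime elements is a unit times a `k`-th
power, every factor is associated to a `k`-th power. -/
lemma FA_exists_associated_pow_of_prod {R ι : Type*} [CommRing R] [IsDomain R] [IsBezout R]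
    [DecidableEq ι] (s : Finset ι) (f : ι → R) (k : ℕ) (c : R) (u : Rˣ)
    (hcop : ∀ i ∈ s, ∀ j ∈ s, i ≠ j → IsCoprime (f i) (f j))
    (h : ∏ i ∈ s, f i = u * c ^ k) : ∀ i ∈ s, ∃ d, Associated (d ^ k) (f i) := by
  intro i hi
  have h1 : IsCoprime (f i) (∏ j ∈ s.erase i, f j) :=
    IsCoprime.prod_right fun j hj => hcop i hi j (Finset.mem_of_mem_erase hj)
      (Finset.ne_of_mem_erase hj).symm
  have h2 : Associated (c ^ k) (f i * ∏ j ∈ s.erase i, f j) := by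
    rw [Finset.mul_prod_erase s f hi, h]
    exact ⟨u, mul_comm _ _⟩
  exact exists_associated_pow_of_associated_pow_mul h1 h2

end general

section descent

variable {p : ℕ} [hp : Fact p.Prime] {K : Type*} [Field K] [NumberField K]
  [IsCyclotomicExtension {p} ℚ K] {ζ : K} (hζ : IsPrimitiveRoot ζ p)

local notation3 "π" => hζ.toInteger - 1
local notation3 "S" => nthRootsFinset p (1 : 𝓞 K)

/-- The generalised Fermat equation `x ^ p + y ^ p = ε * π ^ (p * n) * z ^ p` with `x`, `y`, `z`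
prime to `π` and `x`, `y` coprime. -/
def FA_IsSol (n : ℕ) (x y z : 𝓞 K) (ε : (𝓞 K)ˣ) : Prop :=
  ¬ π ∣ x ∧ ¬ π ∣ y ∧ ¬ π ∣ z ∧ IsCoprime x y ∧
    x ^ p + y ^ p = (ε : 𝓞 K) * π ^ (p * n) * z ^ p

include hζ in
lemma FA_isUnit_of_mem {η : 𝓞 K} (hη : η ∈ S) : IsUnit η := by
  rw [mem_nthRootsFinset hp.out.pos] at hη
  exact IsUnit.of_pow_eq_one hη hp.out.ne_zero

lemma FA_pi_dvd_sub {η₁ η₂ : 𝓞 K} (h₁ : η₁ ∈ S) (h₂ : η₂ ∈ S) : π ∣ η₁ - η₂ :=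
  hζ.toInteger_isPrimitiveRoot.sub_one_dvd_sub hp.out h₁ h₂

lemma FA_associated_pi_sub {η₁ η₂ : 𝓞 K} (h₁ : η₁ ∈ S) (h₂ : η₂ ∈ S) (h : η₁ ≠ η₂) :
    Associated π (η₁ - η₂) :=
  hζ.toInteger_isPrimitiveRoot.nthRootsFinset_pairwise_associated_sub_one_sub_of_prime hp.out
    h₁ h₂ h

lemma FA_pi_ne_zero : π ≠ 0 := hζ.zeta_sub_one_prime'.ne_zero

/-- Step 2: `π` divides every factor `x + η * y`. -/
lemma FA_pi_dvd_factor (hp2 : p ≠ 2) {n : ℕ} (hn : 1 ≤ n) {x y z : 𝓞 K} {ε : (𝓞 K)ˣ}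
    (h : FA_IsSol hζ n x y z ε) {η : 𝓞 K} (hη : η ∈ S) : π ∣ x + η * y := by
  obtain ⟨-, -, -, -, heq⟩ := h
  have hodd : Odd p := hp.out.odd_of_ne_two hp2
  have hprod := hζ.toInteger_isPrimitiveRoot.pow_add_pow_eq_prod_add_mul x y hodd
  have h1 : π ∣ ∏ η ∈ S, (x + η * y) := by
    rw [← hprod, heq]
    refine Dvd.dvd.mul_right (Dvd.dvd.mul_left (dvd_pow_self _ ?_) _) _
    exact Nat.mul_ne_zero hp.out.ne_zero (by omega)
  obtain ⟨η₀, hη₀, hdvd⟩ := (hζ.zeta_sub_one_prime'.dvd_finsetProd_iff _).mp h1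
  have : x + η * y = (x + η₀ * y) + (η - η₀) * y := by ring
  rw [this]
  exact dvd_add hdvd (Dvd.dvd.mul_right (FA_pi_dvd_sub hζ hη hη₀) _)

/-- Step 3: some factor `x + η₀ * y` is divisible by `π ^ 2` (pigeonhole on the residue field). -/
lemma FA_exists_pi_sq_dvd_factor (hp2 : p ≠ 2) {n : ℕ} (hn : 1 ≤ n) {x y z : 𝓞 K} {ε : (𝓞 K)ˣ}
    (h : FA_IsSol hζ n x y z ε) : ∃ η₀ ∈ S, π ^ 2 ∣ x + η₀ * y := by
  classical
  have hdiv : ∀ η : S, ∃ t, x + (η : 𝓞 K) * y = π * t := fun η =>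
    FA_pi_dvd_factor hζ hp2 hn h η.2
  choose t ht using hdiv
  set Q := 𝓞 K ⧸ Ideal.span {π} with hQ
  have hcard : Nat.card Q = p := FA_card_quot_pi hζ hp2
  have hfin : Finite Q := Nat.finite_of_card_ne_zero (by rw [hcard]; exact hp.out.ne_zero)
  letI : Fintype Q := Fintype.ofFinite Q
  let f : S → Q := fun η => Ideal.Quotient.mk (Ideal.span {π}) (t η)
  have hinj : Function.Injective f := by
    intro η₁ η₂ h12
    by_contra hne
    have hne' : (η₁ : 𝓞 K) ≠ η₂ := fun h' => hne (Subtype.ext h')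
    have h3 : π ∣ t η₁ - t η₂ := by
      rw [← Ideal.mem_span_singleton, ← Ideal.Quotient.eq_zero_iff_mem, map_sub, sub_eq_zero]
      exact h12
    obtain ⟨u, hu⟩ := FA_associated_pi_sub hζ η₁.2 η₂.2 hne'
    obtain ⟨r, hr⟩ := h3
    have h4 : π * ((u : 𝓞 K) * y) = π * (π * r) := by
      calc π * ((u : 𝓞 K) * y) = (π * u) * y := by ring
        _ = ((η₁ : 𝓞 K) - η₂) * y := by rw [hu]
        _ = (x + (η₁ : 𝓞 K) * y) - (x + (η₂ : 𝓞 K) * y) := by ring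
        _ = π * (t η₁ - t η₂) := by rw [ht η₁, ht η₂]; ring
        _ = π * (π * r) := by rw [hr]
    have h5 : (u : 𝓞 K) * y = π * r := mul_left_cancel₀ (FA_pi_ne_zero hζ) h4
    have h6 : π ∣ y := by
      have : π ∣ (u : 𝓞 K) * y := ⟨r, h5⟩
      exact (Units.dvd_mul_left).mp this
    exact h.2.1 h6
  have hcardS : Fintype.card S = Fintype.card Q := by
    rw [Fintype.card_coe, hζ.toInteger_isPrimitiveRoot.card_nthRootsFinset,
      ← Nat.card_eq_fintype_card, hcard]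
  have hbij := (Fintype.bijective_iff_injective_and_card f).mpr ⟨hinj, hcardS⟩
  obtain ⟨η₀, hη₀⟩ := hbij.2 0
  refine ⟨η₀, η₀.2, ?_⟩
  have h7 : π ∣ t η₀ := by
    rw [← Ideal.mem_span_singleton, ← Ideal.Quotient.eq_zero_iff_mem]
    exact hη₀
  rw [ht η₀, pow_two]
  exact mul_dvd_mul_left _ h7

/-- Step 3': we may assume that `π ^ 2 ∣ x + y`. -/
lemma FA_exists_sol_pi_sq_dvd (hp2 : p ≠ 2) {n : ℕ} (hn : 1 ≤ n) {x y z : 𝓞 K} {ε : (𝓞 K)ˣ}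
    (h : FA_IsSol hζ n x y z ε) : ∃ y' : 𝓞 K, FA_IsSol hζ n x y' z ε ∧ π ^ 2 ∣ x + y' := by
  obtain ⟨η₀, hη₀, hdvd⟩ := FA_exists_pi_sq_dvd_factor hζ hp2 hn h
  obtain ⟨hx, hy, hz, hcop, heq⟩ := h
  have hu : IsUnit η₀ := FA_isUnit_of_mem hζ hη₀
  refine ⟨η₀ * y, ⟨hx, ?_, hz, ?_, ?_⟩, hdvd⟩
  · rwa [hu.dvd_mul_left]
  · exact (isCoprime_mul_unit_left_right hu x y).mpr hcop
  · rw [mul_pow, (mem_nthRootsFinset hp.out.pos _).mp hη₀, one_mul, heq]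

/-- The descent step: from a solution with `π ^ 2 ∣ x + y` and exponent `n ≥ 1` we get `n ≥ 2` and
a solution with exponent `n - 1`. -/
lemma FA_descent_step (hp2 : p ≠ 2) [IsPrincipalIdealRing (𝓞 K)]
    (hK : ∀ u : (𝓞 K)ˣ, (∃ m : ℤ, (p : 𝓞 K) ∣ (u : 𝓞 K) - (m : 𝓞 K)) → ∃ v : (𝓞 K)ˣ, u = v ^ p)
    {n : ℕ} (hn : 1 ≤ n) {x y z : 𝓞 K} {ε : (𝓞 K)ˣ}
    (h : FA_IsSol hζ n x y z ε) (hsq : π ^ 2 ∣ x + y) :
    2 ≤ n ∧ ∃ (x' y' z' : 𝓞 K) (ε' : (𝓞 K)ˣ), FA_IsSol hζ (n - 1) x' y' z' ε' := by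
  classical
  have hdiv : ∀ η : 𝓞 K, ∃ t, η ∈ S → x + η * y = π * t := by
    intro η
    by_cases hη : η ∈ S
    · obtain ⟨t, ht⟩ := FA_pi_dvd_factor hζ hp2 hn h hη
      exact ⟨t, fun _ => ht⟩
    · exact ⟨0, fun h' => absurd h' hη⟩
  obtain ⟨hx, hy, hz, hcop, heq⟩ := h
  choose T hT using hdiv
  have hπ0 : π ≠ 0 := FA_pi_ne_zero hζ
  have hπp : Prime π := hζ.zeta_sub_one_prime'
  have h1S : (1 : 𝓞 K) ∈ S := one_mem_nthRootsFinset hp.out.pos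
  -- for `η ≠ 1`, `π` does not divide `T η`
  have hT_not : ∀ η ∈ S, η ≠ 1 → ¬ π ∣ T η := by
    intro η hη hne hdvd
    obtain ⟨u, hu⟩ := FA_associated_pi_sub hζ hη h1S hne
    have h2 : π ^ 2 ∣ x + η * y := by
      rw [hT η hη, pow_two]; exact mul_dvd_mul_left _ hdvd
    have h3 : π ^ 2 ∣ (η - 1) * y := by
      have : (η - 1) * y = (x + η * y) - (x + y) := by ring
      rw [this]; exact dvd_sub h2 hsq
    rw [← hu, pow_two, mul_assoc] at h3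
    have h4 := (mul_dvd_mul_iff_left hπ0).mp h3
    exact hy (Units.dvd_mul_left.mp h4)
  have hT1 : π ∣ T 1 := by
    have h1 := hT 1 h1S
    rw [one_mul] at h1
    rw [h1, pow_two] at hsq
    exact (mul_dvd_mul_iff_left hπ0).mp hsq
  -- pairwise coprimality of the `T η`
  have hTcop : ∀ η₁ ∈ S, ∀ η₂ ∈ S, η₁ ≠ η₂ → IsCoprime (T η₁) (T η₂) := by
    intro η₁ h₁ η₂ h₂ hne
    obtain ⟨u, hu⟩ := FA_associated_pi_sub hζ h₁ h₂ hne
    obtain ⟨a, b, hab⟩ := hcop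
    have e1 : T η₁ - T η₂ = u * y := by
      apply mul_left_cancel₀ hπ0
      calc π * (T η₁ - T η₂) = (x + η₁ * y) - (x + η₂ * y) := by
            rw [hT η₁ h₁, hT η₂ h₂]; ring
        _ = (η₁ - η₂) * y := by ring
        _ = π * (u * y) := by rw [← hu]; ring
    have e2 : η₂ * T η₁ - η₁ * T η₂ = - (u * x) := by
      apply mul_left_cancel₀ hπ0
      calc π * (η₂ * T η₁ - η₁ * T η₂) = η₂ * (x + η₁ * y) - η₁ * (x + η₂ * y) := by
            rw [hT η₁ h₁, hT η₂ h₂]; ring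
        _ = - ((η₁ - η₂) * x) := by ring
        _ = π * (-(u * x)) := by rw [← hu]; ring
    refine ⟨↑u⁻¹ * (b - a * η₂), ↑u⁻¹ * (a * η₁ - b), ?_⟩
    calc ↑u⁻¹ * (b - a * η₂) * T η₁ + ↑u⁻¹ * (a * η₁ - b) * T η₂
        = ↑u⁻¹ * (b * (T η₁ - T η₂) - a * (η₂ * T η₁ - η₁ * T η₂)) := by ring
      _ = ↑u⁻¹ * (u * (a * x + b * y)) := by rw [e1, e2]; ring
      _ = 1 := by rw [hab, mul_one, Units.inv_mul]
  -- the product of the `T η`
  have hodd : Odd p := hp.out.odd_of_ne_two hp2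
  have hprod := hζ.toInteger_isPrimitiveRoot.pow_add_pow_eq_prod_add_mul x y hodd
  have hprodT : ∏ η ∈ S, T η = ε * π ^ (p * (n - 1)) * z ^ p := by
    apply mul_left_cancel₀ (pow_ne_zero p hπ0)
    calc π ^ p * ∏ η ∈ S, T η = ∏ η ∈ S, (π * T η) := by
          rw [Finset.prod_mul_distrib, Finset.prod_const,
            hζ.toInteger_isPrimitiveRoot.card_nthRootsFinset]
      _ = ∏ η ∈ S, (x + η * y) := Finset.prod_congr rfl (fun η hη => (hT η hη).symm)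
      _ = x ^ p + y ^ p := hprod.symm
      _ = ε * π ^ (p * n) * z ^ p := heq
      _ = π ^ p * (ε * π ^ (p * (n - 1)) * z ^ p) := by
          have : p * n = p + p * (n - 1) := by
            obtain ⟨k, rfl⟩ : ∃ k, n = k + 1 := ⟨n - 1, by omega⟩
            simp only [Nat.add_sub_cancel]
            ring
          rw [this, pow_add]; ring
  set P' := ∏ η ∈ Finset.erase S 1, T η with hP'
  have hsplit : T 1 * P' = ε * π ^ (p * (n - 1)) * z ^ p := by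
    rw [hP', Finset.mul_prod_erase S T h1S, hprodT]
  have hP'not : ¬ π ∣ P' := by
    intro hd
    obtain ⟨η, hη, hd'⟩ := (hπp.dvd_finsetProd_iff _).mp hd
    exact hT_not η (Finset.mem_of_mem_erase hη) (Finset.ne_of_mem_erase hη) hd'
  have hn2 : 2 ≤ n := by
    by_contra hlt
    have hn1 : n = 1 := by omega
    rw [hn1] at hsplit
    simp only [Nat.sub_self, mul_zero, pow_zero, mul_one] at hsplit
    have h5 : π ∣ (ε : 𝓞 K) * z ^ p := hsplit ▸ Dvd.dvd.mul_right hT1 _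
    exact hz (hπp.dvd_of_dvd_pow (Units.dvd_mul_left.mp h5))
  refine ⟨hn2, ?_⟩
  have hpow : π ^ (p * (n - 1)) ∣ T 1 := by
    apply hπp.pow_dvd_of_dvd_mul_right _ hP'not
    rw [hsplit]
    exact Dvd.dvd.mul_right (Dvd.intro_left _ rfl) _
  obtain ⟨X₀, hX₀⟩ := hpow
  have hX₀P' : X₀ * P' = ε * z ^ p := by
    apply mul_left_cancel₀ (pow_ne_zero (p * (n - 1)) hπ0)
    calc π ^ (p * (n - 1)) * (X₀ * P') = T 1 * P' := by rw [hX₀]; ring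
      _ = π ^ (p * (n - 1)) * (ε * z ^ p) := by rw [hsplit]; ring
  have hX₀not : ¬ π ∣ X₀ := by
    intro hd
    have h5 : π ∣ (ε : 𝓞 K) * z ^ p := hX₀P' ▸ Dvd.dvd.mul_right hd _
    exact hz (hπp.dvd_of_dvd_pow (Units.dvd_mul_left.mp h5))
  -- the modified family `G`
  let G : 𝓞 K → 𝓞 K := fun η => if η = 1 then X₀ else T η
  have hG1 : G 1 = X₀ := if_pos rfl
  have hGne : ∀ η, η ≠ 1 → G η = T η := fun η hne => if_neg hne
  have hGprod : ∏ η ∈ S, G η = ε * z ^ p := by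
    rw [← Finset.mul_prod_erase S G h1S, hG1, ← hX₀P']
    congr 1
    exact Finset.prod_congr rfl (fun η hη => hGne η (Finset.ne_of_mem_erase hη))
  have hGcop : ∀ η₁ ∈ S, ∀ η₂ ∈ S, η₁ ≠ η₂ → IsCoprime (G η₁) (G η₂) := by
    intro η₁ h₁ η₂ h₂ hne
    by_cases e1 : η₁ = 1
    · rw [e1] at hne ⊢
      rw [hG1, hGne η₂ (Ne.symm hne)]
      have h6 := hTcop 1 h1S η₂ h₂ hne
      rw [hX₀] at h6
      exact h6.of_mul_left_right
    · by_cases e2 : η₂ = 1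
      · rw [e2] at hne ⊢
        rw [hG1, hGne η₁ e1]
        have h6 := hTcop η₁ h₁ 1 h1S hne
        rw [hX₀] at h6
        exact h6.of_mul_right_right
      · rw [hGne η₁ e1, hGne η₂ e2]; exact hTcop η₁ h₁ η₂ h₂ hne
  have hpowG := FA_exists_associated_pow_of_prod S G p z ε hGcop hGprod
  -- the three roots `1`, `ζ`, `ζ ^ 2`
  set ζ' : 𝓞 K := hζ.toInteger with hζ'
  have hζprim : IsPrimitiveRoot ζ' p := hζ.toInteger_isPrimitiveRoot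
  have hζS : ζ' ∈ S := hζprim.mem_nthRootsFinset hp.out.pos
  have hζ2S : ζ' ^ 2 ∈ S := by
    rw [mem_nthRootsFinset hp.out.pos, ← pow_mul, mul_comm, pow_mul, hζprim.pow_eq_one, one_pow]
  have hζne1 : ζ' ≠ 1 := hζprim.ne_one hp.out.one_lt
  have hζ2ne1 : ζ' ^ 2 ≠ 1 := by
    intro h2
    have h3 := hζprim.dvd_of_pow_eq_one 2 h2
    exact hp2 ((Nat.prime_dvd_prime_iff_eq hp.out Nat.prime_two).mp h3)
  obtain ⟨ρ₀, u₀, h0⟩ := hpowG 1 h1S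
  obtain ⟨ρ₁, u₁, h1⟩ := hpowG ζ' hζS
  obtain ⟨ρ₂, u₂, h2⟩ := hpowG (ζ' ^ 2) hζ2S
  rw [hG1] at h0
  rw [hGne _ hζne1] at h1
  rw [hGne _ hζ2ne1] at h2
  have hrel : T (ζ' ^ 2) - (1 + ζ') * T ζ' + ζ' * T 1 = 0 := by
    apply mul_left_cancel₀ hπ0
    calc π * (T (ζ' ^ 2) - (1 + ζ') * T ζ' + ζ' * T 1)
        = (x + ζ' ^ 2 * y) - (1 + ζ') * (x + ζ' * y) + ζ' * (x + 1 * y) := by
          rw [hT _ hζ2S, hT _ hζS, hT _ h1S]; ring
      _ = π * 0 := by ring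
  have hw : IsUnit (1 + ζ') := by
    have h3 := hζprim.geom_sum_isUnit hp.out.two_le (j := 2)
      ((Nat.coprime_primes Nat.prime_two hp.out).mpr (Ne.symm hp2))
    simpa [Finset.sum_range_succ] using h3
  obtain ⟨w, hw'⟩ := hw
  obtain ⟨ζu, hζu'⟩ := FA_isUnit_of_mem hζ hζS
  -- the new equation
  set E : (𝓞 K)ˣ := w * u₁ with hE
  set η' : (𝓞 K)ˣ := -(u₂ * E⁻¹) with hη'
  set ε' : (𝓞 K)ˣ := ζu * u₀ * E⁻¹ with hε'
  have hEval : (E : 𝓞 K) = (1 + ζ') * u₁ := by rw [hE, Units.val_mul, hw']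
  have hEinv : (E : 𝓞 K) * ((E⁻¹ : (𝓞 K)ˣ) : 𝓞 K) = 1 := Units.mul_inv E
  have hη'val : (η' : 𝓞 K) = -((u₂ : 𝓞 K) * ((E⁻¹ : (𝓞 K)ˣ) : 𝓞 K)) := by
    rw [hη', Units.val_neg, Units.val_mul]
  have hε'val : (ε' : 𝓞 K) = ζ' * (u₀ : 𝓞 K) * ((E⁻¹ : (𝓞 K)ˣ) : 𝓞 K) := by
    rw [hε', Units.val_mul, Units.val_mul, hζu']
  have hnew : ρ₁ ^ p + (η' : 𝓞 K) * ρ₂ ^ p = (ε' : 𝓞 K) * π ^ (p * (n - 1)) * ρ₀ ^ p := by
    rw [hη'val, hε'val]
    rw [← h2, ← h1, hX₀, ← h0] at hrel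
    rw [hEval] at hEinv
    linear_combination (-((E⁻¹ : (𝓞 K)ˣ) : 𝓞 K)) * hrel - ρ₁ ^ p * hEinv
  -- Kummer's lemma applies to `η'`
  have hpdvd : (p : 𝓞 K) ∣ π ^ (p * (n - 1)) := by
    rw [pow_mul]
    exact dvd_trans (FA_p_dvd_pi_pow hζ) (dvd_pow_self _ (by omega))
  have hsum : (p : 𝓞 K) ∣ ρ₁ ^ p + (η' : 𝓞 K) * ρ₂ ^ p := by
    rw [hnew]; exact Dvd.dvd.mul_right (Dvd.dvd.mul_left hpdvd _) _
  obtain ⟨m₁, hm₁⟩ := FA_exists_int_pow_sub_dvd hζ hp2 ρ₁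
  obtain ⟨m₂, hm₂⟩ := FA_exists_int_pow_sub_dvd hζ hp2 ρ₂
  have hρ₁ : ¬ π ∣ ρ₁ := by
    intro hd
    apply hT_not _ hζS hζne1
    rw [← h1]
    exact Dvd.dvd.mul_right (dvd_pow hd hp.out.ne_zero) _
  have hρ₂ : ¬ π ∣ ρ₂ := by
    intro hd
    apply hT_not _ hζ2S hζ2ne1
    rw [← h2]
    exact Dvd.dvd.mul_right (dvd_pow hd hp.out.ne_zero) _
  have hρ₀ : ¬ π ∣ ρ₀ := by
    intro hd
    apply hX₀not
    rw [← h0]
    exact Dvd.dvd.mul_right (dvd_pow hd hp.out.ne_zero) _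
  have hm₂' : ¬ (p : ℤ) ∣ m₂ := by
    intro hd
    apply hρ₂
    have h3 : π ∣ (m₂ : 𝓞 K) :=
      (IsCyclotomicExtension.Rat.zeta_sub_one_dvd_intCast_iff' p hζ).mpr hd
    have h4 : π ∣ ρ₂ ^ p - (m₂ : 𝓞 K) := dvd_trans hζ.toInteger_sub_one_dvd_prime' hm₂
    have h5 : π ∣ ρ₂ ^ p := by
      have h6 := dvd_add h4 h3
      rwa [sub_add_cancel] at h6
    exact hπp.dvd_of_dvd_pow h5
  obtain ⟨k, hk⟩ := FA_exists_int_sub_dvd_of_dvd_add_mul hm₁ hm₂ hm₂' hsum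
  obtain ⟨v, hv⟩ := hK η' ⟨k, hk⟩
  refine ⟨ρ₁, v * ρ₂, ρ₀, ε', hρ₁, ?_, hρ₀, ?_, ?_⟩
  · rwa [Units.dvd_mul_left]
  · have h6 : IsCoprime (T ζ') (T (ζ' ^ 2)) := hTcop _ hζS _ hζ2S (Ne.symm (by
      intro h7
      apply hζne1
      have hne0 : ζ' ≠ 0 := hζprim.ne_zero hp.out.ne_zero
      have h8 : ζ' * ζ' = ζ' * 1 := by rw [mul_one, ← pow_two]; exact h7
      exact mul_left_cancel₀ hne0 h8))
    rw [← h1, ← h2] at h6
    have h7 : IsCoprime ρ₁ ρ₂ := by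
      have h8 := h6.of_mul_left_left.of_mul_right_left
      exact (IsCoprime.pow_iff hp.out.pos hp.out.pos).mp h8
    exact (isCoprime_mul_unit_left_right v.isUnit ρ₁ ρ₂).mpr h7
  · rw [mul_pow, ← Units.val_pow_eq_pow_val, ← hv, hnew]

/-- The generalised equation has no solution with `n ≥ 1`. -/
theorem FA_no_sol (hp2 : p ≠ 2) [IsPrincipalIdealRing (𝓞 K)]
    (hK : ∀ u : (𝓞 K)ˣ, (∃ m : ℤ, (p : 𝓞 K) ∣ (u : 𝓞 K) - (m : 𝓞 K)) → ∃ v : (𝓞 K)ˣ, u = v ^ p) :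
    ∀ n : ℕ, 1 ≤ n → ∀ (x y z : 𝓞 K) (ε : (𝓞 K)ˣ), ¬ FA_IsSol hζ n x y z ε := by
  intro n
  induction n with
  | zero => intro h; omega
  | succ k ih =>
    intro _ x y z ε hsol
    obtain ⟨y', hsol', hsq⟩ := FA_exists_sol_pi_sq_dvd hζ hp2 (by omega) hsol
    obtain ⟨h2, x', y'', z', ε', hsol''⟩ := FA_descent_step hζ hp2 hK (by omega) hsol' hsq
    simp only [Nat.add_sub_cancel] at hsol''
    exact ih (by omega) x' y'' z' ε' hsol''

end descent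

section main

/-- **Case II of Fermat's Last Theorem** for an odd prime `p` such that the ring of integers of the
`p`-th cyclotomic field is a PID and satisfies Kummer's lemma: if `p ∣ c`, `c ≠ 0` and `a`, `b` are
coprime integers, then `a ^ p + b ^ p ≠ c ^ p`. -/
theorem caseII {p : ℕ} [hp : Fact p.Prime] (hp2 : p ≠ 2) {K : Type*} [Field K] [NumberField K]
    [IsCyclotomicExtension {p} ℚ K] [IsPrincipalIdealRing (𝓞 K)]
    (hK : ∀ u : (𝓞 K)ˣ, (∃ n : ℤ, ((p : ℕ) : 𝓞 K) ∣ (u : 𝓞 K) - n) → ∃ v : (𝓞 K)ˣ, u = v ^ p)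
    {a b c : ℤ} (hab : IsCoprime a b) (hc : c ≠ 0) (hpc : (p : ℤ) ∣ c) :
    a ^ p + b ^ p ≠ c ^ p := by
  intro heq
  have hζ := IsCyclotomicExtension.zeta_spec p ℚ K
  have hpprime : Prime (p : ℤ) := Nat.prime_iff_prime_int.mp hp.out
  have hpa : ¬ (p : ℤ) ∣ a := by
    intro hd
    have h1 : (p : ℤ) ∣ b ^ p := by
      have : b ^ p = c ^ p - a ^ p := by rw [← heq]; ring
      rw [this]; exact dvd_sub (dvd_pow hpc hp.out.ne_zero) (dvd_pow hd hp.out.ne_zero)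
    exact hpprime.not_isUnit (hab.isUnit_of_dvd' hd (hpprime.dvd_of_dvd_pow h1))
  have hpb : ¬ (p : ℤ) ∣ b := by
    intro hd
    have h1 : (p : ℤ) ∣ a ^ p := by
      have : a ^ p = c ^ p - b ^ p := by rw [← heq]; ring
      rw [this]; exact dvd_sub (dvd_pow hpc hp.out.ne_zero) (dvd_pow hd hp.out.ne_zero)
    exact hpprime.not_isUnit (hab.isUnit_of_dvd' (hpprime.dvd_of_dvd_pow h1) hd)
  have hfin : FiniteMultiplicity (p : ℤ) c :=
    Int.finiteMultiplicity_iff.mpr ⟨by simpa using hp.out.ne_one, hc⟩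
  obtain ⟨c₀, hc₀, hpc₀⟩ := hfin.exists_eq_pow_mul_and_not_dvd
  set k := multiplicity (p : ℤ) c with hk
  have hk1 : 1 ≤ k := by
    rw [Nat.one_le_iff_ne_zero]
    intro hk0
    rw [hk0, pow_zero, one_mul] at hc₀
    exact hpc₀ (hc₀ ▸ hpc)
  obtain ⟨u, hu⟩ := IsCyclotomicExtension.Rat.associated_zeta_sub_one_pow_prime p hζ
  have hp1 : 1 ≤ p - 1 := by have := hp.out.two_le; omega
  refine FA_no_sol hζ hp2 hK ((p - 1) * k) (Nat.mul_pos hp1 hk1) (a : 𝓞 K) (b : 𝓞 K) (c₀ : 𝓞 K)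
    (u ^ (k * p)) ⟨?_, ?_, ?_, hab.intCast, ?_⟩
  · rwa [IsCyclotomicExtension.Rat.zeta_sub_one_dvd_intCast_iff' p hζ]
  · rwa [IsCyclotomicExtension.Rat.zeta_sub_one_dvd_intCast_iff' p hζ]
  · rwa [IsCyclotomicExtension.Rat.zeta_sub_one_dvd_intCast_iff' p hζ]
  · have h1 : ((a : 𝓞 K)) ^ p + (b : 𝓞 K) ^ p = (c : 𝓞 K) ^ p := by exact_mod_cast heq
    rw [h1, hc₀]
    push_cast
    rw [← hu]
    ring

end main

end Fermat.Agent.FLTReg
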