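/-
Case II of Fermat's Last Theorem (Kummer's descent) for an odd prime p such that the ring of
integers of the p-th cyclotomic field is a PID and Kummer's lemma on units holds.
Main result: Fermat.Agent.FLTReg.B.caseII.
-/
import Mathlib

set_option autoImplicit false

open NumberField Finset Polynomial

namespace Fermat.Agent.FLTReg.B

section generic

variable {R : Type*} [CommRing R] [IsDomain R] [IsPrincipalIdealRing R]

/-- Coprime factors of (unit times) a `k`-th power are (unit times) `k`-th powers. -/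
theorem exists_unit_mul_pow_of_mul_eq {a b z : R} {ε : Rˣ} {k : ℕ} (hab : IsCoprime a b)
    (h : a * b = ε * z ^ k) : ∃ (u : Rˣ) (ρ : R), a = u * ρ ^ k := by
  have h' : ((ε⁻¹ : Rˣ) * a) * b = z ^ k := by
    rw [mul_assoc, h, ← mul_assoc, ← Units.val_mul, inv_mul_cancel, Units.val_one, one_mul]
  have hcop : IsCoprime (((ε⁻¹ : Rˣ) : R) * a) b :=
    (isCoprime_mul_unit_left_left (ε⁻¹).isUnit a b).2 hab
  obtain ⟨d, u, hu⟩ := exists_associated_pow_of_mul_eq_pow' hcop h'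
  refine ⟨ε * u, d, ?_⟩
  rw [Units.val_mul, mul_assoc, mul_comm (u : R), hu, ← mul_assoc, ← Units.val_mul,
    mul_inv_cancel, Units.val_one, one_mul]

/-- Finset version. -/
theorem exists_unit_mul_pow_of_prod_eq {ι : Type*} [DecidableEq ι] (s : Finset ι) (f : ι → R)
    {z : R} {ε : Rˣ} {k : ℕ}
    (hcop : ∀ i ∈ s, ∀ j ∈ s, i ≠ j → IsCoprime (f i) (f j))
    (h : ∏ i ∈ s, f i = ε * z ^ k) {i : ι} (hi : i ∈ s) :
    ∃ (u : Rˣ) (ρ : R), f i = u * ρ ^ k := by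
  rw [← Finset.mul_prod_erase s f hi] at h
  refine exists_unit_mul_pow_of_mul_eq (IsCoprime.prod_right fun j hj => ?_) h
  exact hcop i hi j (Finset.mem_of_mem_erase hj) (Finset.ne_of_mem_erase hj).symm

end generic

section basics

variable {p : ℕ} [hp : Fact p.Prime] {K : Type*} [Field K] [NumberField K]
  [hK : IsCyclotomicExtension {p} ℚ K] {ζ : K} (hζ : IsPrimitiveRoot ζ p)

include hζ in
/-- Every `p`-th power in `𝓞 K` is congruent to a rational integer modulo `p`. -/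
theorem exists_int_pow_sub_dvd (w : 𝓞 K) : ∃ m : ℤ, (p : 𝓞 K) ∣ w ^ p - (m : 𝓞 K) := by
  have hw : w ∈ Algebra.adjoin ℤ {hζ.toInteger} := by
    rw [IsCyclotomicExtension.Rat.adjoin_singleton_eq_top hζ]; trivial
  induction hw using Algebra.adjoin_induction with
  | mem x hx =>
    rw [Set.mem_singleton_iff] at hx
    refine ⟨1, ?_⟩
    rw [hx, hζ.toInteger_isPrimitiveRoot.pow_eq_one]
    simp
  | algebraMap r =>
    refine ⟨r ^ p, ?_⟩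
    simp
  | add x y _ _ hx hy =>
    obtain ⟨mx, a, ha⟩ := hx
    obtain ⟨my, b, hb⟩ := hy
    obtain ⟨r, hr⟩ := exists_add_pow_prime_eq hp.out x y
    refine ⟨mx + my, a + b + x * y * r, ?_⟩
    push_cast
    linear_combination hr + ha + hb
  | mul x y _ _ hx hy =>
    obtain ⟨mx, a, ha⟩ := hx
    obtain ⟨my, b, hb⟩ := hy
    refine ⟨mx * my, a * y ^ p + (mx : 𝓞 K) * b, ?_⟩
    push_cast
    rw [mul_pow]
    linear_combination (y ^ p) * ha + (mx : 𝓞 K) * hb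

include hK in
theorem card_quot_pi (hp2 : p ≠ 2) :
    Nat.card (𝓞 K ⧸ Ideal.span {hζ.toInteger - 1}) = p := by
  rw [hζ.card_quotient_toInteger_sub_one, hζ.norm_toInteger_sub_one_of_prime_ne_two' hp2]
  simp

omit [NumberField K] hK in
/-- For distinct `p`-th roots of unity, the difference is `π` times a unit. -/
theorem exists_unit_sub_eq {η₁ η₂ : 𝓞 K} (h₁ : η₁ ∈ nthRootsFinset p (1 : 𝓞 K))
    (h₂ : η₂ ∈ nthRootsFinset p (1 : 𝓞 K)) (hne : η₁ ≠ η₂) :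
    ∃ u : (𝓞 K)ˣ, η₁ - η₂ = (hζ.toInteger - 1) * u := by
  obtain ⟨u, hu⟩ :=
    hζ.toInteger_isPrimitiveRoot.nthRootsFinset_pairwise_associated_sub_one_sub_of_prime hp.out
      h₁ h₂ hne
  exact ⟨u, hu.symm⟩

omit [NumberField K] hK in
theorem pi_dvd_sub {η₁ η₂ : 𝓞 K} (h₁ : η₁ ∈ nthRootsFinset p (1 : 𝓞 K))
    (h₂ : η₂ ∈ nthRootsFinset p (1 : 𝓞 K)) : (hζ.toInteger - 1) ∣ η₁ - η₂ :=
  hζ.toInteger_isPrimitiveRoot.sub_one_dvd_sub hp.out h₁ h₂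

/-- Pigeonhole: a family indexed by the `p`-th roots of unity that is injective modulo `π`
hits `0` modulo `π`. -/
theorem exists_pi_dvd_of_injOn (hp2 : p ≠ 2) (X : 𝓞 K → 𝓞 K)
    (hinj : ∀ η₁ ∈ nthRootsFinset p (1 : 𝓞 K), ∀ η₂ ∈ nthRootsFinset p (1 : 𝓞 K),
      (hζ.toInteger - 1) ∣ X η₁ - X η₂ → η₁ = η₂) :
    ∃ η ∈ nthRootsFinset p (1 : 𝓞 K), (hζ.toInteger - 1) ∣ X η := by
  classical
  by_contra hcon
  push Not at hcon
  have hfin : Finite (𝓞 K ⧸ Ideal.span {hζ.toInteger - 1}) :=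
    Nat.finite_of_card_ne_zero (by rw [card_quot_pi hζ hp2]; exact hp.out.ne_zero)
  let _ : Fintype (𝓞 K ⧸ Ideal.span {hζ.toInteger - 1}) := Fintype.ofFinite _
  have hcard : Fintype.card (𝓞 K ⧸ Ideal.span {hζ.toInteger - 1}) = p := by
    rw [← Nat.card_eq_fintype_card, card_quot_pi hζ hp2]
  let g : 𝓞 K → 𝓞 K ⧸ Ideal.span {hζ.toInteger - 1} := fun η => Ideal.Quotient.mk _ (X η)
  have hmaps : ∀ η ∈ nthRootsFinset p (1 : 𝓞 K),
      g η ∈ (Finset.univ.erase (0 : 𝓞 K ⧸ Ideal.span {hζ.toInteger - 1})) := by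
    intro η hη
    rw [Finset.mem_erase]
    refine ⟨?_, Finset.mem_univ _⟩
    intro h0
    rw [Ideal.Quotient.eq_zero_iff_mem, Ideal.mem_span_singleton] at h0
    exact hcon η hη h0
  have hlt : #(Finset.univ.erase (0 : 𝓞 K ⧸ Ideal.span {hζ.toInteger - 1})) <
      #(nthRootsFinset p (1 : 𝓞 K)) := by
    rw [Finset.card_erase_of_mem (Finset.mem_univ _), Finset.card_univ, hcard,
      hζ.toInteger_isPrimitiveRoot.card_nthRootsFinset]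
    exact Nat.sub_lt hp.out.pos one_pos
  obtain ⟨η₁, h₁, η₂, h₂, hne, heq⟩ := Finset.exists_ne_map_eq_of_card_lt_of_maps_to hlt hmaps
  apply hne
  apply hinj η₁ h₁ η₂ h₂
  rw [← Ideal.mem_span_singleton, ← Ideal.Quotient.eq]
  exact heq

/-- A solution of the generalised Fermat equation `x^p + y^p = ε π^(pn) z^p`. -/
def IsSol (n : ℕ) (x y z : 𝓞 K) (ε : (𝓞 K)ˣ) : Prop :=
  ¬ (hζ.toInteger - 1) ∣ y ∧ ¬ (hζ.toInteger - 1) ∣ z ∧ IsCoprime x y ∧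
    x ^ p + y ^ p = ε * (hζ.toInteger - 1) ^ (p * n) * z ^ p


/-- The descent step of Kummer's argument. -/
theorem descent [IsPrincipalIdealRing (𝓞 K)] (hp2 : p ≠ 2)
    (hKum : ∀ u : (𝓞 K)ˣ, (∃ n : ℤ, ((p : ℕ) : 𝓞 K) ∣ (u : 𝓞 K) - n) → ∃ v : (𝓞 K)ˣ, u = v ^ p)
    {n : ℕ} (hn : 1 ≤ n) {x y z : 𝓞 K} {ε : (𝓞 K)ˣ} (h : IsSol hζ n x y z ε) :
    2 ≤ n ∧ ∃ (x' y' z' : 𝓞 K) (ε' : (𝓞 K)ˣ), IsSol hζ (n - 1) x' y' z' ε' := by
  classical
  obtain ⟨hy, hz, hxy, heq⟩ := h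
  have hζ' : IsPrimitiveRoot hζ.toInteger p := hζ.toInteger_isPrimitiveRoot
  have hπ : Prime (hζ.toInteger - 1) := hζ.zeta_sub_one_prime'
  have hπ0 : hζ.toInteger - 1 ≠ 0 := hπ.ne_zero
  have hodd : Odd p := hp.out.odd_of_ne_two hp2
  have hp0 : p ≠ 0 := hp.out.ne_zero
  have hcardμ : #(nthRootsFinset p (1 : 𝓞 K)) = p := hζ'.card_nthRootsFinset
  -- product formula
  have hprod : x ^ p + y ^ p = ∏ η ∈ nthRootsFinset p (1 : 𝓞 K), (x + η * y) :=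
    hζ'.pow_add_pow_eq_prod_add_mul x y hodd
  -- Stage 1: `π` divides every factor
  have hdvd_all : ∀ η ∈ nthRootsFinset p (1 : 𝓞 K), (hζ.toInteger - 1) ∣ x + η * y := by
    have h1 : (hζ.toInteger - 1) ∣ ∏ η ∈ nthRootsFinset p (1 : 𝓞 K), (x + η * y) := by
      rw [← hprod, heq]
      refine Dvd.dvd.mul_right (Dvd.dvd.mul_left (dvd_pow_self _ ?_) _) _
      exact Nat.mul_ne_zero hp0 (by omega)
    obtain ⟨η₁, h₁, hη₁⟩ := hπ.exists_mem_finset_dvd h1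
    intro η hη
    have : x + η * y = (x + η₁ * y) + (η - η₁) * y := by ring
    rw [this]
    exact dvd_add hη₁ (Dvd.dvd.mul_right (pi_dvd_sub hζ hη h₁) _)
  choose! X hX using hdvd_all
  -- Stage 3: differences
  have hdiff : ∀ η₁ ∈ nthRootsFinset p (1 : 𝓞 K), ∀ η₂ ∈ nthRootsFinset p (1 : 𝓞 K), η₁ ≠ η₂ →
      ∃ u : (𝓞 K)ˣ, X η₁ - X η₂ = u * y ∧ η₂ * X η₁ - η₁ * X η₂ = -(u * x) := by
    intro η₁ h₁ η₂ h₂ hne
    obtain ⟨u, hu⟩ := exists_unit_sub_eq hζ h₁ h₂ hne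
    refine ⟨u, ?_, ?_⟩
    · apply mul_left_cancel₀ hπ0
      linear_combination -(hX η₁ h₁) + hX η₂ h₂ + y * hu
    · apply mul_left_cancel₀ hπ0
      linear_combination -η₂ * hX η₁ h₁ + η₁ * hX η₂ h₂ - x * hu
  have hcop : ∀ η₁ ∈ nthRootsFinset p (1 : 𝓞 K), ∀ η₂ ∈ nthRootsFinset p (1 : 𝓞 K), η₁ ≠ η₂ →
      IsCoprime (X η₁) (X η₂) := by
    intro η₁ h₁ η₂ h₂ hne
    obtain ⟨u, hu1, hu2⟩ := hdiff η₁ h₁ η₂ h₂ hne
    obtain ⟨a, b, hab⟩ := hxy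
    have hv : ((u⁻¹ : (𝓞 K)ˣ) : 𝓞 K) * u = 1 := Units.inv_mul u
    refine ⟨-(a * (u⁻¹ : (𝓞 K)ˣ) * η₂) + b * (u⁻¹ : (𝓞 K)ˣ),
      a * (u⁻¹ : (𝓞 K)ˣ) * η₁ - b * (u⁻¹ : (𝓞 K)ˣ), ?_⟩
    linear_combination (-(a * ((u⁻¹ : (𝓞 K)ˣ) : 𝓞 K))) * hu2 +
      (b * ((u⁻¹ : (𝓞 K)ˣ) : 𝓞 K)) * hu1 + (a * x + b * y) * hv + hab
  -- Stage 4: pigeonhole
  have hinj : ∀ η₁ ∈ nthRootsFinset p (1 : 𝓞 K), ∀ η₂ ∈ nthRootsFinset p (1 : 𝓞 K),
      (hζ.toInteger - 1) ∣ X η₁ - X η₂ → η₁ = η₂ := by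
    intro η₁ h₁ η₂ h₂ hd
    by_contra hne
    obtain ⟨u, hu1, -⟩ := hdiff η₁ h₁ η₂ h₂ hne
    rw [hu1, u.isUnit.dvd_mul_left] at hd
    exact hy hd
  obtain ⟨η₀, hη₀, hπX₀⟩ := exists_pi_dvd_of_injOn hζ hp2 X hinj
  -- Stage 5
  have hnd : ∀ η ∈ nthRootsFinset p (1 : 𝓞 K), η ≠ η₀ → ¬ (hζ.toInteger - 1) ∣ X η := by
    intro η hη hne hd
    exact hne (hinj η hη η₀ hη₀ (dvd_sub hd hπX₀))
  -- Stage 6: the product of the `X η`
  have hprodX : ∏ η ∈ nthRootsFinset p (1 : 𝓞 K), X η =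
      ε * (hζ.toInteger - 1) ^ (p * (n - 1)) * z ^ p := by
    have h1 : ∏ η ∈ nthRootsFinset p (1 : 𝓞 K), (x + η * y) =
        (hζ.toInteger - 1) ^ p * ∏ η ∈ nthRootsFinset p (1 : 𝓞 K), X η := by
      rw [Finset.prod_congr rfl hX, Finset.prod_mul_distrib, Finset.prod_const, hcardμ]
    apply mul_left_cancel₀ (pow_ne_zero p hπ0)
    rw [← h1, ← hprod, heq]
    have : p * n = p + p * (n - 1) := by
      obtain ⟨k, rfl⟩ : ∃ k, n = k + 1 := ⟨n - 1, by omega⟩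
      simp [Nat.mul_succ, add_comm]
    rw [this, pow_add]
    ring
  -- Stage 7: `2 ≤ n`
  have hn2 : 2 ≤ n := by
    by_contra hlt
    have hn1 : n = 1 := by omega
    subst hn1
    have h1 : (hζ.toInteger - 1) ∣ ∏ η ∈ nthRootsFinset p (1 : 𝓞 K), X η :=
      hπX₀.trans (Finset.dvd_prod_of_mem X hη₀)
    rw [hprodX] at h1
    simp only [Nat.sub_self, mul_zero, pow_zero, mul_one] at h1
    rw [ε.isUnit.dvd_mul_left] at h1
    exact hz (hπ.dvd_of_dvd_pow h1)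
  refine ⟨hn2, ?_⟩
  -- Stage 8: the power of `π` sits in `X η₀`
  have hsplit : X η₀ * ∏ η ∈ (nthRootsFinset p (1 : 𝓞 K)).erase η₀, X η =
      ε * (hζ.toInteger - 1) ^ (p * (n - 1)) * z ^ p := by
    rw [Finset.mul_prod_erase _ X hη₀, hprodX]
  have hnd_erase : ¬ (hζ.toInteger - 1) ∣ ∏ η ∈ (nthRootsFinset p (1 : 𝓞 K)).erase η₀, X η := by
    rw [hπ.dvd_finsetProd_iff]
    rintro ⟨η, hη, hd⟩
    exact hnd η (Finset.mem_of_mem_erase hη) (Finset.ne_of_mem_erase hη) hd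
  have hpow_dvd : (hζ.toInteger - 1) ^ (p * (n - 1)) ∣ X η₀ := by
    apply hπ.pow_dvd_of_dvd_mul_right _ hnd_erase
    rw [hsplit]
    exact Dvd.dvd.mul_right (Dvd.intro_left _ rfl) _
  obtain ⟨Y₀, hY₀⟩ := hpow_dvd
  have hY₀prod : Y₀ * ∏ η ∈ (nthRootsFinset p (1 : 𝓞 K)).erase η₀, X η = ε * z ^ p := by
    apply mul_left_cancel₀ (pow_ne_zero (p * (n - 1)) hπ0)
    rw [← mul_assoc, ← hY₀, hsplit]
    ring
  have hπY₀ : ¬ (hζ.toInteger - 1) ∣ Y₀ := by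
    intro hd
    have h1 : (hζ.toInteger - 1) ∣ ε * z ^ p := by
      rw [← hY₀prod]; exact Dvd.dvd.mul_right hd _
    rw [ε.isUnit.dvd_mul_left] at h1
    exact hz (hπ.dvd_of_dvd_pow h1)
  -- Stage 9: all factors are `p`-th powers up to units
  let f : 𝓞 K → 𝓞 K := fun η => if η = η₀ then Y₀ else X η
  have hfη₀ : f η₀ = Y₀ := if_pos rfl
  have hfne : ∀ η, η ≠ η₀ → f η = X η := fun η hne => if_neg hne
  have hfprod : ∏ η ∈ nthRootsFinset p (1 : 𝓞 K), f η = ε * z ^ p := by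
    rw [← Finset.mul_prod_erase _ f hη₀, hfη₀, ← hY₀prod]
    congr 1
    exact Finset.prod_congr rfl fun η hη => hfne η (Finset.ne_of_mem_erase hη)
  have hY₀dvd : Y₀ ∣ X η₀ := ⟨_, by rw [hY₀, mul_comm]⟩
  have hfcop : ∀ i ∈ nthRootsFinset p (1 : 𝓞 K), ∀ j ∈ nthRootsFinset p (1 : 𝓞 K), i ≠ j →
      IsCoprime (f i) (f j) := by
    intro i hi j hj hij
    by_cases hi0 : i = η₀
    · subst hi0
      rw [hfη₀, hfne j (Ne.symm hij)]
      exact IsCoprime.of_isCoprime_of_dvd_left (hcop i hi j hj hij) hY₀dvd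
    · by_cases hj0 : j = η₀
      · subst hj0
        rw [hfη₀, hfne i hij]
        exact IsCoprime.of_isCoprime_of_dvd_right (hcop i hi j hj hij) hY₀dvd
      · rw [hfne i hi0, hfne j hj0]
        exact hcop i hi j hj hij
  have hpows : ∀ i ∈ nthRootsFinset p (1 : 𝓞 K), ∃ (u : (𝓞 K)ˣ) (ρ : 𝓞 K), f i = u * ρ ^ p :=
    fun i hi => exists_unit_mul_pow_of_prod_eq _ f hfcop hfprod hi
  -- Stage 10: three roots
  have hη₀p : η₀ ^ p = 1 := (mem_nthRootsFinset hp.out.pos 1).1 hη₀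
  have hη₀0 : η₀ ≠ 0 := by
    intro h0
    rw [h0, zero_pow hp0] at hη₀p
    exact zero_ne_one hη₀p
  have hζ1 : hζ.toInteger ≠ 1 := hζ'.ne_one hp.out.one_lt
  have hζ0 : hζ.toInteger ≠ 0 := hζ'.ne_zero hp0
  have hζsq : hζ.toInteger ^ 2 ≠ 1 := by
    intro h2
    have := (hζ'.pow_eq_one_iff_dvd 2).1 h2
    have hle := Nat.le_of_dvd (by norm_num) this
    have := hp.out.two_le
    omega
  have hη₁ : η₀ * hζ.toInteger ∈ nthRootsFinset p (1 : 𝓞 K) := by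
    rw [mem_nthRootsFinset hp.out.pos, mul_pow, hη₀p, hζ'.pow_eq_one, one_mul]
  have hη₂ : η₀ * hζ.toInteger ^ 2 ∈ nthRootsFinset p (1 : 𝓞 K) := by
    rw [mem_nthRootsFinset hp.out.pos, mul_pow, hη₀p, one_mul, ← pow_mul, mul_comm, pow_mul,
      hζ'.pow_eq_one, one_pow]
  have hne10 : η₀ * hζ.toInteger ≠ η₀ := by
    intro h1
    apply hζ1
    apply mul_left_cancel₀ hη₀0
    rw [h1, mul_one]
  have hne20 : η₀ * hζ.toInteger ^ 2 ≠ η₀ := by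
    intro h1
    apply hζsq
    apply mul_left_cancel₀ hη₀0
    rw [h1, mul_one]
  have hne12 : η₀ * hζ.toInteger ≠ η₀ * hζ.toInteger ^ 2 := by
    intro h1
    apply hζ1
    have := mul_left_cancel₀ hη₀0 h1
    apply mul_left_cancel₀ hζ0
    rw [mul_one, ← pow_two]
    exact this.symm
  -- linear relation
  have hrel : X (η₀ * hζ.toInteger ^ 2) - (1 + hζ.toInteger) * X (η₀ * hζ.toInteger) +
      hζ.toInteger * X η₀ = 0 := by
    apply mul_left_cancel₀ hπ0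
    linear_combination -(hX _ hη₂) + (1 + hζ.toInteger) * hX _ hη₁ - hζ.toInteger * hX _ hη₀
  have hw : IsUnit (1 + hζ.toInteger) := by
    have h2 : Nat.Coprime 2 p := (Nat.coprime_primes Nat.prime_two hp.out).2 (Ne.symm hp2)
    have := hζ'.geom_sum_isUnit hp.out.two_le h2
    simpa [Finset.sum_range_succ] using this
  obtain ⟨u₀, ρ₀, h0⟩ := hpows η₀ hη₀
  obtain ⟨u₁, ρ₁, h1⟩ := hpows _ hη₁
  obtain ⟨u₂, ρ₂, h2⟩ := hpows _ hη₂
  rw [hfη₀] at h0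
  rw [hfne _ hne10] at h1
  rw [hfne _ hne20] at h2
  obtain ⟨w, hw'⟩ := hw
  obtain ⟨ζu, hζu⟩ := hζ'.isUnit hp0
  -- the units of the new equation
  set d : (𝓞 K)ˣ := (w * u₁)⁻¹ with hd
  have hdinv : (d : 𝓞 K) * ((1 + hζ.toInteger) * u₁) = 1 := by
    rw [← hw', ← Units.val_mul, ← Units.val_mul, hd, inv_mul_cancel, Units.val_one]
  set η' : (𝓞 K)ˣ := -(d * u₂) with hη'
  set ε' : (𝓞 K)ˣ := d * ζu * u₀ with hε'
  have hη'val : (η' : 𝓞 K) = -((d : 𝓞 K) * u₂) := by simp [hη']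
  have hε'val : (ε' : 𝓞 K) = (d : 𝓞 K) * hζ.toInteger * u₀ := by simp [hε', hζu]
  have hneweq : ρ₁ ^ p + (η' : 𝓞 K) * ρ₂ ^ p =
      ε' * (hζ.toInteger - 1) ^ (p * (n - 1)) * ρ₀ ^ p := by
    rw [hη'val, hε'val]
    rw [h2, h1, hY₀, h0] at hrel
    linear_combination (-(d : 𝓞 K)) * hrel - (ρ₁ ^ p) * hdinv
  -- Stage 11: Kummer's lemma applies to `η'`
  have hpdvd : (p : 𝓞 K) ∣ (hζ.toInteger - 1) ^ (p * (n - 1)) := by
    have h1 : (p : 𝓞 K) ∣ (hζ.toInteger - 1) ^ (p - 1) :=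
      (IsCyclotomicExtension.Rat.associated_zeta_sub_one_pow_prime p hζ).symm.dvd
    refine h1.trans (pow_dvd_pow _ ?_)
    calc p - 1 ≤ p := Nat.sub_le _ _
      _ = p * 1 := (mul_one p).symm
      _ ≤ p * (n - 1) := Nat.mul_le_mul_left _ (by omega)
  have hπdvdp : (hζ.toInteger - 1) ∣ (p : 𝓞 K) := hζ.toInteger_sub_one_dvd_prime'
  have hρ₂ : ¬ (hζ.toInteger - 1) ∣ ρ₂ := by
    intro hd2
    apply hnd _ hη₂ hne20
    rw [h2]
    exact Dvd.dvd.mul_left (dvd_pow hd2 hp0) _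
  have hρ₀ : ¬ (hζ.toInteger - 1) ∣ ρ₀ := by
    intro hd0
    apply hπY₀
    rw [h0]
    exact Dvd.dvd.mul_left (dvd_pow hd0 hp0) _
  obtain ⟨m₁, a₁, ha₁⟩ := exists_int_pow_sub_dvd hζ ρ₁
  obtain ⟨m₂, a₂, ha₂⟩ := exists_int_pow_sub_dvd hζ ρ₂
  have hm₂ : ¬ (p : ℤ) ∣ m₂ := by
    intro hpm
    have h3 : (hζ.toInteger - 1) ∣ (m₂ : 𝓞 K) :=
      (IsCyclotomicExtension.Rat.zeta_sub_one_dvd_intCast_iff' p hζ).2 hpm
    have h4 : (hζ.toInteger - 1) ∣ ρ₂ ^ p := by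
      have : ρ₂ ^ p = (m₂ : 𝓞 K) + (p : 𝓞 K) * a₂ := by linear_combination ha₂
      rw [this]
      exact dvd_add h3 (Dvd.dvd.mul_right hπdvdp _)
    exact hρ₂ (hπ.dvd_of_dvd_pow h4)
  have hcopm : IsCoprime (p : ℤ) m₂ :=
    (Nat.prime_iff_prime_int.1 hp.out).coprime_iff_not_dvd.2 hm₂
  obtain ⟨a, b, hab⟩ := hcopm
  obtain ⟨c, hc⟩ := hpdvd
  have habO : (a : 𝓞 K) * (p : 𝓞 K) + (b : 𝓞 K) * (m₂ : 𝓞 K) = 1 := by
    have := congrArg (Int.cast : ℤ → 𝓞 K) hab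
    push_cast at this
    exact this
  have hKhyp : ∃ m : ℤ, ((p : ℕ) : 𝓞 K) ∣ (η' : 𝓞 K) - m := by
    refine ⟨-(b * m₁), (a : 𝓞 K) * η' + (b : 𝓞 K) * (ε' * c * ρ₀ ^ p - a₁ - (η' : 𝓞 K) * a₂), ?_⟩
    push_cast
    rw [hc] at hneweq
    linear_combination (-(η' : 𝓞 K)) * habO + (b : 𝓞 K) * hneweq - (b : 𝓞 K) * ha₁
      - (b : 𝓞 K) * (η' : 𝓞 K) * ha₂
  obtain ⟨v, hv⟩ := hKum η' hKhyp
  -- Stage 12: the new solution
  refine ⟨ρ₁, v * ρ₂, ρ₀, ε', ?_, hρ₀, ?_, ?_⟩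
  · rw [v.isUnit.dvd_mul_left]
    exact hρ₂
  · have h12 : IsCoprime (X (η₀ * hζ.toInteger)) (X (η₀ * hζ.toInteger ^ 2)) :=
      hcop _ hη₁ _ hη₂ hne12
    rw [h1, h2, isCoprime_mul_unit_left_left u₁.isUnit, isCoprime_mul_unit_left_right u₂.isUnit,
      IsCoprime.pow_iff hp.out.pos hp.out.pos] at h12
    exact (isCoprime_mul_unit_left_right v.isUnit _ _).2 h12
  · rw [mul_pow, ← Units.val_pow_eq_pow_val, ← hv]
    exact hneweq


/-- The generalised Fermat equation has no solutions. -/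
theorem not_isSol [IsPrincipalIdealRing (𝓞 K)] (hp2 : p ≠ 2)
    (hKum : ∀ u : (𝓞 K)ˣ, (∃ n : ℤ, ((p : ℕ) : 𝓞 K) ∣ (u : 𝓞 K) - n) → ∃ v : (𝓞 K)ˣ, u = v ^ p)
    (n : ℕ) (hn : 1 ≤ n) (x y z : 𝓞 K) (ε : (𝓞 K)ˣ) : ¬ IsSol hζ n x y z ε := by
  induction n generalizing x y z ε with
  | zero => omega
  | succ m ih =>
    intro h
    obtain ⟨h2, x', y', z', ε', h'⟩ := descent hζ hp2 hKum hn h
    exact ih (by omega) x' y' z' ε' h'

end basics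

/-- **Case II of Fermat's Last Theorem** for an odd prime `p` such that the ring of integers of the
`p`-th cyclotomic field is a PID and Kummer's lemma holds. -/
theorem caseII {p : ℕ} [hp : Fact p.Prime] (hp2 : p ≠ 2) {K : Type*} [Field K] [NumberField K]
    [IsCyclotomicExtension {p} ℚ K] [IsPrincipalIdealRing (𝓞 K)]
    (hK : ∀ u : (𝓞 K)ˣ, (∃ n : ℤ, ((p : ℕ) : 𝓞 K) ∣ (u : 𝓞 K) - n) → ∃ v : (𝓞 K)ˣ, u = v ^ p)
    {a b c : ℤ} (hab : IsCoprime a b) (hc : c ≠ 0) (hpc : (p : ℤ) ∣ c) :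
    a ^ p + b ^ p ≠ c ^ p := by
  intro H
  have hζ := IsCyclotomicExtension.zeta_spec p ℚ K
  have hpp : Prime (p : ℤ) := Nat.prime_iff_prime_int.1 hp.out
  have hp0 : p ≠ 0 := hp.out.ne_zero
  -- `p ∤ b`
  have hpb : ¬ (p : ℤ) ∣ b := by
    intro hb
    have h1 : (p : ℤ) ∣ a ^ p := by
      have : a ^ p = c ^ p - b ^ p := by linear_combination H
      rw [this]
      exact dvd_sub (dvd_pow hpc hp0) (dvd_pow hb hp0)
    exact hpp.not_isUnit (hab.isUnit_of_dvd' (hpp.dvd_of_dvd_pow h1) hb)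
  -- write `c = p^k * c₀`
  have hfin : FiniteMultiplicity (p : ℤ) c :=
    Int.finiteMultiplicity_iff.2 ⟨by simpa using hp.out.ne_one, hc⟩
  obtain ⟨c₀, hc₀, hpc₀⟩ := hfin.exists_eq_pow_mul_and_not_dvd
  set k := multiplicity (p : ℤ) c with hk
  have hk1 : 1 ≤ k := by
    by_contra hlt
    have hk0 : k = 0 := by omega
    rw [hk0, pow_zero, one_mul] at hc₀
    exact hpc₀ (hc₀ ▸ hpc)
  -- `p = u * π^(p-1)`
  obtain ⟨u, hu⟩ := IsCyclotomicExtension.Rat.associated_zeta_sub_one_pow_prime p hζ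
  have hpK : 1 ≤ p - 1 := by have := hp.out.two_le; omega
  refine not_isSol hζ hp2 hK ((p - 1) * k) (Nat.mul_pos hpK hk1) (a : 𝓞 K) (b : 𝓞 K) (c₀ : 𝓞 K)
    (u ^ (k * p)) ⟨?_, ?_, hab.intCast, ?_⟩
  · rwa [IsCyclotomicExtension.Rat.zeta_sub_one_dvd_intCast_iff' p hζ]
  · rwa [IsCyclotomicExtension.Rat.zeta_sub_one_dvd_intCast_iff' p hζ]
  · have h1 := congrArg (Int.cast : ℤ → 𝓞 K) H
    push_cast at h1
    rw [h1]
    have h2 := congrArg (Int.cast : ℤ → 𝓞 K) hc₀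
    push_cast at h2
    rw [h2, ← hu, Units.val_pow_eq_pow_val]
    ring

end Fermat.Agent.FLTReg.B
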