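/-
FLTReg project, Case II, PART B: the descent step from the "factor data" (steps (6)-(8) of the
plan), the induction, and the reduction of the integer statement to the generalized equation
`x ^ p + y ^ p = ε * π ^ (p * n) * z ^ p` over `𝓞 K`, `K = ℚ(ζ_p)`, `π = ζ - 1`.
-/
import Mathlib

set_option autoImplicit false

open NumberField Finset

namespace Fermat.Agent.FLTReg

section caseII

variable {p : ℕ} [hp : Fact p.Prime] {K : Type*} [Field K] [NumberField K]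
  [hcycl : IsCyclotomicExtension {p} ℚ K] {ζ : K} (hζ : IsPrimitiveRoot ζ p)

/-- The generalized Fermat equation `x ^ p + y ^ p = ε * π ^ (p * n) * z ^ p` has a solution with
`x, y, z` prime to `π = ζ - 1` and `x, y` coprime. -/
def GenSol (n : ℕ) : Prop :=
  ∃ (x y z : 𝓞 K) (ε : (𝓞 K)ˣ), ¬ (hζ.toInteger - 1) ∣ x ∧ ¬ (hζ.toInteger - 1) ∣ y ∧
    ¬ (hζ.toInteger - 1) ∣ z ∧ IsCoprime x y ∧
    x ^ p + y ^ p = ε * (hζ.toInteger - 1) ^ (p * n) * z ^ p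

/-- The output of steps (1)-(5) of the descent: the factors `Y i`. -/
def DescentFactors : Prop :=
  ∀ (x y z : 𝓞 K) (ε : (𝓞 K)ˣ) (n : ℕ), 1 ≤ n → ¬ (hζ.toInteger - 1) ∣ x →
    ¬ (hζ.toInteger - 1) ∣ y → ¬ (hζ.toInteger - 1) ∣ z → IsCoprime x y →
    x ^ p + y ^ p = ε * (hζ.toInteger - 1) ^ (p * n) * z ^ p →
    2 ≤ n ∧ ∃ Y : ℕ → 𝓞 K, (∀ i < p, ∀ j < p, i ≠ j → IsCoprime (Y i) (Y j)) ∧
      (∀ i < p, ¬ (hζ.toInteger - 1) ∣ Y i) ∧ (∏ i ∈ range p, Y i = ε * z ^ p) ∧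
      Y 2 - (1 + hζ.toInteger) * Y 1 +
        hζ.toInteger * (hζ.toInteger - 1) ^ (p * (n - 1)) * Y 0 = 0

/-- The hypothesis of Kummer's lemma. -/
def KummerHyp (p : ℕ) (K : Type*) [Field K] [NumberField K] : Prop :=
  ∀ u : (𝓞 K)ˣ, (∃ n : ℤ, ((p : ℕ) : 𝓞 K) ∣ (u : 𝓞 K) - n) → ∃ v : (𝓞 K)ˣ, u = v ^ p

include hζ in
/-- Every `p`-th power in `𝓞 K` is congruent to a rational integer modulo `p`. -/
theorem exists_int_dvd_pow_sub (w : 𝓞 K) : ∃ m : ℤ, ((p : ℕ) : 𝓞 K) ∣ w ^ p - m := by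
  have htop : Algebra.adjoin ℤ ({hζ.toInteger} : Set (𝓞 K)) = ⊤ := by
    have := hζ.integralPowerBasis.adjoin_gen_eq_top
    rwa [hζ.integralPowerBasis_gen] at this
  have hw : w ∈ Algebra.adjoin ℤ ({hζ.toInteger} : Set (𝓞 K)) := by rw [htop]; trivial
  induction hw using Algebra.adjoin_induction with
  | mem x hx =>
    rw [Set.mem_singleton_iff] at hx
    refine ⟨1, ?_⟩
    rw [hx, hζ.toInteger_isPrimitiveRoot.pow_eq_one]
    simp
  | algebraMap r =>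
    refine ⟨r ^ p, ?_⟩
    simp
  | add x y _ _ hx hy =>
    obtain ⟨m, hm⟩ := hx
    obtain ⟨m', hm'⟩ := hy
    obtain ⟨r, hr⟩ := exists_add_pow_prime_eq hp.out x y
    refine ⟨m + m', ?_⟩
    rw [hr]
    have : x ^ p + y ^ p + (p : 𝓞 K) * x * y * r - ((m + m' : ℤ) : 𝓞 K) =
        (x ^ p - m) + (y ^ p - m') + (p : 𝓞 K) * (x * y * r) := by push_cast; ring
    rw [this]
    exact dvd_add (dvd_add hm hm') (dvd_mul_right _ _)
  | mul x y _ _ hx hy =>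
    obtain ⟨m, hm⟩ := hx
    obtain ⟨m', hm'⟩ := hy
    refine ⟨m * m', ?_⟩
    have : (x * y) ^ p - ((m * m' : ℤ) : 𝓞 K) =
        (x ^ p - m) * y ^ p + m * (y ^ p - m') := by push_cast; ring
    rw [this]
    exact dvd_add (dvd_mul_of_dvd_left hm _) (dvd_mul_of_dvd_right hm' _)


include hζ in
/-- `p` divides `π ^ m` as soon as `p - 1 ≤ m`. -/
theorem natCast_dvd_zeta_sub_one_pow {m : ℕ} (hm : p - 1 ≤ m) :
    ((p : ℕ) : 𝓞 K) ∣ (hζ.toInteger - 1) ^ m := by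
  have h1 : ((p : ℕ) : 𝓞 K) ∣ (hζ.toInteger - 1) ^ (p - 1) :=
    (IsCyclotomicExtension.Rat.associated_zeta_sub_one_pow_prime p hζ).symm.dvd
  exact h1.trans (pow_dvd_pow _ hm)

include hζ in
/-- If `Y = ρ ^ p * η` with `η` a unit and `π ∤ Y` then `π ∤ ρ`. -/
theorem not_dvd_of_pow_mul_unit {Y ρ : 𝓞 K} {η : (𝓞 K)ˣ} (h : ρ ^ p * η = Y)
    (hY : ¬ (hζ.toInteger - 1) ∣ Y) : ¬ (hζ.toInteger - 1) ∣ ρ := by
  intro hdvd
  apply hY
  rw [← h]
  exact Dvd.dvd.mul_right (dvd_pow hdvd hp.out.ne_zero) _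

/-- The descent step: from the factor data, a solution at level `n` gives `2 ≤ n` and a solution
at level `n - 1`. -/
theorem genSol_pred [IsPrincipalIdealRing (𝓞 K)] (hp2 : p ≠ 2) (hDF : DescentFactors hζ)
    (hK : KummerHyp p K) {n : ℕ} (hn : 1 ≤ n) (hsol : GenSol hζ n) :
    2 ≤ n ∧ GenSol hζ (n - 1) := by
  have hp3 : 2 < p := lt_of_le_of_ne hp.out.two_le (Ne.symm hp2)
  have hpodd : Odd p := hp.out.odd_of_ne_two hp2
  have hppos : 0 < p := hp.out.pos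
  obtain ⟨x, y, z, ε, hx, hy, hz, hxy, h⟩ := hsol
  obtain ⟨hn2, Y, hcop, hndvd, hprod, hrel⟩ := hDF x y z ε n hn hx hy hz hxy h
  refine ⟨hn2, ?_⟩
  -- each `Y i` is associated to a `p`-th power
  have key : ∀ i < p, ∃ d : 𝓞 K, Associated (d ^ p) (Y i) := by
    intro i hi
    have hmem : i ∈ range p := mem_range.mpr hi
    have hsplit : Y i * ∏ j ∈ (range p).erase i, Y j = ∏ j ∈ range p, Y j :=
      mul_prod_erase _ _ hmem
    have hc : IsCoprime (Y i) (∏ j ∈ (range p).erase i, Y j) :=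
      IsCoprime.prod_right fun j hj =>
        hcop i hi j (mem_range.mp (mem_of_mem_erase hj)) (ne_of_mem_erase hj).symm
    refine exists_associated_pow_of_associated_pow_mul hc (c := z) ?_
    rw [hsplit, hprod]
    exact ⟨ε, by ring⟩
  obtain ⟨ρ0, η0, h0⟩ := key 0 hppos
  obtain ⟨ρ1, η1, h1⟩ := key 1 (by omega)
  obtain ⟨ρ2, η2, h2⟩ := key 2 hp3
  -- the units `1 + ζ` and `ζ`
  have hunit1 : IsUnit (1 + hζ.toInteger) := by
    have := hζ.toInteger_isPrimitiveRoot.geom_sum_isUnit hp.out.two_le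
      (j := 2) ((Nat.coprime_primes Nat.prime_two hp.out).mpr (Ne.symm hp2))
    simpa [Finset.sum_range_succ] using this
  obtain ⟨u1, hu1⟩ := hunit1
  have hunitζ : IsUnit hζ.toInteger := hζ.toInteger_isPrimitiveRoot.isUnit hp.out.ne_zero
  obtain ⟨uζ, huζ⟩ := hunitζ
  -- the new units
  set η : (𝓞 K)ˣ := η2 * (u1 * η1)⁻¹ with hη
  set ε' : (𝓞 K)ˣ := uζ * η0 * (u1 * η1)⁻¹ with hε'
  -- the key relation
  have hstar : ρ1 ^ p = η * ρ2 ^ p + ε' * (hζ.toInteger - 1) ^ (p * (n - 1)) * ρ0 ^ p := by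
    have e1 : ((u1 * η1 : (𝓞 K)ˣ) : 𝓞 K) * ρ1 ^ p =
        η2 * ρ2 ^ p + uζ * η0 * (hζ.toInteger - 1) ^ (p * (n - 1)) * ρ0 ^ p := by
      rw [← h0, ← h1, ← h2] at hrel
      push_cast
      rw [hu1, huζ]
      linear_combination (-1 : 𝓞 K) * hrel
    have e2 : ρ1 ^ p = ((u1 * η1)⁻¹ : (𝓞 K)ˣ) * (((u1 * η1 : (𝓞 K)ˣ) : 𝓞 K) * ρ1 ^ p) := by
      rw [← mul_assoc, ← Units.val_mul, inv_mul_cancel, Units.val_one, one_mul]
    rw [e2, e1, hη, hε']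
    push_cast
    ring
  -- reduce modulo `p`
  obtain ⟨m1, hm1⟩ := exists_int_dvd_pow_sub hζ ρ1
  obtain ⟨m2, hm2⟩ := exists_int_dvd_pow_sub hζ ρ2
  have hπp : (hζ.toInteger - 1) ∣ ((p : ℕ) : 𝓞 K) := hζ.toInteger_sub_one_dvd_prime'
  have hρ2 : ¬ (hζ.toInteger - 1) ∣ ρ2 := not_dvd_of_pow_mul_unit hζ h2 (hndvd 2 hp3)
  have hρ1 : ¬ (hζ.toInteger - 1) ∣ ρ1 := not_dvd_of_pow_mul_unit hζ h1 (hndvd 1 (by omega))
  have hρ0 : ¬ (hζ.toInteger - 1) ∣ ρ0 := not_dvd_of_pow_mul_unit hζ h0 (hndvd 0 hppos)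
  have hπprime : Prime (hζ.toInteger - 1) := hζ.zeta_sub_one_prime'
  have hm2p : ¬ (p : ℤ) ∣ m2 := by
    intro hdvd
    have : (hζ.toInteger - 1) ∣ ((m2 : ℤ) : 𝓞 K) :=
      (IsCyclotomicExtension.Rat.zeta_sub_one_dvd_intCast_iff' p hζ).mpr hdvd
    have h3 : (hζ.toInteger - 1) ∣ ρ2 ^ p := by
      have := dvd_add (hπp.trans hm2) this
      simpa using this
    exact hρ2 (hπprime.dvd_of_dvd_pow h3)
  have hcop2 : IsCoprime m2 (p : ℤ) := by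
    rw [isCoprime_comm]
    exact (Nat.prime_iff_prime_int.mp hp.out).coprime_iff_not_dvd.mpr hm2p
  obtain ⟨a, b, hab⟩ := hcop2
  have hpdvd : ((p : ℕ) : 𝓞 K) ∣ (hζ.toInteger - 1) ^ (p * (n - 1)) := by
    apply natCast_dvd_zeta_sub_one_pow hζ
    calc p - 1 ≤ p * 1 := by omega
      _ ≤ p * (n - 1) := Nat.mul_le_mul_left _ (by omega)
  have hηint : ((p : ℕ) : 𝓞 K) ∣ (η : 𝓞 K) - ((a * m1 : ℤ) : 𝓞 K) := by
    obtain ⟨c1, hc1⟩ := hm1
    obtain ⟨c2, hc2⟩ := hm2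
    obtain ⟨c3, hc3⟩ := hpdvd
    have habc : ((a : ℤ) : 𝓞 K) * m2 + b * ((p : ℕ) : 𝓞 K) = 1 := by
      have := congrArg (fun t : ℤ => (t : 𝓞 K)) hab
      simpa using this
    refine ⟨(η : 𝓞 K) * b - a * ((η : 𝓞 K) * c2) - a * (ε' * c3 * ρ0 ^ p) + a * c1, ?_⟩
    push_cast
    linear_combination (-(η : 𝓞 K)) * habc - (a : 𝓞 K) * (η : 𝓞 K) * hc2 + (a : 𝓞 K) * hc1
      - (a : 𝓞 K) * ε' * ρ0 ^ p * hc3 - (a : 𝓞 K) * hstar
  obtain ⟨v, hv⟩ := hK η ⟨a * m1, hηint⟩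
  -- the new solution
  refine ⟨ρ1, -(v * ρ2), ρ0, ε', hρ1, ?_, hρ0, ?_, ?_⟩
  · rw [dvd_neg]
    intro hdvd
    exact hρ2 ((hπprime.dvd_mul.mp hdvd).resolve_left
      (fun hv' => hπprime.not_isUnit (isUnit_of_dvd_unit hv' v.isUnit)))
  · have hc12 : IsCoprime (Y 1) (Y 2) := hcop 1 (by omega) 2 hp3 (by omega)
    rw [← h1, ← h2] at hc12
    have hc12' : IsCoprime (ρ1 ^ p) (ρ2 ^ p) :=
      (isCoprime_mul_unit_right_left η1.isUnit _ _).mp
        ((isCoprime_mul_unit_right_right η2.isUnit _ _).mp hc12)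
    have hc12'' : IsCoprime ρ1 ρ2 := (IsCoprime.pow_iff hppos hppos).mp hc12'
    exact ((isCoprime_mul_unit_left_right v.isUnit _ _).mpr hc12'').neg_right
  · rw [hpodd.neg_pow, mul_pow, hstar, hv]
    push_cast
    ring

/-- No solution of the generalized equation at any level `n ≥ 1`. -/
theorem not_genSol [IsPrincipalIdealRing (𝓞 K)] (hp2 : p ≠ 2) (hDF : DescentFactors hζ)
    (hK : KummerHyp p K) : ∀ n : ℕ, 1 ≤ n → ¬ GenSol hζ n := by
  intro n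
  induction n with
  | zero => intro h; omega
  | succ n ih =>
    intro _ hsol
    obtain ⟨h2, hpred⟩ := genSol_pred hζ hp2 hDF hK (Nat.succ_le_succ (Nat.zero_le n)) hsol
    exact ih (by omega) (by simpa using hpred)


/-- Case II of Fermat's Last Theorem for the odd prime `p`, over a cyclotomic PID satisfying
Kummer's lemma, *assuming* the factor data `DescentFactors` (steps (1)-(5)). -/
theorem caseII_of_descentFactors [IsPrincipalIdealRing (𝓞 K)] (hp2 : p ≠ 2)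
    (hDF : DescentFactors hζ) (hK : KummerHyp p K) {a b c : ℤ} (hab : IsCoprime a b)
    (hc : c ≠ 0) (hpc : (p : ℤ) ∣ c) : a ^ p + b ^ p ≠ c ^ p := by
  intro h
  have hpprime : Prime (p : ℤ) := Nat.prime_iff_prime_int.mp hp.out
  have hppos : 0 < p := hp.out.pos
  -- `p` divides neither `a` nor `b`
  have hnot : ¬ ((p : ℤ) ∣ a ∧ (p : ℤ) ∣ b) := by
    rintro ⟨ha, hb⟩
    obtain ⟨s, t, hst⟩ := hab
    have : (p : ℤ) ∣ 1 := by
      rw [← hst]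
      exact dvd_add (dvd_mul_of_dvd_right ha _) (dvd_mul_of_dvd_right hb _)
    exact hpprime.not_dvd_one this
  have hcp : (p : ℤ) ∣ c ^ p := dvd_pow hpc hppos.ne'
  have ha : ¬ (p : ℤ) ∣ a := by
    intro ha
    apply hnot ⟨ha, ?_⟩
    have : (p : ℤ) ∣ b ^ p := by
      have h' : b ^ p = c ^ p - a ^ p := by rw [← h]; ring
      rw [h']
      exact dvd_sub hcp (dvd_pow ha hppos.ne')
    exact hpprime.dvd_of_dvd_pow this
  have hb : ¬ (p : ℤ) ∣ b := by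
    intro hb
    apply hnot ⟨?_, hb⟩
    have : (p : ℤ) ∣ a ^ p := by
      have h' : a ^ p = c ^ p - b ^ p := by rw [← h]; ring
      rw [h']
      exact dvd_sub hcp (dvd_pow hb hppos.ne')
    exact hpprime.dvd_of_dvd_pow this
  -- write `c = p ^ k * c0`
  have hfin : FiniteMultiplicity (p : ℤ) c :=
    Int.finiteMultiplicity_iff.mpr ⟨by simpa using hp.out.ne_one, hc⟩
  obtain ⟨c0, hc0, hc0p⟩ := hfin.exists_eq_pow_mul_and_not_dvd
  set k := multiplicity (p : ℤ) c with hk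
  have hk1 : 1 ≤ k := by
    rcases Nat.eq_zero_or_pos k with h0 | h0
    · exfalso
      rw [h0, pow_zero, one_mul] at hc0
      exact hc0p (hc0 ▸ hpc)
    · exact h0
  -- `p = π ^ (p - 1) * u`
  obtain ⟨u, hu⟩ := IsCyclotomicExtension.Rat.associated_zeta_sub_one_pow_prime p hζ
  have hp1 : 1 ≤ p - 1 := by have := hp.out.two_le; omega
  refine not_genSol hζ hp2 hDF hK ((p - 1) * k) (Nat.one_le_iff_ne_zero.mpr
    (Nat.mul_ne_zero (by omega) (by omega))) ⟨a, b, c0, u ^ (k * p), ?_, ?_, ?_, hab.intCast, ?_⟩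
  · rwa [IsCyclotomicExtension.Rat.zeta_sub_one_dvd_intCast_iff' p hζ]
  · rwa [IsCyclotomicExtension.Rat.zeta_sub_one_dvd_intCast_iff' p hζ]
  · rwa [IsCyclotomicExtension.Rat.zeta_sub_one_dvd_intCast_iff' p hζ]
  · have h1 : ((a : ℤ) : 𝓞 K) ^ p + ((b : ℤ) : 𝓞 K) ^ p = ((c : ℤ) : 𝓞 K) ^ p := by
      exact_mod_cast congrArg (fun t : ℤ => (t : 𝓞 K)) h
    have h2 : ((c : ℤ) : 𝓞 K) = ((p : ℕ) : 𝓞 K) ^ k * ((c0 : ℤ) : 𝓞 K) := by
      have := congrArg (fun t : ℤ => (t : 𝓞 K)) hc0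
      simpa using this
    rw [h1, h2, ← hu]
    push_cast
    ring

end caseII

end Fermat.Agent.FLTReg
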