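import Mathlib

/-!
# Case II of Fermat's Last Theorem for regular primes: abstract descent (backup implementation)

Abstract setting: `R` a PID, `ζ : R` a primitive `p`-th root of unity (`p` odd prime), `π = ζ - 1`
prime, plus a few arithmetic facts (all true for `R = 𝓞 (ℚ(ζ_p))`) and Kummer's lemma as a
hypothesis.  We show the generalised Fermat equation `x^p + y^p = ε π^(p n) z^p` has no solution
with `n ≥ 1`, `π ∤ y`, `π ∤ z`, `x, y` coprime.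
-/

namespace Fermat.Agent.FLTReg.CaseIIb

open Finset Polynomial

set_option linter.unusedSectionVars false

variable {R : Type*} [CommRing R] [IsDomain R]

/-- The arithmetic facts about the cyclotomic ring used in the descent. -/
structure CycSetup (p : ℕ) (ζ : R) : Prop where
  hp : p.Prime
  hodd : p ≠ 2
  hζ : IsPrimitiveRoot ζ p
  prime_pi : Prime (ζ - 1)
  p_dvd_pi_pow : (p : R) ∣ (ζ - 1) ^ (p - 1)
  int_mod_pi : ∀ w : R, ∃ m : ℤ, (ζ - 1) ∣ w - m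
  int_pow_mod_p : ∀ w : R, ∃ m : ℤ, (p : R) ∣ w ^ p - m
  kummer : ∀ u : Rˣ, (∃ m : ℤ, (p : R) ∣ (u : R) - m) → ∃ v : Rˣ, u = v ^ p

/-- A solution of the generalised Fermat equation of level `n`. -/
def Sol (p : ℕ) (ζ : R) (n : ℕ) : Prop :=
  ∃ (x y z : R) (ε : Rˣ), ¬ (ζ - 1) ∣ y ∧ ¬ (ζ - 1) ∣ z ∧ IsCoprime x y ∧
    x ^ p + y ^ p = ε * (ζ - 1) ^ (p * n) * z ^ p

namespace CycSetup

variable {p : ℕ} {ζ : R} (S : CycSetup p ζ)
include S

lemma three_le : 3 ≤ p := by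
  have := S.hp.two_le
  have := S.hodd
  omega

lemma odd : Odd p := S.hp.odd_of_ne_two S.hodd

lemma pi_dvd_p : (ζ - 1) ∣ (p : R) := S.hζ.sub_one_dvd_natCast S.hp.one_lt

lemma pi_ne_zero : ζ - 1 ≠ 0 := S.prime_pi.ne_zero

lemma one_mem : (1 : R) ∈ nthRootsFinset p (1 : R) := by
  rw [mem_nthRootsFinset S.hp.pos]; simp

lemma zeta_pow_mem (i : ℕ) : ζ ^ i ∈ nthRootsFinset p (1 : R) := by
  rw [mem_nthRootsFinset S.hp.pos, ← pow_mul, mul_comm, pow_mul, S.hζ.pow_eq_one, one_pow]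

lemma isUnit_of_mem {η : R} (hη : η ∈ nthRootsFinset p (1 : R)) : IsUnit η := by
  rw [mem_nthRootsFinset S.hp.pos] at hη
  exact IsUnit.of_pow_eq_one hη S.hp.ne_zero

/-- `π ∣ (m : ℤ)` iff `p ∣ m`. -/
lemma pi_dvd_intCast_iff (m : ℤ) : (ζ - 1) ∣ (m : R) ↔ (p : ℤ) ∣ m := by
  constructor
  · intro h
    by_contra hpm
    have hcop : IsCoprime (p : ℤ) m :=
      (Nat.prime_iff_prime_int.mp S.hp).coprime_iff_not_dvd.mpr hpm
    obtain ⟨a, b, hab⟩ := hcop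
    have h1 : (ζ - 1) ∣ ((a * p + b * m : ℤ) : R) := by
      push_cast
      exact dvd_add (Dvd.dvd.mul_left S.pi_dvd_p _) (Dvd.dvd.mul_left h _)
    rw [hab] at h1
    exact S.prime_pi.not_isUnit (isUnit_of_dvd_one (by simpa using h1))
  · rintro ⟨k, rfl⟩
    push_cast
    exact Dvd.dvd.mul_right S.pi_dvd_p _

/-- Steps 1+2: `π` divides every factor `x + η y`. -/
lemma pi_dvd_factor {x y z : R} {ε : Rˣ} {n : ℕ} (hn : 1 ≤ n)
    (h : x ^ p + y ^ p = ε * (ζ - 1) ^ (p * n) * z ^ p) {η : R}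
    (hη : η ∈ nthRootsFinset p (1 : R)) : (ζ - 1) ∣ x + η * y := by
  have hprod := S.hζ.pow_add_pow_eq_prod_add_mul x y S.odd
  have hdvd : (ζ - 1) ∣ ∏ η ∈ nthRootsFinset p (1 : R), (x + η * y) := by
    rw [← hprod, h]
    apply Dvd.dvd.mul_right
    apply Dvd.dvd.mul_left
    have : p * n ≠ 0 := Nat.mul_ne_zero S.hp.ne_zero (by omega)
    exact dvd_pow_self _ this
  obtain ⟨η₀, hη₀, hdvd₀⟩ := (S.prime_pi.dvd_finsetProd_iff _).mp hdvd
  have : x + η * y = (x + η₀ * y) + (η - η₀) * y := by ring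
  rw [this]
  exact dvd_add hdvd₀ (Dvd.dvd.mul_right (S.hζ.sub_one_dvd_sub S.hp hη hη₀) _)

lemma geom_sum_sub_natCast_dvd (i : ℕ) : (ζ - 1) ∣ (∑ j ∈ range i, ζ ^ j) - (i : R) := by
  have : (∑ j ∈ range i, ζ ^ j) - (i : R) = ∑ j ∈ range i, (ζ ^ j - 1) := by
    simp [Finset.sum_sub_distrib]
  rw [this]
  exact Finset.dvd_sum fun j _ => by simpa using sub_dvd_pow_sub_pow ζ 1 j

/-- Step 3: some `x + ζ^i y` is divisible by `π²`. -/
lemma exists_pi_sq_dvd {x y : R} (hy : ¬ (ζ - 1) ∣ y) (hxy : (ζ - 1) ∣ x + y) :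
    ∃ i : ℕ, (ζ - 1) ^ 2 ∣ x + ζ ^ i * y := by
  obtain ⟨t, ht⟩ := hxy
  obtain ⟨a, ha⟩ := S.int_mod_pi t
  obtain ⟨b, hb⟩ := S.int_mod_pi y
  have hpb : ¬ (p : ℤ) ∣ b := by
    intro hpb
    apply hy
    have h1 := (S.pi_dvd_intCast_iff b).mpr hpb
    have h2 := dvd_add hb h1
    simpa using h2
  have : Fact p.Prime := ⟨S.hp⟩
  have hb0 : (b : ZMod p) ≠ 0 := by
    rwa [Ne, ZMod.intCast_zmod_eq_zero_iff_dvd]
  let i : ℕ := (-(a : ZMod p) / (b : ZMod p)).val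
  have hi : (p : ℤ) ∣ a + i * b := by
    rw [← ZMod.intCast_zmod_eq_zero_iff_dvd]
    push_cast
    rw [ZMod.natCast_zmod_val]
    field_simp
    ring
  refine ⟨i, ?_⟩
  have key : x + ζ ^ i * y = (ζ - 1) * (t + (∑ j ∈ range i, ζ ^ j) * y) := by
    have := geom_sum_mul ζ i
    linear_combination ht - y * this
  rw [key, pow_two]
  apply mul_dvd_mul_left
  have e : t + (∑ j ∈ range i, ζ ^ j) * y = (t - a) + ((∑ j ∈ range i, ζ ^ j) - i) * y
      + i * (y - b) + ((a + i * b : ℤ) : R) := by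
    push_cast; ring
  rw [e]
  exact dvd_add (dvd_add (dvd_add ha (Dvd.dvd.mul_right (S.geom_sum_sub_natCast_dvd i) _))
    (Dvd.dvd.mul_left hb _)) ((S.pi_dvd_intCast_iff _).mpr hi)

/-- WLOG `π² ∣ x + y`. -/
lemma exists_sol_pi_sq {n : ℕ} (hn : 1 ≤ n) (h : Sol p ζ n) :
    ∃ (x y z : R) (ε : Rˣ), ¬ (ζ - 1) ∣ y ∧ ¬ (ζ - 1) ∣ z ∧ IsCoprime x y ∧
      x ^ p + y ^ p = ε * (ζ - 1) ^ (p * n) * z ^ p ∧ (ζ - 1) ^ 2 ∣ x + y := by
  obtain ⟨x, y, z, ε, hy, hz, hcop, heq⟩ := h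
  have h1 : (ζ - 1) ∣ x + y := by
    simpa using S.pi_dvd_factor hn heq S.one_mem
  obtain ⟨i, hi⟩ := S.exists_pi_sq_dvd hy h1
  have hu : IsUnit (ζ ^ i) := (S.hζ.isUnit S.hp.ne_zero).pow i
  refine ⟨x, ζ ^ i * y, z, ε, ?_, hz, ?_, ?_, hi⟩
  · intro hd
    exact hy ((hu.dvd_mul_left).mp hd)
  · exact (isCoprime_mul_unit_left_right hu x y).mpr hcop
  · rw [mul_pow, ← pow_mul, mul_comm i p, pow_mul, S.hζ.pow_eq_one, one_pow, one_mul, heq]

section Descent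

variable [IsPrincipalIdealRing R]

/-- The key descent step. -/
lemma descent {n : ℕ} (hn : 1 ≤ n) (h : Sol p ζ n) : 2 ≤ n ∧ Sol p ζ (n - 1) := by
  classical
  obtain ⟨x, y, z, ε, hy, hz, hcop, heq, hsq⟩ := S.exists_sol_pi_sq hn h
  obtain ⟨m, rfl⟩ : ∃ m, n = m + 1 := ⟨n - 1, by omega⟩
  have hpi := S.prime_pi
  have hpi0 := S.pi_ne_zero
  have hdiv : ∀ η ∈ nthRootsFinset p (1 : R), (ζ - 1) ∣ x + η * y :=
    fun η hη => S.pi_dvd_factor hn heq hη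
  choose! X hX using hdiv
  have h1mem := S.one_mem
  -- (a) π ∣ X 1
  have hX1 : (ζ - 1) ∣ X 1 := by
    have h2 : (ζ - 1) * (ζ - 1) ∣ (ζ - 1) * X 1 := by
      rw [← hX 1 h1mem, one_mul, ← pow_two]; exact hsq
    exact (mul_dvd_mul_iff_left hpi0).mp h2
  -- differences of roots
  have hassoc : ∀ η₁ ∈ nthRootsFinset p (1 : R), ∀ η₂ ∈ nthRootsFinset p (1 : R), η₁ ≠ η₂ →
      ∃ w : Rˣ, (ζ - 1) * w = η₁ - η₂ := fun η₁ h₁ η₂ h₂ hne =>
    S.hζ.nthRootsFinset_pairwise_associated_sub_one_sub_of_prime S.hp h₁ h₂ hne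
  -- X η₁ - X η₂ = w y
  have hdiff : ∀ η₁ ∈ nthRootsFinset p (1 : R), ∀ η₂ ∈ nthRootsFinset p (1 : R), ∀ w : Rˣ,
      (ζ - 1) * w = η₁ - η₂ → X η₁ - X η₂ = w * y ∧ η₂ * X η₁ - η₁ * X η₂ = - (w * x) := by
    intro η₁ h₁ η₂ h₂ w hw
    constructor
    · apply mul_left_cancel₀ hpi0
      linear_combination (-1 : R) * hX η₁ h₁ + hX η₂ h₂ - y * hw
    · apply mul_left_cancel₀ hpi0
      linear_combination (-η₂) * hX η₁ h₁ + η₁ * hX η₂ h₂ + x * hw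
  -- (b) π ∤ X η for η ≠ 1
  have hXη : ∀ η ∈ nthRootsFinset p (1 : R), η ≠ 1 → ¬ (ζ - 1) ∣ X η := by
    intro η hη hne hd
    obtain ⟨w, hw⟩ := hassoc η hη 1 h1mem hne
    have := (hdiff η hη 1 h1mem w hw).1
    have h3 : (ζ - 1) ∣ (w : R) * y := by
      rw [← this]; exact dvd_sub hd hX1
    exact hy ((w.isUnit.dvd_mul_left).mp h3)
  -- (c) pairwise coprime
  have hpair : ∀ η₁ ∈ nthRootsFinset p (1 : R), ∀ η₂ ∈ nthRootsFinset p (1 : R), η₁ ≠ η₂ →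
      IsCoprime (X η₁) (X η₂) := by
    intro η₁ h₁ η₂ h₂ hne
    obtain ⟨w, hw⟩ := hassoc η₁ h₁ η₂ h₂ hne
    obtain ⟨hd1, hd2⟩ := hdiff η₁ h₁ η₂ h₂ w hw
    obtain ⟨a, b, hab⟩ := hcop
    refine ⟨-(a * ↑w⁻¹ * η₂) + b * ↑w⁻¹, a * ↑w⁻¹ * η₁ - b * ↑w⁻¹, ?_⟩
    have hw1 : (↑w⁻¹ : R) * w = 1 := by simp
    linear_combination (-(a * ↑w⁻¹)) * hd2 + (b * ↑w⁻¹) * hd1 + hab + (a * x + b * y) * hw1
  -- (d) the product
  have hprod : ∏ η ∈ nthRootsFinset p (1 : R), X η = ε * (ζ - 1) ^ (p * m) * z ^ p := by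
    have h1 : ∏ η ∈ nthRootsFinset p (1 : R), (x + η * y) =
        (ζ - 1) ^ p * ∏ η ∈ nthRootsFinset p (1 : R), X η := by
      rw [Finset.prod_congr rfl hX, Finset.prod_mul_distrib, Finset.prod_const,
        S.hζ.card_nthRootsFinset]
    rw [← S.hζ.pow_add_pow_eq_prod_add_mul x y S.odd, heq] at h1
    apply mul_left_cancel₀ (pow_ne_zero p hpi0)
    rw [← h1]; ring
  -- (5) m ≥ 1
  have hm : 1 ≤ m := by
    by_contra hm0
    have hm0 : m = 0 := by omega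
    subst hm0
    have h2 : (ζ - 1) ∣ ∏ η ∈ nthRootsFinset p (1 : R), X η :=
      dvd_trans hX1 (Finset.dvd_prod_of_mem X h1mem)
    rw [hprod, mul_zero, pow_zero, mul_one] at h2
    have h3 := (ε.isUnit.dvd_mul_left).mp h2
    exact hz (hpi.dvd_of_dvd_pow h3)
  refine ⟨by omega, ?_⟩
  -- (6) split off X 1
  set μ' := (nthRootsFinset p (1 : R)).erase 1 with hμ'
  have hsplit : X 1 * ∏ η ∈ μ', X η = ε * (ζ - 1) ^ (p * m) * z ^ p := by
    rw [← hprod, Finset.mul_prod_erase _ X h1mem]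
  have hnd : ¬ (ζ - 1) ∣ ∏ η ∈ μ', X η := by
    rw [hpi.dvd_finsetProd_iff]
    rintro ⟨η, hη, hd⟩
    rw [hμ', Finset.mem_erase] at hη
    exact hXη η hη.2 hη.1 hd
  have hpow : (ζ - 1) ^ (p * m) ∣ X 1 := by
    apply hpi.pow_dvd_of_dvd_mul_right _ hnd
    rw [hsplit]
    exact Dvd.dvd.mul_right (Dvd.intro_left _ rfl) _
  obtain ⟨Y, hY⟩ := hpow
  have hYprod : Y * ∏ η ∈ μ', X η = ε * z ^ p := by
    apply mul_left_cancel₀ (pow_ne_zero (p * m) hpi0)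
    rw [← mul_assoc, ← hY, hsplit]; ring
  have hYnd : ¬ (ζ - 1) ∣ Y := by
    intro hd
    have h2 : (ζ - 1) ∣ (ε : R) * z ^ p := by
      rw [← hYprod]; exact Dvd.dvd.mul_right hd _
    exact hz (hpi.dvd_of_dvd_pow ((ε.isUnit.dvd_mul_left).mp h2))
  -- coprimality of X η with Y
  have hcopY : ∀ η ∈ μ', IsCoprime (X η) Y := by
    intro η hη
    rw [hμ', Finset.mem_erase] at hη
    have := hpair η hη.2 1 h1mem hη.1
    rw [hY] at this
    exact this.of_mul_right_right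
  -- (7) p-th powers
  have hpowη : ∀ η ∈ μ', ∃ ρ : R, Associated (ρ ^ p) (X η) := by
    intro η hη
    have hη' := hη
    rw [hμ', Finset.mem_erase] at hη'
    have hsplit2 : X η * (Y * ∏ η' ∈ μ'.erase η, X η') = ε * z ^ p := by
      rw [← hYprod, ← Finset.mul_prod_erase μ' X hη]; ring
    have hc : IsCoprime (X η) (Y * ∏ η' ∈ μ'.erase η, X η') := by
      apply IsCoprime.mul_right (hcopY η hη)
      apply IsCoprime.prod_right
      intro η' hη''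
      rw [Finset.mem_erase, hμ', Finset.mem_erase] at hη''
      exact hpair η hη'.2 η' hη''.2.2 (Ne.symm hη''.1)
    refine exists_associated_pow_of_associated_pow_mul hc (c := z) ?_
    rw [hsplit2, mul_comm]
    exact ⟨ε, rfl⟩
  have hpowY : ∃ ρ : R, Associated (ρ ^ p) Y := by
    have hc : IsCoprime Y (∏ η ∈ μ', X η) := by
      apply IsCoprime.prod_right
      intro η hη
      exact (hcopY η hη).symm
    refine exists_associated_pow_of_associated_pow_mul hc (c := z) ?_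
    rw [hYprod, mul_comm]
    exact ⟨ε, rfl⟩
  -- (8) the three roots 1, ζ, ζ²
  have hp3 := S.three_le
  have hζ1 : ζ ≠ 1 := S.hζ.ne_one S.hp.one_lt
  have hζ2 : ζ ^ 2 ≠ 1 := S.hζ.pow_ne_one_of_pos_of_lt (by norm_num) (by omega)
  have hζ12 : ζ ≠ ζ ^ 2 := by
    intro h
    apply hζ1
    have h0 : ζ ≠ 0 := S.hζ.ne_zero S.hp.ne_zero
    have : ζ * 1 = ζ * ζ := by rw [mul_one, ← pow_two]; exact h
    exact (mul_left_cancel₀ h0 this).symm
  have hmem1 : ζ ∈ μ' := by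
    rw [hμ', Finset.mem_erase]; exact ⟨hζ1, by simpa using S.zeta_pow_mem 1⟩
  have hmem2 : ζ ^ 2 ∈ μ' := by
    rw [hμ', Finset.mem_erase]; exact ⟨hζ2, S.zeta_pow_mem 2⟩
  have hmem1' := (Finset.mem_erase.mp hmem1).2
  have hmem2' := (Finset.mem_erase.mp hmem2).2
  have hrel : X (ζ ^ 2) - (1 + ζ) * X ζ + ζ * X 1 = 0 := by
    apply mul_left_cancel₀ hpi0
    linear_combination (-1 : R) * hX (ζ ^ 2) hmem2' + (1 + ζ) * hX ζ hmem1' - ζ * hX 1 h1mem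
  obtain ⟨ρ₁, u₁, hρ₁⟩ := hpowη ζ hmem1
  obtain ⟨ρ₂, u₂, hρ₂⟩ := hpowη (ζ ^ 2) hmem2
  obtain ⟨ρ₀, u₀, hρ₀⟩ := hpowY
  -- 1 + ζ is a unit
  have hunit : IsUnit (1 + ζ) := by
    have := S.hζ.geom_sum_isUnit S.hp.two_le (j := 2)
      ((Nat.coprime_primes Nat.prime_two S.hp).mpr (Ne.symm S.hodd))
    simpa [Finset.sum_range_succ] using this
  obtain ⟨c, hc⟩ := hunit
  obtain ⟨ζu, hζu⟩ := S.hζ.isUnit S.hp.ne_zero
  -- the new equation
  set η' : Rˣ := -(u₂ * (c * u₁)⁻¹) with hη'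
  set ε' : Rˣ := ζu * u₀ * (c * u₁)⁻¹ with hε'
  have hnew : ρ₁ ^ p + η' * ρ₂ ^ p = ε' * (ζ - 1) ^ (p * m) * ρ₀ ^ p := by
    have hinv : ((c * u₁ : Rˣ) : R) * ((c * u₁)⁻¹ : Rˣ) = 1 := by
      rw [← Units.val_mul, mul_inv_cancel, Units.val_one]
    have hrel' : ρ₂ ^ p * u₂ - (c * u₁ : Rˣ) * ρ₁ ^ p + ζ * ((ζ - 1) ^ (p * m) * (ρ₀ ^ p * u₀)) = 0 := by
      rw [hρ₂, hρ₀, ← hY, Units.val_mul, hc, mul_assoc, mul_comm (u₁ : R), hρ₁]
      linear_combination hrel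
    rw [hη', hε']
    simp only [Units.val_neg, Units.val_mul, hζu]
    linear_combination (-(((c * u₁)⁻¹ : Rˣ) : R)) * hrel' -
      (ρ₁ ^ p) * hinv
  -- (9) `η'` is congruent to an integer mod `p`
  have hpdvd : (p : R) ∣ (ζ - 1) ^ (p * m) := by
    refine dvd_trans S.p_dvd_pi_pow (pow_dvd_pow _ ?_)
    calc p - 1 ≤ p := Nat.sub_le _ _
      _ ≤ p * m := Nat.le_mul_of_pos_right _ hm
  have hsum : (p : R) ∣ ρ₁ ^ p + η' * ρ₂ ^ p := by
    rw [hnew]; exact Dvd.dvd.mul_right (Dvd.dvd.mul_left hpdvd _) _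
  obtain ⟨m₁, hm₁⟩ := S.int_pow_mod_p ρ₁
  obtain ⟨m₂, hm₂⟩ := S.int_pow_mod_p ρ₂
  have hρ₂nd : ¬ (ζ - 1) ∣ ρ₂ := by
    intro hd
    apply hXη (ζ ^ 2) hmem2' hζ2
    rw [← hρ₂]
    exact Dvd.dvd.mul_right (dvd_pow hd S.hp.ne_zero) _
  have hpm₂ : ¬ (p : ℤ) ∣ m₂ := by
    intro hd
    apply hρ₂nd
    apply hpi.dvd_of_dvd_pow (n := p)
    have h1 := (S.pi_dvd_intCast_iff m₂).mpr hd
    have h2 := dvd_trans S.pi_dvd_p hm₂
    have := dvd_add h2 h1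
    simpa using this
  obtain ⟨s, t, hst⟩ : IsCoprime (p : ℤ) m₂ :=
    (Nat.prime_iff_prime_int.mp S.hp).coprime_iff_not_dvd.mpr hpm₂
  have hcong : (p : R) ∣ (η' : R) - ((-(t * m₁) : ℤ) : R) := by
    have hstR : (s : R) * p + t * m₂ = 1 := by exact_mod_cast congrArg (Int.cast : ℤ → R) hst
    have e : (η' : R) - ((-(t * m₁) : ℤ) : R) =
        (p : R) * (η' * s) +
          t * ((ρ₁ ^ p + η' * ρ₂ ^ p) - (ρ₁ ^ p - m₁) - η' * (ρ₂ ^ p - m₂)) := by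
      push_cast
      linear_combination (-(η' : R)) * hstR
    rw [e]
    exact dvd_add (Dvd.intro _ rfl)
      (Dvd.dvd.mul_left (dvd_sub (dvd_sub hsum hm₁) (Dvd.dvd.mul_left hm₂ _)) _)
  obtain ⟨v, hv⟩ := S.kummer η' ⟨_, hcong⟩
  refine ⟨ρ₁, v * ρ₂, ρ₀, ε', ?_, ?_, ?_, ?_⟩
  · intro hd; exact hρ₂nd ((v.isUnit.dvd_mul_left).mp hd)
  · intro hd
    apply hYnd
    rw [← hρ₀]
    exact Dvd.dvd.mul_right (dvd_pow hd S.hp.ne_zero) _
  · have h12 : IsCoprime (X ζ) (X (ζ ^ 2)) := hpair ζ hmem1' (ζ ^ 2) hmem2' hζ12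
    rw [← hρ₁, ← hρ₂] at h12
    have h12' : IsCoprime (ρ₁ ^ p) (ρ₂ ^ p) := h12.of_mul_left_left.of_mul_right_left
    have := (IsCoprime.pow_iff S.hp.pos S.hp.pos).mp h12'
    exact (isCoprime_mul_unit_left_right v.isUnit ρ₁ ρ₂).mpr this
  · rw [Nat.add_sub_cancel, mul_pow, ← Units.val_pow_eq_pow_val, ← hv, hnew]

/-- No solution of positive level exists. -/
theorem no_sol : ∀ n : ℕ, 1 ≤ n → ¬ Sol p ζ n := by
  intro n
  induction n with
  | zero => intro h; omega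
  | succ k ih =>
    intro _ hsol
    obtain ⟨h2, hsol'⟩ := S.descent (by omega) hsol
    rw [Nat.add_sub_cancel] at hsol'
    exact ih (by omega) hsol'

/-- Case II for integers, in the abstract setting. -/
theorem caseII_abstract [CharZero R] {a b c : ℤ} (hab : IsCoprime a b) (hc : c ≠ 0)
    (hpc : (p : ℤ) ∣ c) : a ^ p + b ^ p ≠ c ^ p := by
  intro heq
  have hpi := S.prime_pi
  have hpint := Nat.prime_iff_prime_int.mp S.hp
  have hpb : ¬ (p : ℤ) ∣ b := by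
    intro hb
    have ha : (p : ℤ) ∣ a := by
      apply hpint.dvd_of_dvd_pow (n := p)
      have : a ^ p = c ^ p - b ^ p := by linarith
      rw [this]
      exact dvd_sub (dvd_pow hpc S.hp.ne_zero) (dvd_pow hb S.hp.ne_zero)
    exact hpint.not_isUnit (hab.isUnit_of_dvd' ha hb)
  have hcR : (c : R) ≠ 0 := by exact_mod_cast hc
  have hpic : (ζ - 1) ∣ (c : R) := (S.pi_dvd_intCast_iff c).mpr hpc
  have hfin : FiniteMultiplicity (ζ - 1) (c : R) :=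
    FiniteMultiplicity.of_not_isUnit hpi.not_isUnit hcR
  obtain ⟨z, hz, hznd⟩ := hfin.exists_eq_pow_mul_and_not_dvd
  have hk : 1 ≤ multiplicity (ζ - 1) (c : R) := by
    by_contra hk0
    have h0 : multiplicity (ζ - 1) (c : R) = 0 := by omega
    rw [h0, pow_zero, one_mul] at hz
    exact hznd (hz ▸ hpic)
  apply S.no_sol _ hk
  refine ⟨a, b, z, 1, ?_, hznd, ?_, ?_⟩
  · rwa [S.pi_dvd_intCast_iff]
  · exact hab.intCast
  · have h1 : ((a : R)) ^ p + (b : R) ^ p = (c : R) ^ p := by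
      exact_mod_cast congrArg (Int.cast : ℤ → R) heq
    rw [h1]
    nth_rewrite 1 [hz]
    rw [mul_pow, ← pow_mul, mul_comm (multiplicity (ζ - 1) (c : R)) p]
    simp

end Descent

end CycSetup

section Adjoin

variable {p : ℕ} {ζ : R}

/-- If `R = ℤ[ζ]`, every element is congruent to an integer mod `ζ - 1`. -/
lemma exists_int_sub_dvd_of_adjoin (hadj : Algebra.adjoin ℤ {ζ} = ⊤) (w : R) :
    ∃ m : ℤ, (ζ - 1) ∣ w - m := by
  have hw : w ∈ Algebra.adjoin ℤ {ζ} := by rw [hadj]; trivial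
  obtain ⟨f, rfl⟩ := Algebra.adjoin_mem_exists_aeval ℤ ζ hw
  refine ⟨f.eval 1, ?_⟩
  have h := Polynomial.sub_dvd_eval_sub ζ 1 (f.map (Int.castRingHom R))
  rw [Polynomial.eval_one_map, Polynomial.eval_map] at h
  rw [Polynomial.aeval_def]
  simpa using h

/-- If `R = ℤ[ζ]` with `ζ^p = 1`, every `p`-th power is congruent to an integer mod `p`. -/
lemma exists_int_pow_sub_dvd_of_adjoin (hp : p.Prime) (hζ : ζ ^ p = 1)
    (hadj : Algebra.adjoin ℤ {ζ} = ⊤) (w : R) : ∃ m : ℤ, (p : R) ∣ w ^ p - m := by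
  have hw : w ∈ Algebra.adjoin ℤ {ζ} := by rw [hadj]; trivial
  induction hw using Algebra.adjoin_induction with
  | mem x hx =>
    rw [Set.mem_singleton_iff] at hx
    subst hx
    exact ⟨1, by simp [hζ]⟩
  | algebraMap r =>
    exact ⟨r ^ p, by simp⟩
  | add x y _ _ hx hy =>
    obtain ⟨mx, hmx⟩ := hx
    obtain ⟨my, hmy⟩ := hy
    obtain ⟨r, hr⟩ := exists_add_pow_prime_eq hp x y
    refine ⟨mx + my, ?_⟩
    have : (x + y) ^ p - ((mx + my : ℤ) : R) = (x ^ p - mx) + (y ^ p - my) + p * (x * y * r) := by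
      rw [hr]; push_cast; ring
    rw [this]
    exact dvd_add (dvd_add hmx hmy) (Dvd.intro _ rfl)
  | mul x y _ _ hx hy =>
    obtain ⟨mx, hmx⟩ := hx
    obtain ⟨my, hmy⟩ := hy
    refine ⟨mx * my, ?_⟩
    have : (x * y) ^ p - ((mx * my : ℤ) : R) = (x ^ p - mx) * y ^ p + mx * (y ^ p - my) := by
      push_cast; ring
    rw [this]
    exact dvd_add (Dvd.dvd.mul_right hmx _) (Dvd.dvd.mul_left hmy _)

end Adjoin

section NumberField

open NumberField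

variable {p : ℕ} [hp : Fact p.Prime] {K : Type*} [Field K] [NumberField K]
  [IsCyclotomicExtension {p} ℚ K]

/-- The ring of integers of the `p`-th cyclotomic field satisfies the abstract setup, given
Kummer's lemma. -/
theorem cycSetup_of_numberField (hp2 : p ≠ 2) {ζ : K} (hζ : IsPrimitiveRoot ζ p)
    (hK : ∀ u : (𝓞 K)ˣ, (∃ n : ℤ, ((p : ℕ) : 𝓞 K) ∣ (u : 𝓞 K) - n) → ∃ v : (𝓞 K)ˣ, u = v ^ p) :
    CycSetup p (hζ.toInteger) where
  hp := hp.out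
  hodd := hp2
  hζ := hζ.toInteger_isPrimitiveRoot
  prime_pi := hζ.zeta_sub_one_prime'
  p_dvd_pi_pow := (IsCyclotomicExtension.Rat.associated_zeta_sub_one_pow_prime p hζ).symm.dvd
  int_mod_pi := exists_int_sub_dvd_of_adjoin (IsCyclotomicExtension.Rat.adjoin_singleton_eq_top hζ)
  int_pow_mod_p := exists_int_pow_sub_dvd_of_adjoin hp.out
    (hζ.toInteger_isPrimitiveRoot.pow_eq_one) (IsCyclotomicExtension.Rat.adjoin_singleton_eq_top hζ)
  kummer := hK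

/-- **Case II of Fermat's Last Theorem** for an odd prime `p` such that `ℤ[ζ_p]` is a PID and
Kummer's lemma holds (same interface as `Fermat.Agent.FLTReg.caseII`). -/
theorem caseII (hp2 : p ≠ 2) [IsPrincipalIdealRing (𝓞 K)]
    (hK : ∀ u : (𝓞 K)ˣ, (∃ n : ℤ, ((p : ℕ) : 𝓞 K) ∣ (u : 𝓞 K) - n) → ∃ v : (𝓞 K)ˣ, u = v ^ p)
    {a b c : ℤ} (hab : IsCoprime a b) (hc : c ≠ 0) (hpc : (p : ℤ) ∣ c) :
    a ^ p + b ^ p ≠ c ^ p :=
  (cycSetup_of_numberField hp2 (IsCyclotomicExtension.zeta_spec p ℚ K) hK).caseII_abstract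
    hab hc hpc

end NumberField

end Fermat.Agent.FLTReg.CaseIIb
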