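import Mathlib
import Fermat.Prelude.Def_FLTPrelim_FreyPackage

/-!
# From the two cases of Fermat's Last Theorem for an odd prime exponent `p`
to the emptiness of Frey packages with that exponent.

`fw_no_freyPackage` : if the first case (`p ∣ a*b*c` is forced) and the second case
(no solution with `p ∣ c`) hold for the exponent `p`, then no `FreyPackage` has `P.p = p`.
-/

set_option autoImplicit false

namespace Fermat.Agent.FLTReg

/-- Generic wiring: first case + second case for the odd prime exponent `p`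
exclude every integer solution with coprime `a b` and `a b c ≠ 0`. -/
theorem fw_no_solution {p : ℕ} (hp : p.Prime) (hodd : p ≠ 2)
    (hI : ∀ a b c : ℤ, IsCoprime a b → a ^ p + b ^ p = c ^ p → (p : ℤ) ∣ a * b * c)
    (hII : ∀ a b c : ℤ, IsCoprime a b → c ≠ 0 → (p : ℤ) ∣ c → a ^ p + b ^ p ≠ c ^ p)
    {a b c : ℤ} (ha : a ≠ 0) (hb : b ≠ 0) (hc : c ≠ 0)
    (hab : IsCoprime a b) (hac : IsCoprime a c) (hbc : IsCoprime b c)
    (h : a ^ p + b ^ p = c ^ p) : False := by
  have hpodd : Odd p := hp.odd_of_ne_two hodd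
  have hpZ : Prime (p : ℤ) := Nat.prime_iff_prime_int.mp hp
  have hdvd := hI a b c hab h
  rcases hpZ.dvd_or_dvd hdvd with hab' | hc'
  · rcases hpZ.dvd_or_dvd hab' with ha' | hb'
    · -- p ∣ a :  c^p + (-b)^p = a^p
      have h' : c ^ p + (-b) ^ p = a ^ p := by
        rw [hpodd.neg_pow]; linarith
      exact hII c (-b) a hbc.symm.neg_right ha ha' h'
    · -- p ∣ b :  c^p + (-a)^p = b^p
      have h' : c ^ p + (-a) ^ p = b ^ p := by
        rw [hpodd.neg_pow]; linarith
      exact hII c (-a) b hac.symm.neg_right hb hb' h'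
  · exact hII a b c hab hc hc' h

/-- No Frey package has exponent `p` once both cases of FLT are known for `p`. -/
theorem fw_no_freyPackage {p : ℕ} (hp : p.Prime) (hodd : p ≠ 2)
    (hI : ∀ a b c : ℤ, IsCoprime a b → a ^ p + b ^ p = c ^ p → (p : ℤ) ∣ a * b * c)
    (hII : ∀ a b c : ℤ, IsCoprime a b → c ≠ 0 → (p : ℤ) ∣ c → a ^ p + b ^ p ≠ c ^ p)
    (P : FreyPackage) (hP : P.p = p) : False := by
  have hab : IsCoprime P.a P.b := by
    rw [Int.isCoprime_iff_gcd_eq_one]
    have := P.hgcdab
    rw [← Int.coe_gcd] at this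
    exact_mod_cast this
  have hac : IsCoprime P.a P.c := by
    rw [Int.isCoprime_iff_gcd_eq_one]
    have := P.hgcdac
    rw [← Int.coe_gcd] at this
    exact_mod_cast this
  have hbc : IsCoprime P.b P.c := by
    rw [Int.isCoprime_iff_gcd_eq_one]
    have := P.hgcdbc
    rw [← Int.coe_gcd] at this
    exact_mod_cast this
  have h := P.hFLT
  rw [hP] at h
  exact fw_no_solution hp hodd hI hII P.ha0 P.hb0 P.hc0 hab hac hbc h

end Fermat.Agent.FLTReg
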