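import Mathlib

set_option autoImplicit false

namespace Fermat.Agent.FLTReg

open Module

theorem kg_injective_of_span_of_linearIndependent {F W V : Type*} [Field F]
    [AddCommGroup W] [Module F W] [AddCommGroup V] [Module F V]
    (f : W →ₗ[F] V) {m : ℕ} (g : Fin m → W) (hg : Submodule.span F (Set.range g) = ⊤)
    (c : Fin m → W) (hc : LinearIndependent F (f ∘ c)) : Function.Injective f := by
  have hci : LinearIndependent F c := LinearIndependent.of_comp f hc
  have hfd : FiniteDimensional F W := by
    refine Module.Finite.of_fg_top ?_ 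
    rw [← hg]
    exact Submodule.fg_span (Set.finite_range g)
  have h1 : finrank F W ≤ m := by
    have := finrank_range_le_card (R := F) g
    rw [Set.finrank, hg, finrank_top] at this
    simpa using this
  have h2 : m ≤ finrank F W := by
    simpa using hci.fintype_card_le_finrank
  have hspan : Submodule.span F (Set.range c) = ⊤ :=
    hci.span_eq_top_of_card_eq_finrank' (by simpa using le_antisymm h2 h1)
  rw [← LinearMap.ker_eq_bot, LinearMap.ker_eq_bot']
  intro x hx
  have hxs : x ∈ Submodule.span F (Set.range c) := by rw [hspan]; trivial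
  obtain ⟨a, rfl⟩ := (Submodule.mem_span_range_iff_exists_fun F).mp hxs
  rw [map_sum] at hx
  simp only [map_smul] at hx
  have := (Fintype.linearIndependent_iff.mp hc) a hx
  simp [this]

end Fermat.Agent.FLTReg

namespace Fermat.Agent.FLTReg

open Module

/-- `E` modulo `p`-th powers, written additively. -/
abbrev KgQuot (E : Type*) [CommGroup E] (p : ℕ) : Type _ :=
  Additive E ⧸ (nsmulAddMonoidHom (α := Additive E) p).range

theorem kgQuot_nsmul_eq_zero (E : Type*) [CommGroup E] (p : ℕ) (x : KgQuot E p) : p • x = 0 := by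
  induction x using QuotientAddGroup.induction_on with
  | H a =>
    rw [← QuotientAddGroup.mk_nsmul, QuotientAddGroup.eq_zero_iff]
    exact ⟨a, rfl⟩

instance kgQuotModule (E : Type*) [CommGroup E] (p : ℕ) : Module (ZMod p) (KgQuot E p) :=
  AddCommGroup.zmodModule (kgQuot_nsmul_eq_zero E p)

theorem kg_exists_pow_of_map_eq_zero {E : Type*} [CommGroup E] (p : ℕ) [Fact p.Prime]
    {V : Type*} [AddCommGroup V] [Module (ZMod p) V] (δ : Additive E →+ V)
    {m : ℕ} (g : Fin m → E)
    (hg : ∀ e : E, ∃ (a : Fin m → ℤ) (w : E), e = (∏ i, g i ^ a i) * w ^ p)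
    (c : Fin m → E) (hc : LinearIndependent (ZMod p) (fun k => δ (Additive.ofMul (c k))))
    (e : E) (he : δ (Additive.ofMul e) = 0) : ∃ w : E, e = w ^ p := by
  classical
  have hS : (nsmulAddMonoidHom (α := Additive E) p).range ≤ δ.ker := by
    rintro _ ⟨a, rfl⟩
    rw [AddMonoidHom.mem_ker]
    show δ (p • a) = 0
    rw [map_nsmul]
    exact ZModModule.char_nsmul_eq_zero p _
  let δbar : KgQuot E p →+ V := QuotientAddGroup.lift _ δ hS
  let f : KgQuot E p →ₗ[ZMod p] V := δbar.toZModLinearMap p
  let g' : Fin m → KgQuot E p := fun i => QuotientAddGroup.mk (Additive.ofMul (g i))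
  let c' : Fin m → KgQuot E p := fun k => QuotientAddGroup.mk (Additive.ofMul (c k))
  have hspan : Submodule.span (ZMod p) (Set.range g') = ⊤ := by
    rw [eq_top_iff]
    rintro x -
    induction x using QuotientAddGroup.induction_on with
    | H a =>
      obtain ⟨b, w, hb⟩ := hg (Additive.toMul a)
      have hx : (QuotientAddGroup.mk a : KgQuot E p) = ∑ i, ((b i : ℤ) : ZMod p) • g' i := by
        have ha : a = ∑ i, (b i) • Additive.ofMul (g i) + p • Additive.ofMul w := by
          apply Additive.toMul.injective
          rw [hb]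
          simp [toMul_sum, toMul_zsmul]
        rw [ha, QuotientAddGroup.mk_add, QuotientAddGroup.mk_sum]
        have h0 : (QuotientAddGroup.mk (p • Additive.ofMul w) : KgQuot E p) = 0 := by
          rw [QuotientAddGroup.eq_zero_iff]
          exact ⟨Additive.ofMul w, rfl⟩
        rw [h0, add_zero]
        refine Finset.sum_congr rfl fun i _ => ?_
        rw [Int.cast_smul_eq_zsmul]
        rfl
      rw [hx]
      exact Submodule.sum_mem _ fun i _ =>
        Submodule.smul_mem _ _ (Submodule.subset_span (Set.mem_range_self i))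
  have hfc : LinearIndependent (ZMod p) (f ∘ c') := hc
  have hinj := kg_injective_of_span_of_linearIndependent f g' hspan c' hfc
  have hfe : f (QuotientAddGroup.mk (Additive.ofMul e)) = 0 := he
  have h0 : (QuotientAddGroup.mk (Additive.ofMul e) : KgQuot E p) = 0 :=
    hinj (by rw [hfe, map_zero])
  rw [QuotientAddGroup.eq_zero_iff] at h0
  obtain ⟨a, ha⟩ := h0
  refine ⟨Additive.toMul a, ?_⟩
  have : Additive.ofMul e = p • a := ha.symm
  apply Additive.ofMul.injective
  rw [this]
  rfl

end Fermat.Agent.FLTReg
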