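import Mathlib

set_option autoImplicit false
set_option linter.unusedSectionVars false

/-!
# Abstract counting half of Kummer's lemma

Let `K` be a number field with unit rank `r`, `p` a prime, `A` an `𝔽_p`-vector space and
`Λ : (𝓞 K)ˣ → A` a homomorphism.  If there are `r + 1` units whose `Λ`-images are
`𝔽_p`-linearly independent, then every unit killed by `Λ` is a `p`-th power.
-/

namespace Fermat.Agent.FLTReg

open NumberField NumberField.Units Module

variable {K : Type*} [Field K] [NumberField K]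

section

variable (p : ℕ) [Fact p.Prime] {A : Type*} [AddCommGroup A] [Module (ZMod p) A]

lemma kc_map_zpow (Λ : Additive (𝓞 K)ˣ →+ A) (x : (𝓞 K)ˣ) (n : ℤ) :
    Λ (Additive.ofMul (x ^ n)) = (n : ZMod p) • Λ (Additive.ofMul x) := by
  rw [ofMul_zpow, map_zsmul, Int.cast_smul_eq_zsmul]

lemma kc_map_mul (Λ : Additive (𝓞 K)ˣ →+ A) (x y : (𝓞 K)ˣ) :
    Λ (Additive.ofMul (x * y)) = Λ (Additive.ofMul x) + Λ (Additive.ofMul y) := by
  rw [ofMul_mul, map_add]

lemma kc_map_prod {ι : Type*} (s : Finset ι) (Λ : Additive (𝓞 K)ˣ →+ A)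
    (f : ι → (𝓞 K)ˣ) :
    Λ (Additive.ofMul (∏ i ∈ s, f i)) = ∑ i ∈ s, Λ (Additive.ofMul (f i)) := by
  rw [ofMul_prod, map_sum]

/-- **Abstract Kummer criterion.** -/
theorem kummer_criterion (Λ : Additive (𝓞 K)ˣ →+ A)
    (g : Fin (NumberField.Units.rank K + 1) → (𝓞 K)ˣ)
    (hg : LinearIndependent (ZMod p) (fun i => Λ (Additive.ofMul (g i))))
    (u : (𝓞 K)ˣ) (hu : Λ (Additive.ofMul u) = 0) : ∃ v : (𝓞 K)ˣ, u = v ^ p := by
  classical
  -- a generator of the torsion subgroup
  obtain ⟨t, ht⟩ := (inferInstance : IsCyclic (torsion K)).exists_generator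
  -- the spanning family
  let w : Fin (NumberField.Units.rank K + 1) → A :=
    Fin.cons (Λ (Additive.ofMul (t : (𝓞 K)ˣ)))
      (fun i => Λ (Additive.ofMul (fundSystem K i)))
  -- every unit decomposes
  have hdecomp : ∀ x : (𝓞 K)ˣ, ∃ (a : ℤ) (e : Fin (NumberField.Units.rank K) → ℤ),
      x = (t : (𝓞 K)ˣ) ^ a * ∏ i, (fundSystem K i) ^ (e i) := by
    intro x
    obtain ⟨⟨ζ, e⟩, hx, -⟩ := exist_unique_eq_mul_prod K x
    obtain ⟨a, ha⟩ := Subgroup.mem_zpowers_iff.mp (ht ζ)
    refine ⟨a, e, ?_⟩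
    rw [hx]
    simp only
    rw [← ha]
    simp
  -- Λ of a decomposed unit
  have hΛ : ∀ (a : ℤ) (e : Fin (NumberField.Units.rank K) → ℤ),
      Λ (Additive.ofMul ((t : (𝓞 K)ˣ) ^ a * ∏ i, (fundSystem K i) ^ (e i)))
        = ∑ j, (Fin.cons (a : ZMod p) (fun i => ((e i : ℤ) : ZMod p)) :
            Fin (NumberField.Units.rank K + 1) → ZMod p) j • w j := by
    intro a e
    rw [kc_map_mul, kc_map_zpow p, kc_map_prod, Fin.sum_univ_succ]
    simp only [w, Fin.cons_zero, Fin.cons_succ]
    congr 1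
    refine Finset.sum_congr rfl fun i _ => ?_
    rw [kc_map_zpow p]
  -- every Λ-value lies in the span of `w`
  have hmem : ∀ x : (𝓞 K)ˣ, Λ (Additive.ofMul x) ∈ Submodule.span (ZMod p) (Set.range w) := by
    intro x
    obtain ⟨a, e, rfl⟩ := hdecomp x
    rw [hΛ]
    exact Submodule.sum_mem _ fun j _ =>
      Submodule.smul_mem _ _ (Submodule.subset_span (Set.mem_range_self j))
  -- `w` is linearly independent by a dimension count
  have hw : LinearIndependent (ZMod p) w := by
    rw [linearIndependent_iff_card_eq_finrank_span]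
    apply le_antisymm
    · have h1 : Submodule.span (ZMod p) (Set.range fun i => Λ (Additive.ofMul (g i)))
          ≤ Submodule.span (ZMod p) (Set.range w) := by
        rw [Submodule.span_le]
        rintro _ ⟨i, rfl⟩
        exact hmem (g i)
      haveI : Module.Finite (ZMod p) (Submodule.span (ZMod p) (Set.range w)) :=
        Module.Finite.span_of_finite (ZMod p) (Set.finite_range w)
      have h2 := Submodule.finrank_mono h1
      have h3 := finrank_span_eq_card hg
      rw [Set.finrank]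
      omega
    · exact finrank_range_le_card w
  -- conclude
  obtain ⟨a, e, rfl⟩ := hdecomp u
  rw [hΛ] at hu
  have hc := Fintype.linearIndependent_iff.mp hw _ hu
  have ha0 : ((a : ℤ) : ZMod p) = 0 := by simpa using hc 0
  have he0 : ∀ i, ((e i : ℤ) : ZMod p) = 0 := by
    intro i
    simpa using hc i.succ
  obtain ⟨a', ha'⟩ := (ZMod.intCast_zmod_eq_zero_iff_dvd a p).mp ha0
  have he' : ∀ i, ∃ e', e i = (p : ℤ) * e' := fun i =>
    (ZMod.intCast_zmod_eq_zero_iff_dvd (e i) p).mp (he0 i)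
  choose e' he' using he'
  refine ⟨(t : (𝓞 K)ˣ) ^ a' * ∏ i, (fundSystem K i) ^ (e' i), ?_⟩
  rw [mul_pow, ← Finset.prod_pow, ha']
  congr 1
  · rw [← zpow_natCast, ← zpow_mul, mul_comm]
  · refine Finset.prod_congr rfl fun i _ => ?_
    rw [he' i, ← zpow_natCast, ← zpow_mul, mul_comm]

end

/-- Unit rank of the `p`-th cyclotomic field, `p` an odd prime: `rank + 1 = (p - 1) / 2`. -/
theorem rank_cyclotomic_add_one (p : ℕ) [hp : Fact p.Prime] (hp2 : p ≠ 2)
    [IsCyclotomicExtension {p} ℚ K] :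
    NumberField.Units.rank K + 1 = (p - 1) / 2 := by
  have hp3 : 2 < p := lt_of_le_of_ne hp.out.two_le (Ne.symm hp2)
  haveI : NeZero p := ⟨hp.out.ne_zero⟩
  have hcard : Fintype.card (InfinitePlace K) = (p - 1) / 2 := by
    rw [InfinitePlace.card_eq_nrRealPlaces_add_nrComplexPlaces,
      IsCyclotomicExtension.Rat.nrRealPlaces_eq_zero (n := p) K hp3, zero_add,
      IsCyclotomicExtension.Rat.nrComplexPlaces_eq_totient_div_two (n := p),
      Nat.totient_prime hp.out]
  have hpos : 0 < (p - 1) / 2 := by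
    have : 2 ≤ p - 1 := by omega
    exact Nat.div_pos this (by norm_num)
  dsimp only [NumberField.Units.rank]
  rw [hcard]
  omega

/-- **Kummer criterion for the `p`-th cyclotomic field.** -/
theorem kummer_criterion_cyclotomic (p : ℕ) [hp : Fact p.Prime] (hp2 : p ≠ 2)
    [IsCyclotomicExtension {p} ℚ K]
    {A : Type*} [AddCommGroup A] [Module (ZMod p) A] (Λ : Additive (𝓞 K)ˣ →+ A)
    (g : Fin ((p - 1) / 2) → (𝓞 K)ˣ)
    (hg : LinearIndependent (ZMod p) (fun i => Λ (Additive.ofMul (g i))))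
    (u : (𝓞 K)ˣ) (hu : Λ (Additive.ofMul u) = 0) : ∃ v : (𝓞 K)ˣ, u = v ^ p := by
  have hr := rank_cyclotomic_add_one (K := K) p hp2
  let e : Fin (NumberField.Units.rank K + 1) ≃ Fin ((p - 1) / 2) := finCongr hr
  refine kummer_criterion p Λ (fun i => g (e i)) ?_ u hu
  exact hg.comp e e.injective

end Fermat.Agent.FLTReg
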