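import Mathlib

/-!
# Kummer's lemma via a logarithmic derivative: generic engine (helper27)

Abstract part: a group generated by `m` elements, a homomorphism to an `𝔽_p`-vector space
that is injective "mod `p`-th powers" as soon as `m` elements have independent images.
-/

namespace Fermat.Agent.FLTReg

open Polynomial

section Abstract

variable {G : Type*} [CommGroup G] {p : ℕ} [hp : Fact p.Prime]
  {W : Type*} [AddCommGroup W] [Module (ZMod p) W]

theorem KD_toAdd_prod_zpow (Φ : G →* Multiplicative W) {κ : Type*} [Fintype κ] (g : κ → G)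
    (e : κ → ℤ) :
    (Φ (∏ j, g j ^ e j)).toAdd = ∑ j, ((e j : ℤ) : ZMod p) • (Φ (g j)).toAdd := by
  rw [map_prod, toAdd_prod]
  refine Finset.sum_congr rfl fun j _ => ?_
  rw [map_zpow, toAdd_zpow, Int.cast_smul_eq_zsmul]

/-- Abstract Kummer lemma: if `G` is generated by a family of size `≤ #ι` and `ι`-many elements
have `𝔽_p`-independent images, then the kernel of `Φ` consists of `p`-th powers. -/
theorem KD_exists_pow_eq_of_map_eq_one (Φ : G →* Multiplicative W)
    {κ : Type*} [Fintype κ] (g : κ → G)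
    (hgen : ∀ u : G, ∃ e : κ → ℤ, u = ∏ j, g j ^ e j)
    {ι : Type*} [Fintype ι] (us : ι → G)
    (hcard : Fintype.card κ ≤ Fintype.card ι)
    (hind : LinearIndependent (ZMod p) (fun i => (Φ (us i)).toAdd))
    (u : G) (hu : Φ u = 1) : ∃ v : G, u = v ^ p := by
  classical
  set b : κ → W := fun j => (Φ (g j)).toAdd with hb
  -- every image lies in the span of `b`
  have hmem : ∀ x : G, (Φ x).toAdd ∈ Submodule.span (ZMod p) (Set.range b) := by
    intro x
    obtain ⟨e, rfl⟩ := hgen x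
    rw [KD_toAdd_prod_zpow (p := p)]
    exact Submodule.sum_mem _ fun j _ =>
      Submodule.smul_mem _ _ (Submodule.subset_span ⟨j, rfl⟩)
  have hle : Submodule.span (ZMod p) (Set.range fun i => (Φ (us i)).toAdd) ≤
      Submodule.span (ZMod p) (Set.range b) := by
    rw [Submodule.span_le]
    rintro _ ⟨i, rfl⟩
    exact hmem _
  have h1 : Fintype.card ι =
      (Set.range fun i => (Φ (us i)).toAdd).finrank (ZMod p) :=
    linearIndependent_iff_card_eq_finrank_span.mp hind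
  have h2 : (Set.range fun i => (Φ (us i)).toAdd).finrank (ZMod p) ≤
      (Set.range b).finrank (ZMod p) := by
    have : Module.Finite (ZMod p) (Submodule.span (ZMod p) (Set.range b)) :=
      Module.Finite.span_of_finite _ (Set.finite_range b)
    exact Submodule.finrank_mono hle
  have h3 : (Set.range b).finrank (ZMod p) ≤ Fintype.card κ := finrank_range_le_card b
  have hbind : LinearIndependent (ZMod p) b :=
    linearIndependent_iff_card_eq_finrank_span.mpr (by omega)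
  obtain ⟨e, rfl⟩ := hgen u
  have hsum : ∑ j, ((e j : ℤ) : ZMod p) • b j = 0 := by
    rw [← KD_toAdd_prod_zpow (p := p), hu, toAdd_one]
  have hzero := Fintype.linearIndependent_iff.mp hbind _ hsum
  have hdvd : ∀ j, (p : ℤ) ∣ e j := fun j =>
    (ZMod.intCast_zmod_eq_zero_iff_dvd (e j) p).mp (hzero j)
  choose f hf using hdvd
  refine ⟨∏ j, g j ^ f j, ?_⟩
  rw [← Finset.prod_pow]
  refine Finset.prod_congr rfl fun j _ => ?_
  rw [hf j, ← zpow_natCast, ← zpow_mul, mul_comm]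

end Abstract


section Cyclo

open NumberField

variable (p : ℕ) [hp : Fact p.Prime]

/-- The truncated polynomial ring `𝔽_p[X]/(X-1)^n`. -/
abbrev KD_R (n : ℕ) : Type := (ZMod p)[X] ⧸ Ideal.span {((X : (ZMod p)[X]) - 1) ^ n}

/-- The point `x + ε` of the dual numbers over `KD_R p n`. -/
noncomputable def KD_y (n : ℕ) : DualNumber (KD_R p n) :=
  TrivSqZeroExt.inl (Ideal.Quotient.mk _ X) + DualNumber.eps

theorem KD_aeval_mk_X (n : ℕ) (f : ℤ[X]) :
    aeval (Ideal.Quotient.mk (Ideal.span {((X : (ZMod p)[X]) - 1) ^ n}) X) f =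
      Ideal.Quotient.mk _ (f.map (Int.castRingHom (ZMod p))) := by
  have h := aeval_algHom_apply (Ideal.Quotient.mkₐ ℤ (Ideal.span {((X : (ZMod p)[X]) - 1) ^ n}))
    (X : (ZMod p)[X]) f
  rw [Ideal.Quotient.mkₐ_eq_mk] at h
  rw [h]
  congr 1

theorem KD_aeval_y (n : ℕ) (f : ℤ[X]) :
    aeval (KD_y p n) f =
      TrivSqZeroExt.inl (Ideal.Quotient.mk _ (f.map (Int.castRingHom (ZMod p)))) +
      TrivSqZeroExt.inr (Ideal.Quotient.mk _ ((derivative f).map (Int.castRingHom (ZMod p)))) := by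
  have h1 : ∀ g : ℤ[X], aeval (TrivSqZeroExt.inl (Ideal.Quotient.mk
      (Ideal.span {((X : (ZMod p)[X]) - 1) ^ n}) X) : DualNumber (KD_R p n)) g =
      TrivSqZeroExt.inl (Ideal.Quotient.mk _ (g.map (Int.castRingHom (ZMod p)))) := by
    intro g
    have h := aeval_algHom_apply (TrivSqZeroExt.inlAlgHom ℤ (KD_R p n) (KD_R p n))
      (Ideal.Quotient.mk (Ideal.span {((X : (ZMod p)[X]) - 1) ^ n}) X) g
    rw [TrivSqZeroExt.inlAlgHom_apply] at h
    rw [h, KD_aeval_mk_X, TrivSqZeroExt.inlAlgHom_apply]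
  have h2 := aeval_add_of_sq_eq_zero (S := DualNumber (KD_R p n)) f
    (TrivSqZeroExt.inl (Ideal.Quotient.mk (Ideal.span {((X : (ZMod p)[X]) - 1) ^ n}) X))
    DualNumber.eps (by rw [pow_two]; exact DualNumber.eps_mul_eps)
  unfold KD_y
  refine h2.trans ?_
  rw [h1, h1]
  congr 1
  rw [DualNumber.eps, TrivSqZeroExt.inl_mul_inr, smul_eq_mul, mul_one]

theorem KD_cyclotomic_zmod : cyclotomic p (ZMod p) = ((X : (ZMod p)[X]) - 1) ^ (p - 1) := by
  have h := cyclotomic_mul_prime_eq_pow_of_not_dvd (ZMod p) (p := p) (n := 1)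
    (by intro h; exact hp.out.one_lt.ne' (Nat.dvd_one.mp h))
  rwa [one_mul, cyclotomic_one] at h

theorem KD_mk_cyclotomic_eq_zero (n : ℕ) (hn : n ≤ p - 2) :
    Ideal.Quotient.mk (Ideal.span {((X : (ZMod p)[X]) - 1) ^ n})
      ((cyclotomic p ℤ).map (Int.castRingHom (ZMod p))) = 0 := by
  rw [map_cyclotomic, KD_cyclotomic_zmod, Ideal.Quotient.eq_zero_iff_mem, Ideal.mem_span_singleton]
  exact pow_dvd_pow _ (by omega)

theorem KD_mk_derivative_cyclotomic_eq_zero (n : ℕ) (hn : n ≤ p - 2) :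
    Ideal.Quotient.mk (Ideal.span {((X : (ZMod p)[X]) - 1) ^ n})
      ((derivative (cyclotomic p ℤ)).map (Int.castRingHom (ZMod p))) = 0 := by
  rw [← derivative_map, map_cyclotomic, KD_cyclotomic_zmod, Ideal.Quotient.eq_zero_iff_mem,
    Ideal.mem_span_singleton, derivative_pow]
  have : p - 1 - 1 = p - 2 := by omega
  rw [this]
  exact Dvd.dvd.mul_right (Dvd.dvd.mul_left (pow_dvd_pow _ hn) _) _

theorem KD_natCast_dual_eq_zero (n : ℕ) : ((p : ℕ) : DualNumber (KD_R p n)) = 0 := by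
  have h : ((p : ℕ) : DualNumber (KD_R p n)) =
      algebraMap (ZMod p) (DualNumber (KD_R p n)) ((p : ℕ) : ZMod p) := by
    rw [map_natCast]
  rw [h, ZMod.natCast_self, map_zero]

variable (K : Type*) [Field K] [NumberField K] [IsCyclotomicExtension {p} ℚ K]

theorem KD_minpoly_toInteger :
    minpoly ℤ (IsCyclotomicExtension.zeta_spec p ℚ K).toInteger = cyclotomic p ℤ := by
  have hζ := IsCyclotomicExtension.zeta_spec p ℚ K
  rw [cyclotomic_eq_minpoly hζ hp.out.pos]
  exact (minpoly.algebraMap_eq (RingOfIntegers.coe_injective (K := K)) hζ.toInteger).symm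

theorem KD_aeval_y_minpoly :
    aeval (KD_y p (p - 2))
      (minpoly ℤ (IsCyclotomicExtension.zeta_spec p ℚ K).integralPowerBasis.gen) = 0 := by
  rw [IsPrimitiveRoot.integralPowerBasis_gen, KD_minpoly_toInteger, KD_aeval_y,
    KD_mk_cyclotomic_eq_zero p _ le_rfl, KD_mk_derivative_cyclotomic_eq_zero p _ le_rfl,
    TrivSqZeroExt.inl_zero, TrivSqZeroExt.inr_zero, add_zero]

/-- The ring hom `𝓞 K → (𝔽_p[X]/(X-1)^(p-2))[ε]`, `ζ ↦ x + ε`. -/
noncomputable def KD_Psi : 𝓞 K →ₐ[ℤ] DualNumber (KD_R p (p - 2)) :=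
  (IsCyclotomicExtension.zeta_spec p ℚ K).integralPowerBasis.lift (KD_y p (p - 2))
    (KD_aeval_y_minpoly p K)

theorem KD_Psi_aeval (f : ℤ[X]) :
    KD_Psi p K (aeval (IsCyclotomicExtension.zeta_spec p ℚ K).toInteger f) =
      TrivSqZeroExt.inl (Ideal.Quotient.mk _ (f.map (Int.castRingHom (ZMod p)))) +
      TrivSqZeroExt.inr (Ideal.Quotient.mk _ ((derivative f).map (Int.castRingHom (ZMod p)))) := by
  have h := (IsCyclotomicExtension.zeta_spec p ℚ K).integralPowerBasis.lift_aeval (KD_y p (p - 2))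
    (KD_aeval_y_minpoly p K) f
  rw [IsPrimitiveRoot.integralPowerBasis_gen] at h
  rw [← KD_aeval_y]
  exact h

theorem KD_Psi_fst_mul_inv (u : (𝓞 K)ˣ) :
    (KD_Psi p K (u : 𝓞 K)).fst * (KD_Psi p K ((u⁻¹ : (𝓞 K)ˣ) : 𝓞 K)).fst = 1 := by
  rw [← TrivSqZeroExt.fst_mul, ← map_mul, Units.mul_inv, map_one, TrivSqZeroExt.fst_one]

/-- The logarithmic-derivative homomorphism on units. -/
noncomputable def KD_Phi : (𝓞 K)ˣ →* Multiplicative (KD_R p (p - 2)) where
  toFun u := Multiplicative.ofAdd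
    ((KD_Psi p K (u : 𝓞 K)).snd * (KD_Psi p K ((u⁻¹ : (𝓞 K)ˣ) : 𝓞 K)).fst)
  map_one' := by
    simp
  map_mul' u v := by
    rw [← ofAdd_add]
    congr 1
    have hu := KD_Psi_fst_mul_inv p K u
    have hv := KD_Psi_fst_mul_inv p K v
    rw [mul_inv, Units.val_mul, Units.val_mul, map_mul, map_mul, TrivSqZeroExt.snd_mul,
      TrivSqZeroExt.fst_mul]
    simp only [smul_eq_mul, MulOpposite.smul_eq_mul_unop, MulOpposite.unop_op]
    linear_combination ((KD_Psi p K (v : 𝓞 K)).snd * (KD_Psi p K ((v⁻¹ : (𝓞 K)ˣ) : 𝓞 K)).fst) * hu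
      + ((KD_Psi p K (u : 𝓞 K)).snd * (KD_Psi p K ((u⁻¹ : (𝓞 K)ˣ) : 𝓞 K)).fst) * hv

theorem KD_Phi_apply (u : (𝓞 K)ˣ) :
    (KD_Phi p K u).toAdd =
      (KD_Psi p K (u : 𝓞 K)).snd * (KD_Psi p K ((u⁻¹ : (𝓞 K)ˣ) : 𝓞 K)).fst := rfl

/-- Units congruent to a rational integer mod `p` are killed by `KD_Phi`. -/
theorem KD_Phi_eq_one_of_congr (u : (𝓞 K)ˣ)
    (h : ∃ n : ℤ, ((p : ℕ) : 𝓞 K) ∣ (u : 𝓞 K) - n) : KD_Phi p K u = 1 := by
  obtain ⟨n, w, hw⟩ := h
  have hu : (u : 𝓞 K) = (n : 𝓞 K) + ((p : ℕ) : 𝓞 K) * w := by rw [← hw]; ring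
  have h1 : KD_Psi p K (u : 𝓞 K) = ((n : ℤ) : DualNumber (KD_R p (p - 2))) := by
    rw [hu, map_add, map_mul, map_intCast, map_natCast, KD_natCast_dual_eq_zero, zero_mul,
      add_zero]
  apply Multiplicative.toAdd.injective
  rw [KD_Phi_apply, h1, TrivSqZeroExt.snd_intCast, zero_mul, toAdd_one]

theorem KD_card_gen (hp2 : p ≠ 2) :
    Fintype.card (Option (Fin (Units.rank K))) = (p - 1) / 2 := by
  have hp3 : 2 < p := by
    have := hp.out.two_le
    omega
  rw [Fintype.card_option, Fintype.card_fin, Units.rank,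
    InfinitePlace.card_eq_nrRealPlaces_add_nrComplexPlaces,
    IsCyclotomicExtension.Rat.nrComplexPlaces_eq_totient_div_two p K, Nat.totient_prime hp.out,
    IsCyclotomicExtension.Rat.nrRealPlaces_eq_zero K hp3]
  omega

theorem KD_exists_gen (K : Type*) [Field K] [NumberField K] :
    ∃ g : Option (Fin (Units.rank K)) → (𝓞 K)ˣ,
      ∀ u : (𝓞 K)ˣ, ∃ e : Option (Fin (Units.rank K)) → ℤ, u = ∏ j, g j ^ e j := by
  obtain ⟨τ, hτ⟩ := IsCyclic.exists_generator (α := Units.torsion K)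
  refine ⟨fun j => j.elim (τ : (𝓞 K)ˣ) (Units.fundSystem K), fun u => ?_⟩
  obtain ⟨⟨t, e⟩, hu, -⟩ := Units.exist_unique_eq_mul_prod K u
  obtain ⟨k, hk⟩ := Subgroup.mem_zpowers_iff.mp (hτ t)
  refine ⟨fun j => j.elim k e, ?_⟩
  rw [Fintype.prod_option]
  simp only [Option.elim_none, Option.elim_some]
  rw [hu, ← hk]
  simp

/-- **Kummer's lemma from a rank certificate**: if `(p-1)/2` units have `𝔽_p`-independent
logarithmic derivatives, then every unit congruent to a rational integer mod `p` is a `p`-th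
power. -/
theorem KD_kummer_of_linearIndependent (hp2 : p ≠ 2) {ι : Type*} [Fintype ι]
    (hcard : (p - 1) / 2 ≤ Fintype.card ι) (us : ι → (𝓞 K)ˣ)
    (hind : LinearIndependent (ZMod p) (fun i => (KD_Phi p K (us i)).toAdd))
    (u : (𝓞 K)ˣ) (h : ∃ n : ℤ, ((p : ℕ) : 𝓞 K) ∣ (u : 𝓞 K) - n) :
    ∃ v : (𝓞 K)ˣ, u = v ^ p := by
  obtain ⟨g, hg⟩ := KD_exists_gen K
  exact KD_exists_pow_eq_of_map_eq_one (p := p) (KD_Phi p K) g hg us
    (by rw [KD_card_gen p K hp2]; exact hcard) hind u (KD_Phi_eq_one_of_congr p K u h)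

theorem KD_Psi_fst_aeval (f : ℤ[X]) :
    (KD_Psi p K (aeval (IsCyclotomicExtension.zeta_spec p ℚ K).toInteger f)).fst =
      Ideal.Quotient.mk _ (f.map (Int.castRingHom (ZMod p))) := by
  rw [KD_Psi_aeval]; simp

theorem KD_Psi_snd_aeval (f : ℤ[X]) :
    (KD_Psi p K (aeval (IsCyclotomicExtension.zeta_spec p ℚ K).toInteger f)).snd =
      Ideal.Quotient.mk _ ((derivative f).map (Int.castRingHom (ZMod p))) := by
  rw [KD_Psi_aeval]; simp

theorem KD_smul_eq (n : ℕ) (c : ZMod p) (y : KD_R p n) :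
    c • y = Ideal.Quotient.mk _ (C c) * y := by
  obtain ⟨g, rfl⟩ := Ideal.Quotient.mk_surjective y
  rw [← map_mul, ← smul_eq_C_mul]
  rfl

/-- Independence of the logarithmic derivatives from a divisibility certificate
(denominators cleared). -/
theorem KD_linearIndependent_of_cert {ι : Type*} [Fintype ι]
    (fs Qs : ι → ℤ[X]) (us : ι → (𝓞 K)ˣ)
    (hus : ∀ i, (us i : 𝓞 K) = aeval (IsCyclotomicExtension.zeta_spec p ℚ K).toInteger (fs i))
    (hQ : ∀ i, Qs i * fs i = derivative (fs i) * ∏ j, fs j)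
    (hcert : ∀ c : ι → ZMod p,
      (((X : (ZMod p)[X]) - 1) ^ (p - 2) ∣
        ∑ i, C (c i) * (Qs i).map (Int.castRingHom (ZMod p))) → c = 0) :
    LinearIndependent (ZMod p) (fun i => (KD_Phi p K (us i)).toAdd) := by
  rw [Fintype.linearIndependent_iff]
  intro c hc
  have hzero : c = 0 := by
    apply hcert
    rw [← Ideal.mem_span_singleton, ← Ideal.Quotient.eq_zero_iff_mem, map_sum]
    set a : ι → KD_R p (p - 2) := fun i => (KD_Psi p K (us i : 𝓞 K)).fst with ha
    set a' : ι → KD_R p (p - 2) := fun i => (KD_Psi p K ((us i)⁻¹ : (𝓞 K)ˣ)).fst with ha'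
    set s : ι → KD_R p (p - 2) := fun i => (KD_Psi p K (us i : 𝓞 K)).snd with hs
    have haa' : ∀ i, a i * a' i = 1 := fun i => KD_Psi_fst_mul_inv p K (us i)
    have hc' : ∑ i, c i • (s i * a' i) = 0 := hc
    have hmul : (∑ i, c i • (s i * a' i)) * ∏ j, a j = 0 := by rw [hc', zero_mul]
    rw [Finset.sum_mul] at hmul
    rw [← hmul]
    refine Finset.sum_congr rfl fun i _ => ?_
    have hai : ∀ j, Ideal.Quotient.mk (Ideal.span {((X : (ZMod p)[X]) - 1) ^ (p - 2)})
        ((fs j).map (Int.castRingHom (ZMod p))) = a j := by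
      intro j
      rw [ha]
      simp only
      rw [hus j, KD_Psi_fst_aeval]
    have hsi : Ideal.Quotient.mk (Ideal.span {((X : (ZMod p)[X]) - 1) ^ (p - 2)})
        ((derivative (fs i)).map (Int.castRingHom (ZMod p))) = s i := by
      rw [hs]
      simp only
      rw [hus i, KD_Psi_snd_aeval]
    have hQi : Ideal.Quotient.mk (Ideal.span {((X : (ZMod p)[X]) - 1) ^ (p - 2)})
        ((Qs i).map (Int.castRingHom (ZMod p))) * a i = s i * ∏ j, a j := by
      rw [← hai i, ← hsi, ← map_mul, ← Polynomial.map_mul, hQ i, Polynomial.map_mul, map_mul,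
        Polynomial.map_prod, map_prod]
      simp_rw [hai]
    rw [map_mul, KD_smul_eq]
    have : Ideal.Quotient.mk (Ideal.span {((X : (ZMod p)[X]) - 1) ^ (p - 2)})
        ((Qs i).map (Int.castRingHom (ZMod p))) = s i * a' i * ∏ j, a j := by
      calc _ = Ideal.Quotient.mk (Ideal.span {((X : (ZMod p)[X]) - 1) ^ (p - 2)})
            ((Qs i).map (Int.castRingHom (ZMod p))) * (a i * a' i) := by rw [haa', mul_one]
        _ = s i * a' i * ∏ j, a j := by rw [← mul_assoc, hQi]; ring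
    rw [this]; ring
  intro i
  rw [hzero]
  rfl

/-- Matrix form of the certificate. -/
theorem KD_cert_of_matrix {m n : ℕ} (hn : n = p - 2) (Qs : Fin m → ℤ[X])
    (q : Fin m → Fin n → ℤ) (junk : Fin m → ℤ[X])
    (hE : ∀ i, (Qs i).comp (X + 1) = ∑ k : Fin n, C (q i k) * X ^ (k : ℕ) + X ^ n * junk i)
    (B : Fin n → Fin m → ZMod p)
    (hB : ∀ i b, ∑ k, ((q i k : ℤ) : ZMod p) * B k b = if i = b then 1 else 0)
    (c : Fin m → ZMod p)
    (hdvd : ((X : (ZMod p)[X]) - 1) ^ (p - 2) ∣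
        ∑ i, C (c i) * (Qs i).map (Int.castRingHom (ZMod p))) : c = 0 := by
  subst hn
  have h1 : ((X : (ZMod p)[X]) - C 1) ^ (p - 2) ∣
      ∑ i, C (c i) * (Qs i).map (Int.castRingHom (ZMod p)) := by simpa using hdvd
  rw [X_sub_C_pow_dvd_iff, X_pow_dvd_iff] at h1
  have hcomp : ∀ i, ((Qs i).map (Int.castRingHom (ZMod p))).comp (X + C 1) =
      ∑ k : Fin (p - 2), C ((q i k : ℤ) : ZMod p) * X ^ (k : ℕ) +
        X ^ (p - 2) * (junk i).map (Int.castRingHom (ZMod p)) := by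
    intro i
    have := congrArg (Polynomial.map (Int.castRingHom (ZMod p))) (hE i)
    rw [Polynomial.map_comp] at this
    simpa [Polynomial.map_sum] using this
  have hcoeff : ∀ k : Fin (p - 2), ∑ i, c i * ((q i k : ℤ) : ZMod p) = 0 := by
    intro k
    have hk := h1 k k.2
    rw [sum_comp, finsetSum_coeff] at hk
    rw [← hk]
    refine Finset.sum_congr rfl fun i _ => ?_
    rw [mul_comp, C_comp, coeff_C_mul, hcomp i, coeff_add, finsetSum_coeff,
      coeff_X_pow_mul', if_neg (by omega), add_zero]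
    congr 1
    rw [Finset.sum_eq_single k]
    · rw [coeff_C_mul, coeff_X_pow, if_pos rfl, mul_one]
    · intro j _ hjk
      rw [coeff_C_mul, coeff_X_pow, if_neg (fun h => hjk (Fin.ext h.symm)), mul_zero]
    · intro h; exact absurd (Finset.mem_univ k) h
  funext b
  have : c b = ∑ k, (∑ i, c i * ((q i k : ℤ) : ZMod p)) * B k b := by
    simp_rw [Finset.sum_mul]
    rw [Finset.sum_comm]
    simp_rw [mul_assoc, ← Finset.mul_sum, hB]
    simp
  rw [this]
  simp [hcoeff]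


/-- The polynomials `X, 1+X, 1+X+X^2, …` whose values at `ζ` are the cyclotomic units used for
the rank certificate. -/
noncomputable def KD_fs (m : ℕ) (i : Fin m) : ℤ[X] :=
  if (i : ℕ) = 0 then X else ∑ j ∈ Finset.range ((i : ℕ) + 1), X ^ j

theorem KD_isUnit_aeval_fs {m : ℕ} (hmp : m < p) (i : Fin m) :
    IsUnit (aeval (IsCyclotomicExtension.zeta_spec p ℚ K).toInteger (KD_fs m i)) := by
  have hζ := (IsCyclotomicExtension.zeta_spec p ℚ K).toInteger_isPrimitiveRoot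
  unfold KD_fs
  split_ifs with h0
  · rw [aeval_X]
    exact hζ.isUnit hp.out.ne_zero
  · rw [map_sum]
    simp_rw [map_pow, aeval_X]
    refine hζ.geom_sum_isUnit hp.out.two_le ?_
    rw [Nat.coprime_comm, Nat.Prime.coprime_iff_not_dvd hp.out]
    intro hdvd
    have := Nat.le_of_dvd (Nat.succ_pos _) hdvd
    omega

/-- **Kummer's lemma from a matrix certificate.** -/
theorem KD_kummer_of_matrix (hp2 : p ≠ 2) {m n : ℕ} (hm : (p - 1) / 2 ≤ m) (hmp : m < p)
    (hn : n = p - 2) (Qs : Fin m → ℤ[X])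
    (hQ : ∀ i, Qs i * KD_fs m i = derivative (KD_fs m i) * ∏ j, KD_fs m j)
    (q : Fin m → Fin n → ℤ) (junk : Fin m → ℤ[X])
    (hE : ∀ i, (Qs i).comp (X + 1) = ∑ k : Fin n, C (q i k) * X ^ (k : ℕ) + X ^ n * junk i)
    (B : Fin n → Fin m → ZMod p)
    (hB : ∀ i b, ∑ k, ((q i k : ℤ) : ZMod p) * B k b = if i = b then 1 else 0)
    (u : (𝓞 K)ˣ) (h : ∃ z : ℤ, ((p : ℕ) : 𝓞 K) ∣ (u : 𝓞 K) - z) :
    ∃ v : (𝓞 K)ˣ, u = v ^ p := by
  refine KD_kummer_of_linearIndependent p K hp2 (ι := Fin m) (by rwa [Fintype.card_fin])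
    (fun i => (KD_isUnit_aeval_fs p K hmp i).unit) ?_ u h
  exact KD_linearIndependent_of_cert p K (KD_fs m) Qs _ (fun i => IsUnit.unit_spec _) hQ
    (fun c hc => KD_cert_of_matrix p hn Qs q junk hE B hB c hc)

end Cyclo

end Fermat.Agent.FLTReg
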