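import Fermat.Agent.FLTReg.KummerDlog

/-! Kummer's lemma for `p = 11`: explicit rank certificate (generated data, helper27). -/

namespace Fermat.Agent.FLTReg

open Polynomial NumberField

/-- cleared-denominator numerators -/
noncomputable def KD11_Qs : Fin 5 → ℤ[X] :=
  ![(1) * (1 + X) * (1 + X + X ^ 2) * (1 + X + X ^ 2 + X ^ 3) * (1 + X + X ^ 2 + X ^ 3 + X ^ 4),
    (1) * (X) * (1 + X + X ^ 2) * (1 + X + X ^ 2 + X ^ 3) * (1 + X + X ^ 2 + X ^ 3 + X ^ 4),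
    (1 + 2 * X) * (X) * (1 + X) * (1 + X + X ^ 2 + X ^ 3) * (1 + X + X ^ 2 + X ^ 3 + X ^ 4),
    (1 + 2 * X + 3 * X ^ 2) * (X) * (1 + X) * (1 + X + X ^ 2) * (1 + X + X ^ 2 + X ^ 3 + X ^ 4),
    (1 + 2 * X + 3 * X ^ 2 + 4 * X ^ 3) * (X) * (1 + X) * (1 + X + X ^ 2) * (1 + X + X ^ 2 + X ^ 3)]

/-- low coefficients of `Qs i (X+1)` -/
def KD11_q : Fin 5 → Fin 9 → ℤ :=
  ![![120, 600, 1450, 2200, 2299, 1717, 923, 351, 90],
    ![60, 330, 860, 1395, 1552, 1232, 704, 285, 78],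
    ![120, 680, 1810, 2980, 3349, 2673, 1528, 615, 166],
    ![180, 1050, 2850, 4745, 5356, 4268, 2422, 963, 256],
    ![240, 1440, 3980, 6676, 7524, 5950, 3341, 1314, 346]]

/-- high part of `Qs i (X+1)` -/
noncomputable def KD11_junk : Fin 5 → ℤ[X] :=
  ![14 + X,
    13 + X,
    27 + 2 * X,
    41 + 3 * X,
    55 + 4 * X]

/-- left inverse certificate -/
def KD11_B : Fin 9 → Fin 5 → ZMod 11 :=
  ![![0, 8, 1, 7, 0],
    ![5, 3, 10, 8, 5],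
    ![0, 0, 0, 0, 0],
    ![10, 9, 5, 3, 10],
    ![0, 0, 0, 0, 0],
    ![6, 0, 2, 10, 5],
    ![0, 0, 0, 0, 0],
    ![2, 10, 6, 7, 2],
    ![0, 0, 0, 0, 0]]

theorem KD11_hQ : ∀ i, KD11_Qs i * KD_fs 5 i = derivative (KD_fs 5 i) * ∏ j, KD_fs 5 j := by
  intro i
  fin_cases i <;>
  simp [KD11_Qs, KD_fs, Fin.prod_univ_succ, Finset.sum_range_succ] <;> ring

theorem KD11_hE : ∀ i, (KD11_Qs i).comp (X + 1) =
    ∑ k : Fin 9, C (KD11_q i k) * X ^ (k : ℕ) + X ^ 9 * KD11_junk i := by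
  intro i
  fin_cases i <;>
  simp [KD11_Qs, KD11_q, KD11_junk, Fin.sum_univ_succ] <;> ring

theorem KD11_hB : ∀ i b, ∑ k, ((KD11_q i k : ℤ) : ZMod 11) * KD11_B k b = if i = b then 1 else 0 := by
  decide

/-- **Kummer's lemma for `p = 11`.** -/
theorem KD_kummer_eleven (K : Type*) [Field K] [NumberField K] [IsCyclotomicExtension {11} ℚ K]
    (u : (𝓞 K)ˣ) (h : ∃ n : ℤ, ((11 : ℕ) : 𝓞 K) ∣ (u : 𝓞 K) - n) : ∃ v : (𝓞 K)ˣ, u = v ^ 11 := by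
  haveI : Fact (Nat.Prime 11) := ⟨by norm_num⟩
  exact KD_kummer_of_matrix 11 K (by norm_num) (m := 5) (n := 9) (by norm_num) (by norm_num)
    (by norm_num) KD11_Qs KD11_hQ KD11_q KD11_junk KD11_hE KD11_B KD11_hB u h

end Fermat.Agent.FLTReg

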