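import Fermat.Agent.FLTReg.KummerDlog

/-! Kummer's lemma for `p = 13`: explicit rank certificate (generated data, helper27). -/

namespace Fermat.Agent.FLTReg

open Polynomial NumberField

/-- cleared-denominator numerators -/
noncomputable def KD13_Qs : Fin 6 → ℤ[X] :=
  ![(1) * (1 + X) * (1 + X + X ^ 2) * (1 + X + X ^ 2 + X ^ 3) * (1 + X + X ^ 2 + X ^ 3 + X ^ 4) * (1 + X + X ^ 2 + X ^ 3 + X ^ 4 + X ^ 5),
    (1) * (X) * (1 + X + X ^ 2) * (1 + X + X ^ 2 + X ^ 3) * (1 + X + X ^ 2 + X ^ 3 + X ^ 4) * (1 + X + X ^ 2 + X ^ 3 + X ^ 4 + X ^ 5),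
    (1 + 2 * X) * (X) * (1 + X) * (1 + X + X ^ 2 + X ^ 3) * (1 + X + X ^ 2 + X ^ 3 + X ^ 4) * (1 + X + X ^ 2 + X ^ 3 + X ^ 4 + X ^ 5),
    (1 + 2 * X + 3 * X ^ 2) * (X) * (1 + X) * (1 + X + X ^ 2) * (1 + X + X ^ 2 + X ^ 3 + X ^ 4) * (1 + X + X ^ 2 + X ^ 3 + X ^ 4 + X ^ 5),
    (1 + 2 * X + 3 * X ^ 2 + 4 * X ^ 3) * (X) * (1 + X) * (1 + X + X ^ 2) * (1 + X + X ^ 2 + X ^ 3) * (1 + X + X ^ 2 + X ^ 3 + X ^ 4 + X ^ 5),
    (1 + 2 * X + 3 * X ^ 2 + 4 * X ^ 3 + 5 * X ^ 4) * (X) * (1 + X) * (1 + X + X ^ 2) * (1 + X + X ^ 2 + X ^ 3) * (1 + X + X ^ 2 + X ^ 3 + X ^ 4)]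

/-- low coefficients of `Qs i (X+1)` -/
def KD13_q : Fin 6 → Fin 11 → ℤ :=
  ![![720, 5400, 20100, 48750, 85514, 114257, 119573, 99426, 66014, 34900, 14536],
    ![360, 2880, 11310, 28770, 52747, 73512, 80159, 69420, 48010, 26452, 11492],
    ![720, 5880, 23460, 60430, 111914, 157223, 172483, 149995, 103950, 57259, 24803],
    ![1080, 9000, 36450, 94920, 177141, 250078, 274997, 239128, 165322, 90640, 38998],
    ![1440, 12240, 50280, 132156, 247924, 350660, 385236, 333895, 229676, 125139, 53475],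
    ![1800, 15600, 64950, 172030, 323615, 457250, 500545, 431656, 295254, 159970, 68006]]

/-- high part of `Qs i (X+1)` -/
noncomputable def KD13_junk : Fin 6 → ℤ[X] :=
  ![4674 + 1121 * X + 189 * X ^ 2 + 20 * X ^ 3 + X ^ 4,
    3859 + 968 * X + 171 * X ^ 2 + 19 * X ^ 3 + X ^ 4,
    8278 + 2056 * X + 358 * X ^ 2 + 39 * X ^ 3 + 2 * X ^ 4,
    12905 + 3174 * X + 547 * X ^ 2 + 59 * X ^ 3 + 3 * X ^ 4,
    17575 + 4295 * X + 736 * X ^ 2 + 79 * X ^ 3 + 4 * X ^ 4,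
    22249 + 5416 * X + 925 * X ^ 2 + 99 * X ^ 3 + 5 * X ^ 4]

/-- left inverse certificate -/
def KD13_B : Fin 11 → Fin 6 → ZMod 13 :=
  ![![10, 12, 12, 10, 11, 11],
    ![6, 1, 10, 5, 3, 1],
    ![0, 0, 0, 0, 0, 0],
    ![10, 5, 5, 6, 2, 6],
    ![0, 0, 0, 0, 0, 0],
    ![11, 9, 5, 12, 5, 4],
    ![0, 0, 0, 0, 0, 0],
    ![8, 3, 7, 7, 0, 10],
    ![0, 0, 0, 0, 0, 0],
    ![6, 9, 4, 10, 1, 3],
    ![0, 0, 0, 0, 0, 0]]

theorem KD13_hQ : ∀ i, KD13_Qs i * KD_fs 6 i = derivative (KD_fs 6 i) * ∏ j, KD_fs 6 j := by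
  intro i
  fin_cases i <;>
  simp [KD13_Qs, KD_fs, Fin.prod_univ_succ, Finset.sum_range_succ] <;> ring

theorem KD13_hE : ∀ i, (KD13_Qs i).comp (X + 1) =
    ∑ k : Fin 11, C (KD13_q i k) * X ^ (k : ℕ) + X ^ 11 * KD13_junk i := by
  intro i
  fin_cases i <;>
  simp [KD13_Qs, KD13_q, KD13_junk, Fin.sum_univ_succ] <;> ring

theorem KD13_hB : ∀ i b, ∑ k, ((KD13_q i k : ℤ) : ZMod 13) * KD13_B k b = if i = b then 1 else 0 := by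
  decide

/-- **Kummer's lemma for `p = 13`.** -/
theorem KD_kummer_thirteen (K : Type*) [Field K] [NumberField K] [IsCyclotomicExtension {13} ℚ K]
    (u : (𝓞 K)ˣ) (h : ∃ n : ℤ, ((13 : ℕ) : 𝓞 K) ∣ (u : 𝓞 K) - n) : ∃ v : (𝓞 K)ˣ, u = v ^ 13 := by
  haveI : Fact (Nat.Prime 13) := ⟨by norm_num⟩
  exact KD_kummer_of_matrix 13 K (by norm_num) (m := 6) (n := 11) (by norm_num) (by norm_num)
    (by norm_num) KD13_Qs KD13_hQ KD13_q KD13_junk KD13_hE KD13_B KD13_hB u h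

end Fermat.Agent.FLTReg

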