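import Fermat.Agent.FLTReg.KummerDlog

/-! Kummer's lemma for `p = 5`: explicit rank certificate (generated data, helper27). -/

namespace Fermat.Agent.FLTReg

open Polynomial NumberField

/-- cleared-denominator numerators -/
noncomputable def KD5_Qs : Fin 2 → ℤ[X] :=
  ![(1) * (1 + X),
    (1) * (X)]

/-- low coefficients of `Qs i (X+1)` -/
def KD5_q : Fin 2 → Fin 3 → ℤ :=
  ![![2, 1, 0],
    ![1, 1, 0]]

/-- high part of `Qs i (X+1)` -/
noncomputable def KD5_junk : Fin 2 → ℤ[X] :=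
  ![0,
    0]

/-- left inverse certificate -/
def KD5_B : Fin 3 → Fin 2 → ZMod 5 :=
  ![![1, 4],
    ![4, 2],
    ![0, 0]]

theorem KD5_hQ : ∀ i, KD5_Qs i * KD_fs 2 i = derivative (KD_fs 2 i) * ∏ j, KD_fs 2 j := by
  intro i
  fin_cases i <;>
  simp [KD5_Qs, KD_fs, Fin.prod_univ_succ, Finset.sum_range_succ] <;> ring

theorem KD5_hE : ∀ i, (KD5_Qs i).comp (X + 1) =
    ∑ k : Fin 3, C (KD5_q i k) * X ^ (k : ℕ) + X ^ 3 * KD5_junk i := by
  intro i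
  fin_cases i <;>
  simp [KD5_Qs, KD5_q, KD5_junk, Fin.sum_univ_succ] <;> ring

theorem KD5_hB : ∀ i b, ∑ k, ((KD5_q i k : ℤ) : ZMod 5) * KD5_B k b = if i = b then 1 else 0 := by
  decide

/-- **Kummer's lemma for `p = 5`.** -/
theorem KD_kummer_five (K : Type*) [Field K] [NumberField K] [IsCyclotomicExtension {5} ℚ K]
    (u : (𝓞 K)ˣ) (h : ∃ n : ℤ, ((5 : ℕ) : 𝓞 K) ∣ (u : 𝓞 K) - n) : ∃ v : (𝓞 K)ˣ, u = v ^ 5 := by
  haveI : Fact (Nat.Prime 5) := ⟨by norm_num⟩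
  exact KD_kummer_of_matrix 5 K (by norm_num) (m := 2) (n := 3) (by norm_num) (by norm_num)
    (by norm_num) KD5_Qs KD5_hQ KD5_q KD5_junk KD5_hE KD5_B KD5_hB u h

end Fermat.Agent.FLTReg

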