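import Fermat.Agent.FLTReg.KummerDlog

/-! Kummer's lemma for `p = 7`: explicit rank certificate (generated data, helper27). -/

namespace Fermat.Agent.FLTReg

open Polynomial NumberField

/-- cleared-denominator numerators -/
noncomputable def KD7_Qs : Fin 3 → ℤ[X] :=
  ![(1) * (1 + X) * (1 + X + X ^ 2),
    (1) * (X) * (1 + X + X ^ 2),
    (1 + 2 * X) * (X) * (1 + X)]

/-- low coefficients of `Qs i (X+1)` -/
def KD7_q : Fin 3 → Fin 5 → ℤ :=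
  ![![6, 9, 5, 1, 0],
    ![3, 6, 4, 1, 0],
    ![6, 13, 9, 2, 0]]

/-- high part of `Qs i (X+1)` -/
noncomputable def KD7_junk : Fin 3 → ℤ[X] :=
  ![0,
    0,
    0]

/-- left inverse certificate -/
def KD7_B : Fin 5 → Fin 3 → ZMod 7 :=
  ![![5, 4, 6],
    ![0, 5, 1],
    ![0, 0, 0],
    ![6, 1, 4],
    ![0, 0, 0]]

theorem KD7_hQ : ∀ i, KD7_Qs i * KD_fs 3 i = derivative (KD_fs 3 i) * ∏ j, KD_fs 3 j := by
  intro i
  fin_cases i <;>
  simp [KD7_Qs, KD_fs, Fin.prod_univ_succ, Finset.sum_range_succ] <;> ring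

theorem KD7_hE : ∀ i, (KD7_Qs i).comp (X + 1) =
    ∑ k : Fin 5, C (KD7_q i k) * X ^ (k : ℕ) + X ^ 5 * KD7_junk i := by
  intro i
  fin_cases i <;>
  simp [KD7_Qs, KD7_q, KD7_junk, Fin.sum_univ_succ] <;> ring

theorem KD7_hB : ∀ i b, ∑ k, ((KD7_q i k : ℤ) : ZMod 7) * KD7_B k b = if i = b then 1 else 0 := by
  decide

/-- **Kummer's lemma for `p = 7`.** -/
theorem KD_kummer_seven (K : Type*) [Field K] [NumberField K] [IsCyclotomicExtension {7} ℚ K]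
    (u : (𝓞 K)ˣ) (h : ∃ n : ℤ, ((7 : ℕ) : 𝓞 K) ∣ (u : 𝓞 K) - n) : ∃ v : (𝓞 K)ˣ, u = v ^ 7 := by
  haveI : Fact (Nat.Prime 7) := ⟨by norm_num⟩
  exact KD_kummer_of_matrix 7 K (by norm_num) (m := 3) (n := 5) (by norm_num) (by norm_num)
    (by norm_num) KD7_Qs KD7_hQ KD7_q KD7_junk KD7_hE KD7_B KD7_hB u h

end Fermat.Agent.FLTReg

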