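import Mathlib

/-!
# Truncated polynomial rings, the induced derivative, and the logarithmic derivative

`kgT R n = R[X] / (X^n)`.  The derivative induces an additive map `kgT R (n+1) → kgT R n`
satisfying the Leibniz rule with respect to the projection.  On units this gives a
logarithmic derivative `kgDlog : (kgT R (n+1))ˣ → kgT R n` turning products into sums.
-/

open Polynomial

namespace Fermat.Agent.FLTReg

variable (R : Type) [CommRing R]

/-- The truncated polynomial ring `R[X]/(X^n)`. -/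
abbrev kgT (n : ℕ) : Type := AdjoinRoot ((X : R[X]) ^ n)

/-- The quotient map `R[X] → R[X]/(X^n)`. -/
noncomputable abbrev kgMk (n : ℕ) : R[X] →+* kgT R n := AdjoinRoot.mk ((X : R[X]) ^ n)

variable {R}

theorem kg_dvd_derivative {n : ℕ} {f : R[X]} (h : (X : R[X]) ^ (n + 1) ∣ f) :
    (X : R[X]) ^ n ∣ derivative f := by
  obtain ⟨g, rfl⟩ := h
  rw [derivative_mul, derivative_X_pow]
  simp only [Nat.add_sub_cancel]
  refine dvd_add ?_ ?_
  · exact Dvd.intro (C ((n + 1 : ℕ) : R) * g) (by ring)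
  · exact Dvd.intro (X * derivative g) (by ring)

/-- The projection `R[X]/(X^(n+1)) → R[X]/(X^n)`. -/
noncomputable def kgProj (n : ℕ) : kgT R (n + 1) →+* kgT R n :=
  AdjoinRoot.lift ((kgMk R n).comp C) (kgMk R n X) (by
    rw [eval₂_X_pow, ← map_pow, AdjoinRoot.mk_eq_zero]
    exact pow_dvd_pow X (Nat.le_succ n))

theorem kgProj_mk (n : ℕ) (f : R[X]) : kgProj n (kgMk R (n + 1) f) = kgMk R n f := by
  unfold kgProj
  rw [AdjoinRoot.lift_mk]
  have h2 : eval₂ ((kgMk R n).comp C) (kgMk R n X) f = (kgMk R n) (eval₂ C X f) := by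
    rw [Polynomial.hom_eval₂]
  rw [h2, eval₂_C_X]

/-- The derivative `R[X]/(X^(n+1)) → R[X]/(X^n)` (as a plain function). -/
noncomputable def kgD (n : ℕ) (t : kgT R (n + 1)) : kgT R n :=
  kgMk R n (derivative (Classical.choose (AdjoinRoot.mk_surjective t)))

theorem kgD_mk (n : ℕ) (f : R[X]) : kgD n (kgMk R (n + 1) f) = kgMk R n (derivative f) := by
  unfold kgD
  have h := Classical.choose_spec (AdjoinRoot.mk_surjective (kgMk R (n + 1) f))
  rw [AdjoinRoot.mk_eq_mk] at h ⊢
  rw [← derivative_sub]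
  exact kg_dvd_derivative h

theorem kgD_add (n : ℕ) (s t : kgT R (n + 1)) : kgD n (s + t) = kgD n s + kgD n t := by
  induction s using AdjoinRoot.induction_on with
  | _ f =>
  induction t using AdjoinRoot.induction_on with
  | _ g => rw [← map_add, kgD_mk, kgD_mk, kgD_mk, derivative_add, map_add]

theorem kgD_mul (n : ℕ) (s t : kgT R (n + 1)) :
    kgD n (s * t) = kgD n s * kgProj n t + kgProj n s * kgD n t := by
  induction s using AdjoinRoot.induction_on with
  | _ f =>
  induction t using AdjoinRoot.induction_on with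
  | _ g =>
    rw [← map_mul, kgD_mk, kgD_mk, kgD_mk, kgProj_mk, kgProj_mk, derivative_mul, map_add, map_mul,
      map_mul]

theorem kgD_C (n : ℕ) (c : R) : kgD n (kgMk R (n + 1) (C c)) = 0 := by
  rw [kgD_mk, derivative_C, map_zero]

theorem kgD_one (n : ℕ) : kgD n (1 : kgT R (n + 1)) = 0 := by
  have h := kgD_C (R := R) n 1
  rwa [C_1, map_one] at h

/-- The logarithmic derivative on units. -/
noncomputable def kgDlog (n : ℕ) (u : (kgT R (n + 1))ˣ) : kgT R n :=
  kgD n (u : kgT R (n + 1)) * ((Units.map (kgProj (R := R) n : kgT R (n + 1) →* kgT R n) u)⁻¹ : (kgT R n)ˣ)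

theorem kgDlog_mul (n : ℕ) (u v : (kgT R (n + 1))ˣ) :
    kgDlog n (u * v) = kgDlog n u + kgDlog n v := by
  unfold kgDlog
  rw [Units.val_mul, kgD_mul, map_mul, mul_inv, Units.val_mul]
  set a := Units.map (kgProj (R := R) n : kgT R (n + 1) →* kgT R n) u with ha
  set b := Units.map (kgProj (R := R) n : kgT R (n + 1) →* kgT R n) v with hb
  have hau : kgProj n (u : kgT R (n + 1)) = (a : kgT R n) := rfl
  have hbv : kgProj n (v : kgT R (n + 1)) = (b : kgT R n) := rfl
  rw [hau, hbv]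
  have h1 : (a : kgT R n) * ((a⁻¹ : (kgT R n)ˣ) : kgT R n) = 1 := Units.mul_inv a
  have h2 : (b : kgT R n) * ((b⁻¹ : (kgT R n)ˣ) : kgT R n) = 1 := Units.mul_inv b
  linear_combination (kgD n (u : kgT R (n + 1)) * ((a⁻¹ : (kgT R n)ˣ) : kgT R n)) * h2 +
    (kgD n (v : kgT R (n + 1)) * ((b⁻¹ : (kgT R n)ˣ) : kgT R n)) * h1

theorem kgDlog_one (n : ℕ) : kgDlog n (1 : (kgT R (n + 1))ˣ) = 0 := by
  unfold kgDlog
  rw [Units.val_one, kgD_one, zero_mul]

theorem kgDlog_pow (n : ℕ) (u : (kgT R (n + 1))ˣ) (k : ℕ) :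
    kgDlog n (u ^ k) = k • kgDlog n u := by
  induction k with
  | zero => rw [pow_zero, kgDlog_one, zero_smul]
  | succ k ih => rw [pow_succ, kgDlog_mul, ih, succ_nsmul]

theorem kgDlog_inv (n : ℕ) (u : (kgT R (n + 1))ˣ) : kgDlog n u⁻¹ = - kgDlog n u := by
  have h := kgDlog_mul n u u⁻¹
  rw [mul_inv_cancel, kgDlog_one] at h
  exact eq_neg_of_add_eq_zero_right h.symm

theorem kgDlog_zpow (n : ℕ) (u : (kgT R (n + 1))ˣ) (k : ℤ) :
    kgDlog n (u ^ k) = k • kgDlog n u := by
  cases k with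
  | ofNat k => rw [Int.ofNat_eq_natCast, zpow_natCast, kgDlog_pow, natCast_zsmul]
  | negSucc k => rw [zpow_negSucc, kgDlog_inv, kgDlog_pow, negSucc_zsmul]

/-- If the unit is the class of a polynomial `g` and `D g ≡ g * h`, then the log-derivative is the
class of `h`. -/
theorem kgDlog_eq_of_dvd (n : ℕ) (u : (kgT R (n + 1))ˣ) (g h : R[X])
    (hu : (u : kgT R (n + 1)) = kgMk R (n + 1) g)
    (hdvd : (X : R[X]) ^ n ∣ derivative g - g * h) : kgDlog n u = kgMk R n h := by
  unfold kgDlog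
  have h1 : kgD n (u : kgT R (n + 1)) = kgMk R n g * kgMk R n h := by
    rw [hu, kgD_mk, ← map_mul, AdjoinRoot.mk_eq_mk]
    exact hdvd
  have h2 : ((Units.map (kgProj (R := R) n : kgT R (n + 1) →* kgT R n) u : (kgT R n)ˣ) : kgT R n) =
      kgMk R n g := by
    show kgProj n (u : kgT R (n + 1)) = _
    rw [hu, kgProj_mk]
  rw [h1, ← h2, mul_comm (Units.val _) _, mul_assoc, Units.mul_inv, mul_one]

end Fermat.Agent.FLTReg
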