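import Mathlib
import Fermat.Agent.FLTReg.KummerGenTrunc

/-!
# Reduction of the ring of integers of `ℚ(ζ_p)` to `𝔽_p[Y]/(Y^(p-1))`, `ζ ↦ 1 + Y`.
-/

open Polynomial NumberField

namespace Fermat.Agent.FLTReg

variable (p : ℕ) [hp : Fact p.Prime]

theorem kg_cyclotomic_comp (n : ℕ) (hn : n = p - 1) :
    (cyclotomic p (ZMod p)).comp (1 + X) = (X : (ZMod p)[X]) ^ n := by
  have h1 : cyclotomic p (ZMod p) = (X - 1) ^ (p - 1) := by
    have := cyclotomic_mul_prime_pow_eq (ZMod p) (p := p) (m := 1) hp.out.not_dvd_one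
      (k := 1) one_pos
    simpa [cyclotomic_one] using this
  rw [h1, pow_comp, sub_comp, X_comp, one_comp, add_sub_cancel_left, hn]

variable {K : Type} [Field K] [NumberField K] [IsCyclotomicExtension {p} ℚ K]

/-- The chosen primitive root. -/
theorem kgζ_spec : IsPrimitiveRoot (IsCyclotomicExtension.zeta p ℚ K) p :=
  IsCyclotomicExtension.zeta_spec p ℚ K

/-- The chosen primitive root as an algebraic integer. -/
noncomputable def kgζ : 𝓞 K := (kgζ_spec p (K := K)).toInteger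

theorem kg_aeval_zero :
    aeval (1 + AdjoinRoot.root ((X : (ZMod p)[X]) ^ (p - 1)))
      (minpoly ℤ (kgζ_spec p (K := K)).integralPowerBasis.gen) = 0 := by
  rw [IsPrimitiveRoot.integralPowerBasis_gen, ← RingOfIntegers.minpoly_coe]
  have hm : minpoly ℤ (((kgζ_spec p (K := K)).toInteger : 𝓞 K) : K) = cyclotomic p ℤ := by
    have h0 : (((kgζ_spec p (K := K)).toInteger : 𝓞 K) : K) = IsCyclotomicExtension.zeta p ℚ K := rfl
    rw [h0]
    exact (cyclotomic_eq_minpoly (kgζ_spec p (K := K)) hp.out.pos).symm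
  rw [hm]
  have h2 : aeval (1 + AdjoinRoot.root ((X : (ZMod p)[X]) ^ (p - 1))) (cyclotomic p ℤ) =
      aeval (1 + AdjoinRoot.root ((X : (ZMod p)[X]) ^ (p - 1))) (cyclotomic p (ZMod p)) := by
    rw [← map_cyclotomic_int p (ZMod p), aeval_def, aeval_def, eval₂_map]
    congr 1
  rw [h2]
  have h3 : (1 + AdjoinRoot.root ((X : (ZMod p)[X]) ^ (p - 1))) =
      aeval (AdjoinRoot.root ((X : (ZMod p)[X]) ^ (p - 1))) (1 + X : (ZMod p)[X]) := by
    simp
  rw [h3, ← aeval_comp, kg_cyclotomic_comp p (p - 1) rfl, AdjoinRoot.aeval_eq,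
    AdjoinRoot.mk_self]

/-- The reduction homomorphism `𝓞 K → 𝔽_p[Y]/(Y^(p-1))`. -/
noncomputable def kgRed : 𝓞 K →+* kgT (ZMod p) (p - 1) :=
  ((kgζ_spec p (K := K)).integralPowerBasis.lift
    (1 + AdjoinRoot.root ((X : (ZMod p)[X]) ^ (p - 1))) (kg_aeval_zero p)).toRingHom

theorem kgRed_ζ : kgRed p (kgζ p : 𝓞 K) = kgMk (ZMod p) (p - 1) (1 + X) := by
  unfold kgRed kgζ
  have h := PowerBasis.lift_gen (kgζ_spec p (K := K)).integralPowerBasis
    (1 + AdjoinRoot.root ((X : (ZMod p)[X]) ^ (p - 1))) (kg_aeval_zero p)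
  rw [IsPrimitiveRoot.integralPowerBasis_gen] at h
  simp only [AlgHom.toRingHom_eq_coe, RingHom.coe_coe]
  rw [h, map_add, map_one, AdjoinRoot.mk_X]

theorem kgRed_natCast_p : kgRed p ((p : ℕ) : 𝓞 K) = 0 := by
  rw [map_natCast, ← map_natCast (algebraMap (ZMod p) (kgT (ZMod p) (p - 1))), ZMod.natCast_self,
    map_zero]

theorem kgRed_eq_C_of_dvd (u : 𝓞 K) (n : ℤ) (h : ((p : ℕ) : 𝓞 K) ∣ u - n) :
    kgRed p u = kgMk (ZMod p) (p - 1) (C (n : ZMod p)) := by
  obtain ⟨x, hx⟩ := h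
  have h1 : kgRed p u = kgRed p ((n : 𝓞 K)) := by
    have : u = n + ((p : ℕ) : 𝓞 K) * x := by rw [← hx]; ring
    rw [this, map_add, map_mul, kgRed_natCast_p, zero_mul, add_zero]
  rw [h1, map_intCast]
  simp

/-- The geometric sum polynomials in the shifted variable. -/
noncomputable def kgG (a : ℕ) : (ZMod p)[X] := ∑ i ∈ Finset.range a, (1 + X) ^ i

theorem kgRed_geom_sum (a : ℕ) :
    kgRed p (∑ i ∈ Finset.range a, (kgζ p : 𝓞 K) ^ i) = kgMk (ZMod p) (p - 1) (kgG p a) := by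
  unfold kgG
  rw [map_sum, map_sum]
  refine Finset.sum_congr rfl fun i _ => ?_
  rw [map_pow, kgRed_ζ, map_pow]

end Fermat.Agent.FLTReg
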