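import Mathlib
import Fermat.Agent.FLTReg.KummerGenRed

/-!
# Kummer's lemma for a prime `p` from an explicit rank certificate

If the logarithmic derivatives of `ζ` and of the cyclotomic units `1 + ζ + ⋯ + ζ^(t-1)`
(`2 ≤ t ≤ (p-1)/2`) are linearly independent in `𝔽_p[Y]/(Y^(p-2))`, then every unit of `ℤ[ζ_p]`
congruent to a rational integer modulo `p` is a `p`-th power.
-/

open Polynomial NumberField

namespace Fermat.Agent.FLTReg

theorem kg_linIndep_of_span {F W ι : Type*} [Field F] [AddCommGroup W] [Module F W] [Fintype ι]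
    (w : ι → W) {m : ℕ} (hcard : Fintype.card ι = m) (y : Fin m → W)
    (hy : LinearIndependent F y) (hmem : ∀ a, y a ∈ Submodule.span F (Set.range w)) :
    LinearIndependent F w := by
  rw [linearIndependent_iff_card_eq_finrank_span]
  refine le_antisymm ?_ (finrank_range_le_card w)
  have : FiniteDimensional F (Submodule.span F (Set.range w)) :=
    FiniteDimensional.span_of_finite F (Set.finite_range w)
  let y' : Fin m → Submodule.span F (Set.range w) := fun a => ⟨y a, hmem a⟩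
  have hy' : LinearIndependent F y' := by
    apply LinearIndependent.of_comp (Submodule.span F (Set.range w)).subtype
    exact hy
  have := hy'.fintype_card_le_finrank
  rw [Fintype.card_fin] at this
  rw [hcard]
  exact this

/-- The polynomials attached to our units: `t = 1 ↦ 1 + X` (for `ζ`), otherwise the geometric sum. -/
noncomputable def kgGen (p : ℕ) [Fact p.Prime] (t : ℕ) : (ZMod p)[X] := if t = 1 then 1 + X else kgG p t

/-- The rank certificate. -/
def KummerCert (p N m : ℕ) [Fact p.Prime] : Prop :=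
  ∃ h : Fin m → (ZMod p)[X],
    (∀ a : Fin m, (X : (ZMod p)[X]) ^ N ∣
      derivative (kgGen p ((a : ℕ) + 1)) - kgGen p ((a : ℕ) + 1) * h a) ∧
    (∀ c : Fin m → ZMod p, (X : (ZMod p)[X]) ^ N ∣ ∑ a, C (c a) * h a → c = 0)

section main

variable (N : ℕ) [hp : Fact (N + 2).Prime] {K : Type} [Field K] [NumberField K]
  [IsCyclotomicExtension {N + 2} ℚ K]

/-- The reduction map with the target index in successor form. -/
noncomputable def kgRed' : 𝓞 K →+* kgT (ZMod (N + 2)) (N + 1) := kgRed (N + 2)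

/-- The homomorphism `Λ`. -/
noncomputable def kgΛ (u : (𝓞 K)ˣ) : kgT (ZMod (N + 2)) N :=
  kgDlog N (Units.map (kgRed' N (K := K) : 𝓞 K →* kgT (ZMod (N + 2)) (N + 1)) u)

theorem kgΛ_mul (u v : (𝓞 K)ˣ) : kgΛ N (u * v) = kgΛ N u + kgΛ N v := by
  unfold kgΛ
  rw [map_mul, kgDlog_mul]

theorem kgΛ_zpow (u : (𝓞 K)ˣ) (k : ℤ) : kgΛ N (u ^ k) = k • kgΛ N u := by
  unfold kgΛ
  rw [map_zpow, kgDlog_zpow]

theorem kgΛ_prod {ι : Type*} (s : Finset ι) (f : ι → (𝓞 K)ˣ) :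
    kgΛ N (∏ i ∈ s, f i) = ∑ i ∈ s, kgΛ N (f i) := by
  classical
  induction s using Finset.induction_on with
  | empty =>
    simp only [Finset.prod_empty, Finset.sum_empty]
    unfold kgΛ
    rw [map_one, kgDlog_one]
  | insert a s ha ih => rw [Finset.prod_insert ha, Finset.sum_insert ha, kgΛ_mul, ih]

theorem kgΛ_eq_of_red (u : (𝓞 K)ˣ) (g h : (ZMod (N + 2))[X])
    (hu : kgRed' N (u : 𝓞 K) = kgMk (ZMod (N + 2)) (N + 1) g)
    (hdvd : (X : (ZMod (N + 2))[X]) ^ N ∣ derivative g - g * h) :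
    kgΛ N u = kgMk (ZMod (N + 2)) N h := by
  unfold kgΛ
  exact kgDlog_eq_of_dvd N _ g h hu hdvd

theorem kgΛ_eq_zero_of_dvd (u : (𝓞 K)ˣ) (n : ℤ)
    (h : (((N + 2 : ℕ) : ℕ) : 𝓞 K) ∣ (u : 𝓞 K) - n) : kgΛ N u = 0 := by
  have h1 := kgRed_eq_C_of_dvd (N + 2) (u : 𝓞 K) n h
  have h2 := kgΛ_eq_of_red N u (C ((n : ZMod (N + 2)))) 0 h1 (by simp)
  rw [h2, map_zero]

/-- The primitive root as a unit. -/
noncomputable def kgζu : (𝓞 K)ˣ :=
  ((kgζ_spec (N + 2) (K := K)).toInteger_isPrimitiveRoot.isUnit (Nat.succ_ne_zero _)).unit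

theorem kgζu_val : ((kgζu N : (𝓞 K)ˣ) : 𝓞 K) = kgζ (N + 2) := rfl

/-- The cyclotomic unit `1 + ζ + ⋯ + ζ^(t-1)` (junk value `1` if `t` is not prime to `p`). -/
noncomputable def kgη (t : ℕ) : (𝓞 K)ˣ :=
  if ht : t.Coprime (N + 2) then
    ((kgζ_spec (N + 2) (K := K)).toInteger_isPrimitiveRoot.geom_sum_isUnit
      (Nat.le_add_left 2 N) ht).unit
  else 1

theorem kgη_val (t : ℕ) (ht : t.Coprime (N + 2)) :
    ((kgη N t : (𝓞 K)ˣ) : 𝓞 K) = ∑ i ∈ Finset.range t, (kgζ (N + 2) : 𝓞 K) ^ i := by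
  unfold kgη
  rw [dif_pos ht]
  rfl

/-- The units used in the certificate: `t = 1 ↦ ζ`, otherwise the cyclotomic unit. -/
noncomputable def kgUnit (t : ℕ) : (𝓞 K)ˣ := if t = 1 then kgζu N else kgη N t

theorem kgRed'_kgUnit (t : ℕ) (ht : t.Coprime (N + 2)) :
    kgRed' N ((kgUnit N t : (𝓞 K)ˣ) : 𝓞 K) =
      kgMk (ZMod (N + 2)) (N + 1) (kgGen (N + 2) t) := by
  unfold kgUnit kgGen kgRed'
  by_cases h1 : t = 1
  · rw [if_pos h1, if_pos h1, kgζu_val]
    exact kgRed_ζ (N + 2)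
  · rw [if_neg h1, if_neg h1, kgη_val N t ht]
    exact kgRed_geom_sum (N + 2) t

theorem kg_card_infinitePlace (m : ℕ) (hm : N + 2 = 2 * m + 1) :
    Fintype.card (InfinitePlace K) = m := by
  have h2 : 2 < N + 2 := by
    have := hp.out.two_le
    rcases Nat.lt_or_ge 2 (N + 2) with h | h
    · exact h
    · omega
  rw [InfinitePlace.card_eq_nrRealPlaces_add_nrComplexPlaces,
    IsCyclotomicExtension.Rat.nrRealPlaces_eq_zero K h2,
    IsCyclotomicExtension.Rat.nrComplexPlaces_eq_totient_div_two (N + 2) K,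
    Nat.totient_prime hp.out]
  omega

theorem kg_exists_decomp (τ0 : Units.torsion K) (hτ0 : ∀ x : Units.torsion K, x ∈ Subgroup.zpowers τ0)
    (x : (𝓞 K)ˣ) :
    ∃ (e0 : ℤ) (e : Fin (Units.rank K) → ℤ),
      x = (τ0 : (𝓞 K)ˣ) ^ e0 * ∏ i, Units.fundSystem K i ^ e i := by
  obtain ⟨⟨τ, e⟩, hx, -⟩ := Units.exist_unique_eq_mul_prod K x
  obtain ⟨e0, he0⟩ := Subgroup.mem_zpowers_iff.mp (hτ0 τ)
  refine ⟨e0, e, ?_⟩
  rw [hx]
  congr 1
  rw [← he0]
  simp

theorem kg_smul_mk (c : ZMod (N + 2)) (f : (ZMod (N + 2))[X]) :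
    c • kgMk (ZMod (N + 2)) N f = kgMk (ZMod (N + 2)) N (C c * f) := by
  rw [Algebra.smul_def, AdjoinRoot.algebraMap_eq, map_mul, AdjoinRoot.mk_C]

theorem kg_zsmul_eq (k : ℤ) (x : kgT (ZMod (N + 2)) N) :
    k • x = ((k : ZMod (N + 2))) • x :=
  (Int.cast_smul_eq_zsmul (ZMod (N + 2)) k x).symm

/-- **Kummer's lemma from a rank certificate.** -/
theorem kummer_of_cert (m : ℕ) (hm : N + 2 = 2 * m + 1) (hcert : KummerCert (N + 2) N m)
    (u : (𝓞 K)ˣ) (n : ℤ) (h : (((N + 2 : ℕ) : ℕ) : 𝓞 K) ∣ (u : 𝓞 K) - n) :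
    ∃ v : (𝓞 K)ˣ, u = v ^ (N + 2) := by
  classical
  obtain ⟨hpoly, hdvd, hind⟩ := hcert
  have hm1 : 1 ≤ m := by
    have := hp.out.two_le
    omega
  -- the independent vectors
  have hcop : ∀ a : Fin m, ((a : ℕ) + 1).Coprime (N + 2) := by
    intro a
    have ha := a.2
    apply Nat.Coprime.symm
    rw [Nat.Prime.coprime_iff_not_dvd hp.out]
    intro hdiv
    have := Nat.le_of_dvd (Nat.succ_pos _) hdiv
    omega
  set y : Fin m → kgT (ZMod (N + 2)) N := fun a => kgΛ N (kgUnit N ((a : ℕ) + 1) : (𝓞 K)ˣ) with hy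
  have hy_eq : ∀ a, y a = kgMk (ZMod (N + 2)) N (hpoly a) := fun a =>
    kgΛ_eq_of_red N _ _ _ (kgRed'_kgUnit N _ (hcop a)) (hdvd a)
  have hyind : LinearIndependent (ZMod (N + 2)) y := by
    rw [Fintype.linearIndependent_iff]
    intro c hc
    have h1 : ∑ a, c a • y a = kgMk (ZMod (N + 2)) N (∑ a, C (c a) * hpoly a) := by
      rw [map_sum]
      refine Finset.sum_congr rfl fun a _ => ?_
      rw [hy_eq, kg_smul_mk]
    rw [h1, AdjoinRoot.mk_eq_zero] at hc
    exact fun i => congrFun (hind c hc) i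
  -- Dirichlet
  obtain ⟨τ0, hτ0⟩ := IsCyclic.exists_generator (α := Units.torsion K)
  set w : Option (Fin (Units.rank K)) → kgT (ZMod (N + 2)) N := fun o =>
    match o with
    | none => kgΛ N (τ0 : (𝓞 K)ˣ)
    | some i => kgΛ N (Units.fundSystem K i) with hw
  have hΛ : ∀ (e0 : ℤ) (e : Fin (Units.rank K) → ℤ),
      kgΛ N ((τ0 : (𝓞 K)ˣ) ^ e0 * ∏ i, Units.fundSystem K i ^ e i) =
        ∑ o : Option (Fin (Units.rank K)),
          (match o with
            | none => (e0 : ZMod (N + 2))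
            | some i => (e i : ZMod (N + 2))) • w o := by
    intro e0 e
    rw [kgΛ_mul, kgΛ_zpow, kgΛ_prod, Fintype.sum_option]
    congr 1
    · exact kg_zsmul_eq N e0 _
    · refine Finset.sum_congr rfl fun i _ => ?_
      rw [kgΛ_zpow]
      exact kg_zsmul_eq N (e i) _
  have hmem : ∀ a, y a ∈ Submodule.span (ZMod (N + 2)) (Set.range w) := by
    intro a
    obtain ⟨e0, e, hx⟩ := kg_exists_decomp (K := K) τ0 hτ0 (kgUnit N ((a : ℕ) + 1))
    show kgΛ N (kgUnit N ((a : ℕ) + 1) : (𝓞 K)ˣ) ∈ _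
    rw [hx, hΛ]
    refine Submodule.sum_mem _ fun o _ => ?_
    exact Submodule.smul_mem _ _ (Submodule.subset_span (Set.mem_range_self o))
  have hcard : Fintype.card (Option (Fin (Units.rank K))) = m := by
    rw [Fintype.card_option, Fintype.card_fin]
    show Fintype.card (InfinitePlace K) - 1 + 1 = m
    rw [kg_card_infinitePlace N m hm]
    omega
  have hwind : LinearIndependent (ZMod (N + 2)) w := kg_linIndep_of_span w hcard y hyind hmem
  -- decompose u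
  obtain ⟨e0, e, hu⟩ := kg_exists_decomp (K := K) τ0 hτ0 u
  have hzero : kgΛ N u = 0 := kgΛ_eq_zero_of_dvd N u n h
  rw [hu, hΛ] at hzero
  have hcoef := (Fintype.linearIndependent_iff.mp hwind) _ hzero
  have h0 : ((N + 2 : ℕ) : ℤ) ∣ e0 := by
    have := hcoef none
    exact (ZMod.intCast_zmod_eq_zero_iff_dvd e0 (N + 2)).mp this
  have hi : ∀ i, ((N + 2 : ℕ) : ℤ) ∣ e i := by
    intro i
    have := hcoef (some i)
    exact (ZMod.intCast_zmod_eq_zero_iff_dvd (e i) (N + 2)).mp this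
  obtain ⟨f0, hf0⟩ := h0
  choose f hf using hi
  refine ⟨(τ0 : (𝓞 K)ˣ) ^ f0 * ∏ i, Units.fundSystem K i ^ f i, ?_⟩
  rw [hu, mul_pow, ← Finset.prod_pow, ← zpow_natCast, ← zpow_mul, hf0, mul_comm f0]
  congr 1
  refine Finset.prod_congr rfl fun i _ => ?_
  rw [← zpow_natCast, ← zpow_mul, hf i, mul_comm (f i)]

end main

end Fermat.Agent.FLTReg
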