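import Mathlib
import Fermat.Agent.FLTReg.KummerGenMain

/-!
# Producing the rank certificate from integer data
-/

open Polynomial

namespace Fermat.Agent.FLTReg

/-- Integer version of `kgGen`. -/
noncomputable def kgGenZ (t : ℕ) : ℤ[X] :=
  if t = 1 then 1 + X else ∑ i ∈ Finset.range t, (1 + X) ^ i

theorem kgGen_eq_map (p : ℕ) [Fact p.Prime] (t : ℕ) :
    kgGen p t = (kgGenZ t).map (Int.castRingHom (ZMod p)) := by
  unfold kgGen kgGenZ kgG
  split_ifs
  · simp
  · simp [Polynomial.map_sum]

/-- Horner form polynomial from a list of coefficients. -/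
noncomputable def kgPolyOfList : List ℤ → ℤ[X]
  | [] => 0
  | c :: l => C c + X * kgPolyOfList l

theorem kgPolyOfList_coeff (l : List ℤ) (k : ℕ) : (kgPolyOfList l).coeff k = l.getD k 0 := by
  induction l generalizing k with
  | nil => simp [kgPolyOfList]
  | cons c l ih =>
    cases k with
    | zero => simp [kgPolyOfList]
    | succ k =>
      show (C c + X * kgPolyOfList l).coeff (k + 1) = _
      rw [coeff_add, coeff_C_succ, coeff_X_mul, zero_add, ih]
      rfl

theorem kummerCert_of_int (p N m : ℕ) [Fact p.Prime] (H : Fin m → List ℤ) (wZ vZ : Fin m → ℤ[X])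
    (h1 : ∀ a : Fin m, derivative (kgGenZ ((a : ℕ) + 1)) - kgGenZ ((a : ℕ) + 1) * kgPolyOfList (H a) =
      X ^ N * wZ a + C (p : ℤ) * vZ a)
    (L : Fin N → Fin m → ZMod p)
    (h2 : ∀ a b : Fin m, ∑ k : Fin N, (((H a).getD (k : ℕ) 0 : ℤ) : ZMod p) * L k b =
      if a = b then 1 else 0) :
    KummerCert p N m := by
  classical
  refine ⟨fun a => (kgPolyOfList (H a)).map (Int.castRingHom (ZMod p)), ?_, ?_⟩
  · intro a
    rw [kgGen_eq_map, derivative_map, ← Polynomial.map_mul, ← Polynomial.map_sub, h1 a]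
    rw [Polynomial.map_add, Polynomial.map_mul, Polynomial.map_mul, Polynomial.map_pow, map_X,
      map_C]
    have : (Int.castRingHom (ZMod p)) (p : ℤ) = 0 := by simp
    rw [this, C_0, zero_mul, add_zero]
    exact Dvd.intro _ rfl
  · intro c hc
    rw [X_pow_dvd_iff] at hc
    have hk : ∀ k : Fin N, ∑ a, c a * (((H a).getD (k : ℕ) 0 : ℤ) : ZMod p) = 0 := by
      intro k
      have := hc k k.2
      rw [finsetSum_coeff] at this
      rw [← this]
      refine Finset.sum_congr rfl fun a _ => ?_
      rw [coeff_C_mul, coeff_map, kgPolyOfList_coeff]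
      simp
    funext b
    have hb : c b = ∑ a, c a * (if a = b then 1 else 0) := by
      simp
    rw [hb]
    have : ∑ a, c a * (if a = b then (1 : ZMod p) else 0) =
        ∑ k : Fin N, (∑ a, c a * (((H a).getD (k : ℕ) 0 : ℤ) : ZMod p)) * L k b := by
      simp_rw [← h2, Finset.mul_sum, Finset.sum_mul]
      rw [Finset.sum_comm]
      refine Finset.sum_congr rfl fun k _ => Finset.sum_congr rfl fun a _ => ?_
      ring
    rw [this]
    exact Finset.sum_eq_zero (fun k _ => by rw [hk k, zero_mul])

end Fermat.Agent.FLTReg
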