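import Mathlib
import Fermat.Agent.FLTReg.KummerGenCert

/-! Rank certificate and Kummer lemma for p = 11 (data generated offline, checked here). -/

open Polynomial NumberField

namespace Fermat.Agent.FLTReg

theorem kg_prime_eleven : Fact (Nat.Prime 11) := ⟨by norm_num⟩

attribute [local instance] kg_prime_eleven

theorem kummerCert_eleven : KummerCert 11 9 5 := by
  refine kummerCert_of_int 11 9 5
    ![[1, 10, 1, 10, 1, 10, 1, 10, 1], [6, 8, 7, 2, 10, 6, 8, 7, 2], [1, 7, 0, 5, 6, 7, 2, 3, 0], [7, 8, 1, 8, 7, 6, 4, 0, 0], [2, 0, 10, 3, 0, 6, 5, 6, 5]]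
    ![kgPolyOfList [-1], kgPolyOfList [-2], kgPolyOfList [-3, 0], kgPolyOfList [-4, 0, 0], kgPolyOfList [-141, -85, -31, -5]]
    ![kgPolyOfList [0, -1, -1, -1, -1, -1, -1, -1, -1], kgPolyOfList [-1, -2, -2, -1, -2, -2, -2, -2, -1], kgPolyOfList [0, -2, -2, -2, -3, -4, -3, -2, -1], kgPolyOfList [-2, -6, -7, -7, -8, -9, -8, -5, -2], kgPolyOfList [0, 0, -5, -11, -12, -10, -10, -13, -15]]
    ?_
    ![![9, 6, 7, 0, 2], ![1, 8, 7, 4, 2], ![0, 0, 0, 0, 0], ![9, 0, 1, 3, 1], ![0, 0, 0, 0, 0], ![0, 8, 5, 0, 1], ![0, 0, 0, 0, 0], ![9, 1, 5, 4, 9], ![0, 0, 0, 0, 0]]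
    ?_
  · intro a
    fin_cases a
    · simp [kgGenZ, kgPolyOfList, Finset.sum_range_succ, derivative_pow]
      ring
    · simp [kgGenZ, kgPolyOfList, Finset.sum_range_succ, derivative_pow]
      ring
    · simp [kgGenZ, kgPolyOfList, Finset.sum_range_succ, derivative_pow]
      ring
    · simp [kgGenZ, kgPolyOfList, Finset.sum_range_succ, derivative_pow]
      ring
    · simp [kgGenZ, kgPolyOfList, Finset.sum_range_succ, derivative_pow]
      ring
  · decide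

/-- Kummer's lemma for `p = 11`. -/
theorem kg_kummer_eleven (K : Type) [Field K] [NumberField K] [IsCyclotomicExtension {11} ℚ K]
    (u : (𝓞 K)ˣ) (h : ∃ n : ℤ, ((11 : ℕ) : 𝓞 K) ∣ (u : 𝓞 K) - n) : ∃ v : (𝓞 K)ˣ, u = v ^ 11 := by
  obtain ⟨n, hn⟩ := h
  have : Fact (Nat.Prime (9 + 2)) := kg_prime_eleven
  have : IsCyclotomicExtension {9 + 2} ℚ K := ‹IsCyclotomicExtension {11} ℚ K›
  exact kummer_of_cert 9 5 (by norm_num) kummerCert_eleven u n hn

end Fermat.Agent.FLTReg
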