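import Mathlib
import Fermat.Agent.FLTReg.KummerGenCert

/-! Rank certificate and Kummer lemma for p = 13 (data generated offline, checked here). -/

open Polynomial NumberField

namespace Fermat.Agent.FLTReg

theorem kg_prime_thirteen : Fact (Nat.Prime 13) := ⟨by norm_num⟩

attribute [local instance] kg_prime_thirteen

theorem kummerCert_thirteen : KummerCert 13 11 6 := by
  refine kummerCert_of_int 13 11 6
    ![[1, 12, 1, 12, 1, 12, 1, 12, 1, 12, 1], [7, 3, 5, 4, 11, 1, 6, 10, 8, 9, 2], [1, 4, 0, 3, 10, 2, 12, 9, 0, 10, 3], [8, 3, 11, 11, 1, 1, 11, 5, 4, 9, 4], [2, 0, 12, 6, 0, 2, 11, 4, 7, 3, 5], [9, 8, 3, 8, 9, 1, 6, 7, 6, 7, 6]]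
    ![kgPolyOfList [-1], kgPolyOfList [-2], kgPolyOfList [-19, -3], kgPolyOfList [-64, -25, -4], kgPolyOfList [-119, -72, -28, -5], kgPolyOfList [-368, -268, -138, -43, -6]]
    ![kgPolyOfList [0, -1, -1, -1, -1, -1, -1, -1, -1, -1, -1], kgPolyOfList [-1, -1, -1, -1, -2, -1, -1, -2, -2, -2, -1], kgPolyOfList [0, -1, -1, -1, -3, -3, -4, -5, -3, -3, -3], kgPolyOfList [-2, -4, -7, -10, -9, -5, -5, -7, -7, -7, -7], kgPolyOfList [0, 0, -5, -12, -14, -10, -9, -12, -15, -14, -12], kgPolyOfList [-3, -11, -21, -28, -31, -31, -29, -26, -26, -29, -31]]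
    ?_
    ![![1, 10, 12, 7, 4, 4], ![3, 2, 12, 11, 2, 1], ![0, 0, 0, 0, 0, 0], ![3, 10, 2, 9, 2, 2], ![0, 0, 0, 0, 0, 0], ![9, 7, 4, 9, 7, 11], ![0, 0, 0, 0, 0, 0], ![7, 11, 0, 6, 1, 1], ![0, 0, 0, 0, 0, 0], ![4, 6, 7, 11, 5, 2], ![0, 0, 0, 0, 0, 0]]
    ?_
  · intro a
    fin_cases a
    · simp [kgGenZ, kgPolyOfList, Finset.sum_range_succ, derivative_pow]
      ring
    · simp [kgGenZ, kgPolyOfList, Finset.sum_range_succ, derivative_pow]
      ring
    · simp [kgGenZ, kgPolyOfList, Finset.sum_range_succ, derivative_pow]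
      ring
    · simp [kgGenZ, kgPolyOfList, Finset.sum_range_succ, derivative_pow]
      ring
    · simp [kgGenZ, kgPolyOfList, Finset.sum_range_succ, derivative_pow]
      ring
    · simp [kgGenZ, kgPolyOfList, Finset.sum_range_succ, derivative_pow]
      ring
  · decide

/-- Kummer's lemma for `p = 13`. -/
theorem kg_kummer_thirteen (K : Type) [Field K] [NumberField K] [IsCyclotomicExtension {13} ℚ K]
    (u : (𝓞 K)ˣ) (h : ∃ n : ℤ, ((13 : ℕ) : 𝓞 K) ∣ (u : 𝓞 K) - n) : ∃ v : (𝓞 K)ˣ, u = v ^ 13 := by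
  obtain ⟨n, hn⟩ := h
  have : Fact (Nat.Prime (11 + 2)) := kg_prime_thirteen
  have : IsCyclotomicExtension {11 + 2} ℚ K := ‹IsCyclotomicExtension {13} ℚ K›
  exact kummer_of_cert 11 6 (by norm_num) kummerCert_thirteen u n hn

end Fermat.Agent.FLTReg
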