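import Mathlib
import Fermat.Agent.FLTReg.KummerGenCert

/-! Rank certificate and Kummer lemma for p = 5 (data generated offline, checked here). -/

open Polynomial NumberField

namespace Fermat.Agent.FLTReg

theorem kg_prime_five : Fact (Nat.Prime 5) := ⟨by norm_num⟩

attribute [local instance] kg_prime_five

theorem kummerCert_five : KummerCert 5 3 2 := by
  refine kummerCert_of_int 5 3 2
    ![[1, 4, 1], [3, 1, 2]]
    ![kgPolyOfList [-1], kgPolyOfList [-2]]
    ![kgPolyOfList [0, -1, -1], kgPolyOfList [-1, -1, -1]]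
    ?_
    ![![4, 4], ![3, 4], ![0, 0]]
    ?_
  · intro a
    fin_cases a
    · simp [kgGenZ, kgPolyOfList, Finset.sum_range_succ, derivative_pow]
      ring
    · simp [kgGenZ, kgPolyOfList, Finset.sum_range_succ, derivative_pow]
      ring
  · decide

/-- Kummer's lemma for `p = 5`. -/
theorem kg_kummer_five (K : Type) [Field K] [NumberField K] [IsCyclotomicExtension {5} ℚ K]
    (u : (𝓞 K)ˣ) (h : ∃ n : ℤ, ((5 : ℕ) : 𝓞 K) ∣ (u : 𝓞 K) - n) : ∃ v : (𝓞 K)ˣ, u = v ^ 5 := by
  obtain ⟨n, hn⟩ := h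
  have : Fact (Nat.Prime (3 + 2)) := kg_prime_five
  have : IsCyclotomicExtension {3 + 2} ℚ K := ‹IsCyclotomicExtension {5} ℚ K›
  exact kummer_of_cert 3 2 (by norm_num) kummerCert_five u n hn

end Fermat.Agent.FLTReg
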