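import Mathlib
import Fermat.Agent.FLTReg.KummerGenCert

/-! Rank certificate and Kummer lemma for p = 7 (data generated offline, checked here). -/

open Polynomial NumberField

namespace Fermat.Agent.FLTReg

theorem kg_prime_seven : Fact (Nat.Prime 7) := ⟨by norm_num⟩

attribute [local instance] kg_prime_seven

theorem kummerCert_seven : KummerCert 7 5 3 := by
  refine kummerCert_of_int 7 5 3
    ![[1, 6, 1, 6, 1], [4, 5, 1, 3, 2], [1, 2, 0, 4, 3]]
    ![kgPolyOfList [-1], kgPolyOfList [-2], kgPolyOfList [-13, -3]]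
    ![kgPolyOfList [0, -1, -1, -1, -1], kgPolyOfList [-1, -2, -1, -1, -1], kgPolyOfList [0, -1, -1, -2, -3]]
    ?_
    ![![0, 3, 3], ![5, 4, 0], ![0, 0, 0], ![1, 6, 3], ![0, 0, 0]]
    ?_
  · intro a
    fin_cases a
    · simp [kgGenZ, kgPolyOfList, Finset.sum_range_succ, derivative_pow]
      ring
    · simp [kgGenZ, kgPolyOfList, Finset.sum_range_succ, derivative_pow]
      ring
    · simp [kgGenZ, kgPolyOfList, Finset.sum_range_succ, derivative_pow]
      ring
  · decide

/-- Kummer's lemma for `p = 7`. -/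
theorem kg_kummer_seven (K : Type) [Field K] [NumberField K] [IsCyclotomicExtension {7} ℚ K]
    (u : (𝓞 K)ˣ) (h : ∃ n : ℤ, ((7 : ℕ) : 𝓞 K) ∣ (u : 𝓞 K) - n) : ∃ v : (𝓞 K)ˣ, u = v ^ 7 := by
  obtain ⟨n, hn⟩ := h
  have : Fact (Nat.Prime (5 + 2)) := kg_prime_seven
  have : IsCyclotomicExtension {5 + 2} ℚ K := ‹IsCyclotomicExtension {7} ℚ K›
  exact kummer_of_cert 5 3 (by norm_num) kummerCert_seven u n hn

end Fermat.Agent.FLTReg
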