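/-
FLTReg project: generic (abstract) half of Kummer's lemma.

If `G` is a commutative group generated by `n` elements, `φ : Additive G →+ V` is an additive
map to a `ZMod p`-vector space and there are `n` elements of `G` whose images are linearly
independent, then every element of the kernel of `φ` is a `p`-th power.

Applied to the unit group of a cyclotomic field of prime conductor `p` (generated by
`(p - 1) / 2` elements by Dirichlet's unit theorem).
-/
import Mathlib

set_option autoImplicit false

open NumberField

namespace Fermat.Agent.FLTReg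

section abstract

variable {G : Type*} [CommGroup G] {p : ℕ} [Fact p.Prime]
  {V : Type*} [AddCommGroup V] [Module (ZMod p) V]

/-- `φ` of a product of integer powers of generators. -/
theorem map_prod_zpow_eq_sum {ι : Type*} [Fintype ι] (φ : Additive G →+ V) (g : ι → G)
    (e : ι → ℤ) :
    φ (Additive.ofMul (∏ i, g i ^ e i)) = ∑ i, ((e i : ℤ) : ZMod p) • φ (Additive.ofMul (g i)) := by
  rw [ofMul_prod, map_sum]
  refine Finset.sum_congr rfl fun i _ => ?_
  rw [ofMul_zpow, map_zsmul, Int.cast_smul_eq_zsmul]

/-- Abstract Kummer lemma: a group generated by `n` elements, a hom to an `𝔽_p`-vector space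
with `n` independent values, has kernel consisting of `p`-th powers. -/
theorem exists_eq_pow_of_map_eq_zero {ι κ : Type*} [Fintype ι] [Fintype κ]
    (hcard : Fintype.card κ = Fintype.card ι)
    (φ : Additive G →+ V) (g : ι → G)
    (hg : ∀ x : G, ∃ e : ι → ℤ, x = ∏ i, g i ^ e i)
    (us : κ → G) (hind : LinearIndependent (ZMod p) (fun j => φ (Additive.ofMul (us j))))
    (u : G) (hu : φ (Additive.ofMul u) = 0) : ∃ v : G, u = v ^ p := by
  classical
  -- the images of the generators span a space containing the independent family
  have hle : Submodule.span (ZMod p) (Set.range fun j => φ (Additive.ofMul (us j))) ≤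
      Submodule.span (ZMod p) (Set.range fun i => φ (Additive.ofMul (g i))) := by
    rw [Submodule.span_le]
    rintro _ ⟨j, rfl⟩
    obtain ⟨e, he⟩ := hg (us j)
    simp only [SetLike.mem_coe]
    rw [he, map_prod_zpow_eq_sum (p := p)]
    exact Submodule.sum_mem _ fun i _ =>
      Submodule.smul_mem _ _ (Submodule.subset_span ⟨i, rfl⟩)
  -- hence the images of the generators are linearly independent
  have hgind : LinearIndependent (ZMod p) (fun i => φ (Additive.ofMul (g i))) := by
    rw [linearIndependent_iff_card_eq_finrank_span]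
    have h1 : Fintype.card κ =
        (Set.range fun j => φ (Additive.ofMul (us j))).finrank (ZMod p) :=
      linearIndependent_iff_card_eq_finrank_span.mp hind
    have h2 : (Set.range fun i => φ (Additive.ofMul (g i))).finrank (ZMod p) ≤ Fintype.card ι :=
      finrank_range_le_card _
    have : Module.Finite (ZMod p)
        (Submodule.span (ZMod p) (Set.range fun i => φ (Additive.ofMul (g i)))) :=
      FiniteDimensional.span_of_finite _ (Set.finite_range _)
    have h3 : (Set.range fun j => φ (Additive.ofMul (us j))).finrank (ZMod p) ≤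
        (Set.range fun i => φ (Additive.ofMul (g i))).finrank (ZMod p) :=
      Submodule.finrank_mono hle
    omega
  -- write `u` on the generators
  obtain ⟨e, he⟩ := hg u
  rw [he, map_prod_zpow_eq_sum (p := p)] at hu
  have hzero : ∀ i, ((e i : ℤ) : ZMod p) = 0 := by
    intro i
    exact (Fintype.linearIndependent_iff.mp hgind) (fun i => ((e i : ℤ) : ZMod p)) hu i
  have hdvd : ∀ i, (p : ℤ) ∣ e i := fun i =>
    (ZMod.intCast_zmod_eq_zero_iff_dvd (e i) p).mp (hzero i)
  choose f hf using hdvd
  refine ⟨∏ i, g i ^ f i, ?_⟩
  rw [he, ← Finset.prod_pow]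
  refine Finset.prod_congr rfl fun i _ => ?_
  rw [hf i, mul_comm, zpow_mul, zpow_natCast]

end abstract

end Fermat.Agent.FLTReg

namespace Fermat.Agent.FLTReg

section units

variable {p : ℕ} [hp : Fact p.Prime] {K : Type*} [Field K] [NumberField K]
  [IsCyclotomicExtension {p} ℚ K]

/-- The unit rank of the `p`-th cyclotomic field plus one is `(p - 1) / 2`, for `p` an odd
prime. -/
theorem rank_add_one_eq (hp2 : p ≠ 2) : Units.rank K + 1 = (p - 1) / 2 := by
  have hp3 : 2 < p := lt_of_le_of_ne hp.out.two_le (Ne.symm hp2)
  have hpos : 0 < Fintype.card (InfinitePlace K) := Fintype.card_pos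
  have h1 : Fintype.card (InfinitePlace K) = (p - 1) / 2 := by
    rw [InfinitePlace.card_eq_nrRealPlaces_add_nrComplexPlaces,
      IsCyclotomicExtension.Rat.nrRealPlaces_eq_zero K hp3,
      IsCyclotomicExtension.Rat.nrComplexPlaces_eq_totient_div_two p K,
      Nat.totient_prime hp.out, zero_add]
  rw [Units.rank, ← h1]
  omega

omit hp [IsCyclotomicExtension {p} ℚ K] in
/-- A generating family of the unit group indexed by `Option (Fin (rank K))`: a generator of the
torsion subgroup together with a fundamental system of units. -/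
theorem exists_generators_units :
    ∃ g : Option (Fin (Units.rank K)) → (𝓞 K)ˣ,
      ∀ x : (𝓞 K)ˣ, ∃ e : Option (Fin (Units.rank K)) → ℤ, x = ∏ i, g i ^ e i := by
  classical
  obtain ⟨t, ht⟩ := IsCyclic.exists_generator (α := Units.torsion K)
  refine ⟨fun o => o.elim (t : (𝓞 K)ˣ) (Units.fundSystem K), fun x => ?_⟩
  obtain ⟨⟨ζ, e⟩, hx, -⟩ := Units.exist_unique_eq_mul_prod K x
  obtain ⟨k, hk⟩ := Subgroup.mem_zpowers_iff.mp (ht ζ)
  refine ⟨fun o => o.elim k e, ?_⟩
  rw [Fintype.prod_option]
  simp only [Option.elim_none, Option.elim_some]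
  rw [hx]
  congr 1
  rw [← hk]
  simp

/-- **Kummer's lemma, generic criterion.** Let `K` be the `p`-th cyclotomic field (`p` an odd
prime), `φ` an additive map from the units of `𝓞 K` to an `𝔽_p`-vector space. If there are
`(p - 1) / 2` units whose images under `φ` are linearly independent, then every unit in the kernel
of `φ` is a `p`-th power. -/
theorem kummer_of_independent (hp2 : p ≠ 2) {V : Type*} [AddCommGroup V] [Module (ZMod p) V]
    (φ : Additive (𝓞 K)ˣ →+ V) {κ : Type*} [Fintype κ] (hκ : Fintype.card κ = (p - 1) / 2)
    (us : κ → (𝓞 K)ˣ)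
    (hind : LinearIndependent (ZMod p) (fun j => φ (Additive.ofMul (us j))))
    (u : (𝓞 K)ˣ) (hu : φ (Additive.ofMul u) = 0) : ∃ v : (𝓞 K)ˣ, u = v ^ p := by
  obtain ⟨g, hg⟩ := exists_generators_units (K := K)
  refine exists_eq_pow_of_map_eq_zero (p := p) ?_ φ g hg us hind u hu
  rw [hκ, Fintype.card_option, Fintype.card_fin, rank_add_one_eq (K := K) hp2]

end units

end Fermat.Agent.FLTReg
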