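/-
FLTReg project, module M2: rings of integers of small prime cyclotomic fields are PIDs.
-/
import Mathlib.NumberTheory.NumberField.Cyclotomic.PID
import Mathlib.NumberTheory.NumberField.Cyclotomic.Ideal
import Mathlib.NumberTheory.NumberField.Cyclotomic.Galois
import Mathlib.Analysis.Real.Pi.Bounds
import Mathlib.Tactic

set_option autoImplicit false

namespace Fermat.Agent.FLTReg

open NumberField Polynomial Ideal

variable {K : Type*} [Field K] [NumberField K]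

/-- Principal degree-one primes: if `ζ ↦ g` defines a ring hom `𝓞 K → ZMod q` killing `α`, and
`α ∣ q`, `α ∣ ζ - g`, then `span {α}` is a prime over `q` (and it is principal). -/
theorem exists_isPrincipal_mem_primesOver_of_cofactors
    {ℓ : ℕ} [hℓ : Fact ℓ.Prime] [IsCyclotomicExtension {ℓ} ℚ K] {ζ : K} (hζ : IsPrimitiveRoot ζ ℓ)
    (q : ℕ) [Fact q.Prime] (g : ℤ) (hg : ∑ i ∈ Finset.range ℓ, (g : ZMod q) ^ i = 0)
    (z : 𝓞 K) (hz : z = hζ.toInteger)
    (α β γ : 𝓞 K) (hαβ : α * β = (q : 𝓞 K)) (hαγ : α * γ = z - (g : 𝓞 K))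
    (hα : ∀ f : 𝓞 K →+* ZMod q, f z = (g : ZMod q) → f α = 0) :
    ∃ P ∈ primesOver (span {(q : ℤ)}) (𝓞 K), Submodule.IsPrincipal P := by
  subst hz
  have : NeZero ℓ := ⟨hℓ.out.ne_zero⟩
  -- the evaluation homomorphism
  have hmin : minpoly ℤ hζ.integralPowerBasis.gen = cyclotomic ℓ ℤ := by
    rw [hζ.integralPowerBasis_gen, ← RingOfIntegers.minpoly_coe]
    exact (cyclotomic_eq_minpoly (show IsPrimitiveRoot (hζ.toInteger : K) ℓ from hζ)
      (NeZero.pos ℓ)).symm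
  have haeval : aeval (g : ZMod q) (minpoly ℤ hζ.integralPowerBasis.gen) = 0 := by
    rw [hmin, cyclotomic_prime, map_sum]
    simpa using hg
  let f : 𝓞 K →ₐ[ℤ] ZMod q := hζ.integralPowerBasis.lift (g : ZMod q) haeval
  have hfζ : f hζ.toInteger = (g : ZMod q) := by
    have := hζ.integralPowerBasis.lift_gen (g : ZMod q) haeval
    rwa [hζ.integralPowerBasis_gen] at this
  have hfint : ∀ n : ℤ, f (n : 𝓞 K) = (n : ZMod q) := fun n => by simp
  let P : Ideal (𝓞 K) := RingHom.ker (f : 𝓞 K →+* ZMod q)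
  have hPmax : P.IsMaximal :=
    RingHom.ker_isMaximal_of_surjective _ (ZMod.ringHom_surjective _)
  -- every element is congruent to an integer modulo `α`
  have hcong : ∀ x : 𝓞 K, ∃ n : ℤ, x - (n : 𝓞 K) ∈ span {α} := by
    intro x
    have hx : x ∈ Algebra.adjoin ℤ {hζ.toInteger} := by
      rw [IsCyclotomicExtension.Rat.adjoin_singleton_eq_top hζ]; trivial
    induction hx using Algebra.adjoin_induction with
    | mem x hx =>
      rw [Set.mem_singleton_iff] at hx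
      exact ⟨g, by rw [hx, ← hαγ]; exact Ideal.mul_mem_right _ _ (Ideal.mem_span_singleton_self α)⟩
    | algebraMap r => exact ⟨r, by simp⟩
    | add x y _ _ hx hy =>
      obtain ⟨n, hn⟩ := hx
      obtain ⟨m, hm⟩ := hy
      refine ⟨n + m, ?_⟩
      have := Ideal.add_mem _ hn hm
      convert this using 1
      push_cast; ring
    | mul x y _ _ hx hy =>
      obtain ⟨n, hn⟩ := hx
      obtain ⟨m, hm⟩ := hy
      refine ⟨n * m, ?_⟩
      have := Ideal.add_mem _ (Ideal.mul_mem_left _ y hn) (Ideal.mul_mem_left _ (n : 𝓞 K) hm)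
      convert this using 1
      push_cast; ring
  have hqα : (q : 𝓞 K) ∈ span {α} := by
    rw [← hαβ]; exact Ideal.mul_mem_right _ _ (Ideal.mem_span_singleton_self α)
  have hαP : α ∈ P := by
    show (f : 𝓞 K →+* ZMod q) α = 0
    exact hα _ hfζ
  have hPeq : P = span {α} := by
    apply le_antisymm
    · intro x hx
      obtain ⟨n, hn⟩ := hcong x
      have hx' : f x = 0 := hx
      have h1 : f (x - (n : 𝓞 K)) = 0 :=
        (Ideal.span_singleton_le_iff_mem (I := P)).mpr hαP hn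
      rw [map_sub, hx', hfint, zero_sub, neg_eq_zero, ZMod.intCast_zmod_eq_zero_iff_dvd] at h1
      obtain ⟨k, rfl⟩ := h1
      have : x = (x - ((q : ℤ) * k : ℤ)) + (q : 𝓞 K) * (k : 𝓞 K) := by push_cast; ring
      rw [this]
      exact Ideal.add_mem _ hn (Ideal.mul_mem_right _ _ hqα)
    · exact (Ideal.span_singleton_le_iff_mem (I := P)).mpr hαP
  refine ⟨P, ⟨hPmax.isPrime, ⟨?_⟩⟩, ⟨α, hPeq⟩⟩
  -- lies over
  ext n
  rw [Ideal.mem_span_singleton, Ideal.under_def, Ideal.mem_comap]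
  show _ ↔ (f : 𝓞 K →+* ZMod q) (algebraMap ℤ (𝓞 K) n) = 0
  rw [algebraMap_int_eq, eq_intCast, RingHom.coe_coe, hfint, ZMod.intCast_zmod_eq_zero_iff_dvd]

theorem minkowski_eleven (K : Type*) [Field K] [NumberField K] [IsCyclotomicExtension {11} ℚ K] :
    ⌊(4 / Real.pi) ^ InfinitePlace.nrComplexPlaces K *
      ((Module.finrank ℚ K).factorial / (Module.finrank ℚ K : ℝ) ^ Module.finrank ℚ K *
        √|(discr K : ℝ)|)⌋₊ ≤ 59 := by
  have : Fact (Nat.Prime 11) := ⟨by norm_num⟩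
  rw [IsCyclotomicExtension.Rat.discr_prime 11 K, IsCyclotomicExtension.finrank (n := 11) K
    (cyclotomic.irreducible_rat (by simp)), IsCyclotomicExtension.Rat.nrComplexPlaces_eq_totient_div_two 11,
    Nat.totient_prime (by norm_num : Nat.Prime 11)]
  have hpi : (4 / Real.pi) ^ 5 ≤ (4 / 3.14 : ℝ) ^ 5 := by
    apply pow_le_pow_left₀ (by positivity)
    apply div_le_div_of_nonneg_left (by norm_num) (by norm_num) Real.pi_gt_d2.le
  have hsq : √(11 ^ 9 : ℝ) ≤ 48558.71 := by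
    rw [Real.sqrt_le_iff]; constructor <;> norm_num
  have hval : ((-1 : ℤ) ^ ((11 - 1) / 2) * ((11 : ℕ) : ℤ) ^ (11 - 2) : ℤ) = -(11 ^ 9) := by norm_num
  rw [hval]
  have habs : |((-(11 ^ 9) : ℤ) : ℝ)| = (11 ^ 9 : ℝ) := by
    rw [Int.cast_neg, abs_neg, abs_of_pos (by positivity)]
    norm_num
  rw [habs]
  have h10 : (11 - 1 : ℕ) = 10 := by norm_num
  simp only [h10, show (10 / 2 : ℕ) = 5 by norm_num]
  apply Nat.le_of_lt_succ
  rw [Nat.floor_lt (by positivity)]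
  have hfac : ((Nat.factorial 10 : ℕ) : ℝ) = 3628800 := by
    norm_num [Nat.factorial]
  rw [hfac]
  calc (4 / Real.pi) ^ 5 * (3628800 / ((10 : ℕ) : ℝ) ^ 10 * √(11 ^ 9 : ℝ))
      ≤ (4 / 3.14 : ℝ) ^ 5 * (3628800 / ((10 : ℕ) : ℝ) ^ 10 * 48558.71) := by
        gcongr
    _ < ((59 + 1 : ℕ) : ℝ) := by norm_num

theorem key11 {p : ℕ} (hp : p.Prime) (hp59 : p ≤ 59) (h11 : p ≠ 11) (h23 : p ≠ 23) :
    59 < p ^ orderOf (p : ZMod 11) := by
  have : Fact (Nat.Prime 11) := ⟨by norm_num⟩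
  have hx : (p : ZMod 11) ≠ 0 := by
    rw [Ne, ZMod.natCast_eq_zero_iff]
    intro h
    exact h11 ((Nat.prime_dvd_prime_iff_eq (by norm_num) hp).mp h).symm
  have h10 : (p : ZMod 11) ^ 10 = 1 := ZMod.pow_card_sub_one_eq_one hx
  have hdvd : orderOf (p : ZMod 11) ∣ 10 := orderOf_dvd_of_pow_eq_one h10
  have hf := pow_orderOf_eq_one (p : ZMod 11)
  generalize orderOf (p : ZMod 11) = f at *
  by_contra hlt
  rw [not_lt] at hlt
  have hf' : f ∈ Nat.divisors 10 := by simp [hdvd]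
  have hcases : f = 1 ∨ f = 2 ∨ f = 5 ∨ f = 10 := by
    have h : Nat.divisors 10 = {1, 2, 5, 10} := by decide
    simpa [h] using hf'
  have hmod : p ^ f % 11 = 1 := by
    have h := hf
    rw [← Nat.cast_pow, ← Nat.cast_one (R := ZMod 11), ZMod.natCast_eq_natCast_iff'] at h
    simpa using h
  have hp2 := hp.two_le
  rcases hcases with rfl | rfl | rfl | rfl
  · interval_cases p <;> first | omega | (norm_num at hp)
  · have : p ≤ 7 := by nlinarith
    interval_cases p <;> omega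
  · have : p ≤ 2 := by
      by_contra h; rw [not_le] at h
      have : 3 ^ 5 ≤ p ^ 5 := Nat.pow_le_pow_left h 5
      omega
    interval_cases p; omega
  · have : 2 ^ 10 ≤ p ^ 10 := Nat.pow_le_pow_left hp2 10
    omega

private theorem sum13 : ∑ i ∈ Finset.range 11, ((13 : ℤ) : ZMod 23) ^ i = 0 := by decide

private theorem eval13 : (1 : ZMod 23) - ((13 : ℤ) : ZMod 23) + ((13 : ℤ) : ZMod 23) ^ 3 = 0 := by
  decide

theorem pid_eleven (K : Type*) [Field K] [NumberField K] [IsCyclotomicExtension {11} ℚ K] :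
    IsPrincipalIdealRing (𝓞 K) := by
  have h11 : Fact (Nat.Prime 11) := ⟨by norm_num⟩
  have : IsGalois ℚ K := IsCyclotomicExtension.isGalois {11} ℚ K
  apply RingOfIntegers.isPrincipalIdealRing_of_isPrincipal_of_lt_or_isPrincipal_of_mem_primesOver_of_mem_Icc
  intro p hp hprime
  have hB := minkowski_eleven K
  have hp59 : p ≤ 59 := (Finset.mem_Icc.mp hp).2.trans hB
  have hpF : Fact p.Prime := ⟨hprime⟩
  have hζ := IsCyclotomicExtension.zeta_spec 11 ℚ K
  by_cases hp11 : p = 11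
  · subst hp11
    obtain ⟨⟨P, hP1, hP2⟩⟩ := (span {((11 : ℕ) : ℤ)}).nonempty_primesOver (S := 𝓞 K)
    refine ⟨P, ⟨hP1, hP2⟩, Or.inr ?_⟩
    rw [IsCyclotomicExtension.Rat.eq_span_zeta_sub_one_of_liesOver' 11 K hζ P]
    exact ⟨⟨_, rfl⟩⟩
  by_cases hp23 : p = 23
  · subst hp23
    obtain ⟨z, hz⟩ : ∃ z : 𝓞 K, z = hζ.toInteger := ⟨_, rfl⟩
    have hΦ : 1 + z + z ^ 2 + z ^ 3 + z ^ 4 + z ^ 5 + z ^ 6 + z ^ 7 + z ^ 8 + z ^ 9 + z ^ 10 = 0 := by
      have := hζ.toInteger_isPrimitiveRoot.geom_sum_eq_zero (by norm_num : 1 < 11)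
      rw [← hz] at this
      simpa [Finset.sum_range_succ] using this
    obtain ⟨P, hP, hPp⟩ := exists_isPrincipal_mem_primesOver_of_cofactors hζ 23 13
      sum13 z hz
      (1 - z + z ^ 3)
      (8 - 2 * z - z ^ 2 - 8 * z ^ 3 - 5 * z ^ 4 - 3 * z ^ 5 + 6 * z ^ 6 + 12 * z ^ 7 + 16 * z ^ 8
        + 11 * z ^ 9)
      (-5 + z + 4 * z ^ 3 + 2 * z ^ 4 + z ^ 5 - 4 * z ^ 6 - 7 * z ^ 7 - 9 * z ^ 8 - 6 * z ^ 9)
      (by push_cast; linear_combination (-15 + 5 * z + 11 * z ^ 2) * hΦ)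
      (by push_cast; linear_combination (8 - 3 * z - 6 * z ^ 2) * hΦ)
      (by
        intro f hf
        simp only [map_add, map_sub, map_pow, map_one, hf]
        exact eval13)
    exact ⟨P, hP, Or.inr hPp⟩
  · obtain ⟨⟨P, hP1, hP2⟩⟩ := (span {(p : ℤ)}).nonempty_primesOver (S := 𝓞 K)
    refine ⟨P, ⟨hP1, hP2⟩, Or.inl ?_⟩
    rw [IsCyclotomicExtension.Rat.inertiaDeg_eq_of_not_dvd p K P (m := 11)
      (fun h => hp11 ((Nat.prime_dvd_prime_iff_eq hprime (by norm_num)).mp h))]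
    exact lt_of_le_of_lt hB (key11 hprime hp59 hp11 hp23)

end Fermat.Agent.FLTReg
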