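import Mathlib

/-!
# Explicit principal primes in `ℤ[ζ₁₃]`

For `p ∈ {3, 53, 79, 131, 157}` we exhibit a principal prime ideal of `𝓞 K`
(`K` a `13`-th cyclotomic field) lying over `p`.  Together with the Minkowski bound (`306`)
this shows that `𝓞 K` is a PID.
-/

set_option autoImplicit false

namespace Fermat.Agent.FLTReg

open NumberField Ideal Polynomial RingOfIntegers IsCyclotomicExtension

section general

variable (K : Type*) [Field K] [NumberField K] [IsCyclotomicExtension {13} ℚ K]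

/-- the chosen primitive 13-th root of unity in `𝓞 K` -/
noncomputable abbrev zeta13 : 𝓞 K := (zeta_spec 13 ℚ K).toInteger

lemma zeta13_geom_sum : ∑ i ∈ Finset.range 13, (zeta13 K) ^ i = 0 := by
  have h := (zeta_spec 13 ℚ K).toInteger_isPrimitiveRoot
  exact h.geom_sum_eq_zero (by norm_num)

lemma not_dvd_exponent_zeta13 (p : ℕ) [hp : Fact p.Prime] : ¬ p ∣ exponent (zeta13 K) := by
  rw [exponent_eq_one_iff.mpr <| IsCyclotomicExtension.Rat.adjoin_singleton_eq_top (zeta_spec 13 ℚ K)]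
  exact hp.out.not_dvd_one

lemma minpoly_zeta13 : minpoly ℤ (zeta13 K) = cyclotomic 13 ℤ := by
  rw [cyclotomic_eq_minpoly (zeta_spec 13 ℚ K) (by norm_num),
    ← (zeta_spec 13 ℚ K).coe_toInteger, ← RingOfIntegers.minpoly_coe (zeta13 K)]
  rfl

/-- Kummer–Dedekind: a monic irreducible factor `Q mod p` of `Φ₁₃ mod p` such that
`(p, Q(ζ))` is generated by a single element yields a principal prime over `p`. -/
theorem exists_principal_primesOver_of_factor (p : ℕ) [hp : Fact p.Prime] (Q : ℤ[X])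
    (hirr : Irreducible (Q.map (Int.castRingHom (ZMod p))))
    (hmonic : (Q.map (Int.castRingHom (ZMod p))).Monic)
    (hdvd : Q.map (Int.castRingHom (ZMod p)) ∣ cyclotomic 13 (ZMod p))
    (α : 𝓞 K) (hα : span {(p : 𝓞 K), aeval (zeta13 K) Q} = span {α}) :
    ∃ P ∈ primesOver (span {(p : ℤ)}) (𝓞 K), Submodule.IsPrincipal P := by
  have h₁ := not_dvd_exponent_zeta13 K p
  have hQ : Q.map (Int.castRingHom (ZMod p)) ∈ monicFactorsMod (zeta13 K) p := by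
    rw [Multiset.mem_toFinset, Polynomial.mem_normalizedFactors_iff
      (map_monic_ne_zero (minpoly.monic (zeta13 K).isIntegral))]
    refine ⟨hirr, hmonic, ?_⟩
    rwa [minpoly_zeta13, map_cyclotomic_int]
  refine ⟨((NumberField.Ideal.primesOverSpanEquivMonicFactorsMod h₁).symm ⟨_, hQ⟩ : Ideal (𝓞 K)),
    ((NumberField.Ideal.primesOverSpanEquivMonicFactorsMod h₁).symm ⟨_, hQ⟩).2, ?_⟩
  rw [NumberField.Ideal.primesOverSpanEquivMonicFactorsMod_symm_apply_eq_span h₁ hQ, hα]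
  exact ⟨⟨α, rfl⟩⟩

lemma zeta13_relation : 1 + zeta13 K + zeta13 K ^ 2 + zeta13 K ^ 3 + zeta13 K ^ 4 + zeta13 K ^ 5
    + zeta13 K ^ 6 + zeta13 K ^ 7 + zeta13 K ^ 8 + zeta13 K ^ 9 + zeta13 K ^ 10 + zeta13 K ^ 11
    + zeta13 K ^ 12 = 0 := by
  have h := zeta13_geom_sum K
  simpa [Finset.sum_range_succ] using h

/-- Degree one case: `g` is a primitive 13-th root of unity mod `p` and `(p, ζ - g) = (α)`. -/
theorem exists_principal_primesOver_of_root (p : ℕ) [hp : Fact p.Prime] (g : ℤ)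
    (hg : ∑ i ∈ Finset.range 13, ((g : ZMod p)) ^ i = 0)
    (α β γ v : 𝓞 K) (m : ℤ)
    (hαβ : α * β = p) (hαγ : α * γ = zeta13 K - g) (hα : α = p * m + (zeta13 K - g) * v) :
    ∃ P ∈ primesOver (span {(p : ℤ)}) (𝓞 K), Submodule.IsPrincipal P := by
  have : Fact (Nat.Prime 13) := ⟨by norm_num⟩
  have hmap : (X - C g : ℤ[X]).map (Int.castRingHom (ZMod p)) = X - C (g : ZMod p) := by
    simp
  refine exists_principal_primesOver_of_factor K p (X - C g) ?_ ?_ ?_ α ?_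
  · rw [hmap]; exact irreducible_X_sub_C _
  · rw [hmap]; exact monic_X_sub_C _
  · rw [hmap, dvd_iff_isRoot, cyclotomic_prime, IsRoot.def, eval_finsetSum]
    simpa using hg
  · have haeval : aeval (zeta13 K) (X - C g : ℤ[X]) = zeta13 K - g := by simp
    rw [haeval]
    apply le_antisymm
    · rw [span_le]
      rintro x (rfl | rfl)
      · exact mem_span_singleton.mpr ⟨β, hαβ.symm⟩
      · exact mem_span_singleton.mpr ⟨γ, hαγ.symm⟩
    · rw [span_le]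
      rintro x rfl
      exact mem_span_pair.mpr ⟨m, v, by rw [hα]; ring⟩

end general

section explicit

private lemma geom_sum_zmod_53 : ∑ i ∈ Finset.range 13, (((-17 : ℤ) : ZMod 53)) ^ i = 0 := by
  decide

private lemma geom_sum_zmod_79 : ∑ i ∈ Finset.range 13, (((-15 : ℤ) : ZMod 79)) ^ i = 0 := by
  decide

private lemma geom_sum_zmod_131 : ∑ i ∈ Finset.range 13, (((-18 : ℤ) : ZMod 131)) ^ i = 0 := by
  decide

private lemma geom_sum_zmod_157 : ∑ i ∈ Finset.range 13, (((67 : ℤ) : ZMod 157)) ^ i = 0 := by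
  decide


variable (K : Type*) [Field K] [NumberField K] [IsCyclotomicExtension {13} ℚ K]

/-- A principal prime of `ℤ[ζ₁₃]` over `53`, generated by `1 + ζ + ζ ^ 3` (norm `53`). -/
theorem pid13_gen_53 :
    ∃ P ∈ primesOver (span {((53 : ℕ) : ℤ)}) (𝓞 K), Submodule.IsPrincipal P := by
  have : Fact (Nat.Prime 53) := ⟨by norm_num⟩
  have hrel := zeta13_relation K
  set ζ := zeta13 K with hζ
  refine exists_principal_primesOver_of_root K 53 (-17) geom_sum_zmod_53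
    (1 + ζ + ζ ^ 3)
    (1 - 24 * ζ - 35 * ζ ^ 2 - 25 * ζ ^ 3 - 10 * ζ ^ 4 - 14 * ζ ^ 5 - 20 * ζ ^ 6 - 29 * ζ ^ 7 - 16 * ζ ^ 8 - 23 * ζ ^ 9 - 7 * ζ ^ 10 - 36 * ζ ^ 11)
    (1 - 7 * ζ - 11 * ζ ^ 2 - 8 * ζ ^ 3 - 3 * ζ ^ 4 - 4 * ζ ^ 5 - 6 * ζ ^ 6 - 9 * ζ ^ 7 - 5 * ζ ^ 8 - 7 * ζ ^ 9 - 2 * ζ ^ 10 - 11 * ζ ^ 11)
    (290 - 17 * ζ + ζ ^ 2) (-93) ?_ ?_ ?_
  · push_cast
    linear_combination (-52 + 29 * ζ - 36 * ζ ^ 2) * hrel
  · push_cast
    linear_combination (-16 + 9 * ζ - 11 * ζ ^ 2) * hrel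
  · push_cast
    ring

/-- A principal prime of `ℤ[ζ₁₃]` over `79`, generated by `-1 - ζ + ζ ^ 4` (norm `79`). -/
theorem pid13_gen_79 :
    ∃ P ∈ primesOver (span {((79 : ℕ) : ℤ)}) (𝓞 K), Submodule.IsPrincipal P := by
  have : Fact (Nat.Prime 79) := ⟨by norm_num⟩
  have hrel := zeta13_relation K
  set ζ := zeta13 K with hζ
  refine exists_principal_primesOver_of_root K 79 (-15) geom_sum_zmod_79
    (-1 - ζ + ζ ^ 4)
    (-24 + 25 * ζ + 27 * ζ ^ 2 - 10 * ζ ^ 3 + 3 * ζ ^ 4 + 39 * ζ ^ 5 + 5 * ζ ^ 6 + 2 * ζ ^ 7 + 18 * ζ ^ 8 + 38 * ζ ^ 9 - 16 * ζ ^ 10 + 35 * ζ ^ 11)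
    (-5 + 4 * ζ + 5 * ζ ^ 2 - 2 * ζ ^ 3 + 7 * ζ ^ 5 + ζ ^ 6 + 3 * ζ ^ 8 + 7 * ζ ^ 9 - 3 * ζ ^ 10 + 6 * ζ ^ 11)
    (-3376 + 225 * ζ - 15 * ζ ^ 2 + ζ ^ 3) 641 ?_ ?_ ?_
  · push_cast
    linear_combination (-55 + 54 * ζ - 51 * ζ ^ 2 + 35 * ζ ^ 3) * hrel
  · push_cast
    linear_combination (-10 + 10 * ζ - 9 * ζ ^ 2 + 6 * ζ ^ 3) * hrel
  · push_cast
    ring

/-- A principal prime of `ℤ[ζ₁₃]` over `131`, generated by `-1 - ζ ^ 2 + ζ ^ 3` (norm `131`). -/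
theorem pid13_gen_131 :
    ∃ P ∈ primesOver (span {((131 : ℕ) : ℤ)}) (𝓞 K), Submodule.IsPrincipal P := by
  have : Fact (Nat.Prime 131) := ⟨by norm_num⟩
  have hrel := zeta13_relation K
  set ζ := zeta13 K with hζ
  refine exists_principal_primesOver_of_root K 131 (-18) geom_sum_zmod_131
    (-1 - ζ ^ 2 + ζ ^ 3)
    (13 + 5 * ζ + 20 * ζ ^ 2 + 41 * ζ ^ 3 + 18 * ζ ^ 4 + 12 * ζ ^ 5 + 56 * ζ ^ 6 + 39 * ζ ^ 7 - 11 * ζ ^ 8 + 50 * ζ ^ 9 + 83 * ζ ^ 10 - 28 * ζ ^ 11)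
    (2 + ζ + 3 * ζ ^ 2 + 6 * ζ ^ 3 + 3 * ζ ^ 4 + 2 * ζ ^ 5 + 8 * ζ ^ 6 + 6 * ζ ^ 7 - ζ ^ 8 + 7 * ζ ^ 9 + 12 * ζ ^ 10 - 3 * ζ ^ 11)
    (342 - 19 * ζ + ζ ^ 2) (-47) ?_ ?_ ?_
  · push_cast
    linear_combination (-144 + 139 * ζ - 28 * ζ ^ 2) * hrel
  · push_cast
    linear_combination (-20 + 18 * ζ - 3 * ζ ^ 2) * hrel
  · push_cast
    ring

/-- A principal prime of `ℤ[ζ₁₃]` over `157`, generated by `-1 - ζ ^ 2 + ζ ^ 3 - ζ ^ 4` (norm `157`). -/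
theorem pid13_gen_157 :
    ∃ P ∈ primesOver (span {((157 : ℕ) : ℤ)}) (𝓞 K), Submodule.IsPrincipal P := by
  have : Fact (Nat.Prime 157) := ⟨by norm_num⟩
  have hrel := zeta13_relation K
  set ζ := zeta13 K with hζ
  refine exists_principal_primesOver_of_root K 157 67 geom_sum_zmod_157
    (-1 - ζ ^ 2 + ζ ^ 3 - ζ ^ 4)
    (11 + 51 * ζ + 68 * ζ ^ 2 + 87 * ζ ^ 3 + 99 * ζ ^ 4 + 57 * ζ ^ 5 + 47 * ζ ^ 6 + 82 * ζ ^ 7 + 38 * ζ ^ 8 + 35 * ζ ^ 9 + 124 * ζ ^ 10 + 48 * ζ ^ 11)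
    (-5 - 22 * ζ - 29 * ζ ^ 2 - 37 * ζ ^ 3 - 42 * ζ ^ 4 - 24 * ζ ^ 5 - 20 * ζ ^ 6 - 35 * ζ ^ 7 - 16 * ζ ^ 8 - 15 * ζ ^ 9 - 53 * ζ ^ 10 - 20 * ζ ^ 11)
    (-296341 - 4423 * ζ - 66 * ζ ^ 2 - ζ ^ 3) (-126464) ?_ ?_ ?_
  · push_cast
    linear_combination (-168 + 117 * ζ - 28 * ζ ^ 2 - 48 * ζ ^ 3) * hrel
  · push_cast
    linear_combination (72 - 51 * ζ + 13 * ζ ^ 2 + 20 * ζ ^ 3) * hrel
  · push_cast
    ring

private lemma no_root_zmod_three : ∀ x : ZMod 3, ¬ x ^ 3 - x - 1 = 0 := by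
  decide

/-- A principal prime of `ℤ[ζ₁₃]` over `3` (residue degree `3`), generated by `ζ ^ 3 - ζ - 1`
(norm `27`). -/
theorem pid13_gen_3 :
    ∃ P ∈ primesOver (span {((3 : ℕ) : ℤ)}) (𝓞 K), Submodule.IsPrincipal P := by
  have : Fact (Nat.Prime 3) := ⟨by norm_num⟩
  have : Fact (Nat.Prime 13) := ⟨by norm_num⟩
  have hrel := zeta13_relation K
  set ζ := zeta13 K with hζ
  have hmap : (X ^ 3 - X - 1 : ℤ[X]).map (Int.castRingHom (ZMod 3)) = X ^ 3 - X - 1 := by simp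
  refine exists_principal_primesOver_of_factor K 3 (X ^ 3 - X - 1) ?_ ?_ ?_ (ζ ^ 3 - ζ - 1) ?_
  · rw [hmap]
    apply irreducible_of_degree_le_three_of_not_isRoot
    · have h3 : (X ^ 3 - X - 1 : (ZMod 3)[X]).natDegree = 3 := by compute_degree!
      rw [h3]; decide
    · intro x
      rw [IsRoot.def]
      simp only [eval_sub, eval_pow, eval_X, eval_one]
      exact no_root_zmod_three x
  · rw [hmap]; monicity!
  · rw [hmap, cyclotomic_prime]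
    have hZ : (∑ i ∈ Finset.range 13, (X : ℤ[X]) ^ i) =
        (X ^ 3 - X - 1) * (X ^ 9 + X ^ 8 + 2 * X ^ 7 + 3 * X ^ 6 + 4 * X ^ 5 + 6 * X ^ 4 + 8 * X ^ 3
          + 11 * X ^ 2 + 15 * X + 20) + 3 * (7 + 12 * X + 9 * X ^ 2) := by
      simp only [Finset.sum_range_succ, Finset.sum_range_zero]
      ring
    have h3 : (3 : (ZMod 3)[X]) = 0 := CharP.ofNat_eq_zero (ZMod 3)[X] 3
    have hmapped := congrArg (Polynomial.map (Int.castRingHom (ZMod 3))) hZ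
    simp only [Polynomial.map_sum, Polynomial.map_pow, Polynomial.map_X, Polynomial.map_add,
      Polynomial.map_mul, Polynomial.map_sub, Polynomial.map_one, Polynomial.map_ofNat, h3,
      zero_mul, add_zero] at hmapped
    exact ⟨_, hmapped⟩
  · have haeval : aeval ζ (X ^ 3 - X - 1 : ℤ[X]) = ζ ^ 3 - ζ - 1 := by simp
    rw [haeval]
    apply le_antisymm
    · rw [span_le]
      rintro x (rfl | rfl)
      · refine mem_span_singleton.mpr ⟨1 + ζ ^ 2 + ζ ^ 3 + 2 * ζ ^ 5 + ζ ^ 7 + 2 * ζ ^ 8 - ζ ^ 9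
          + 3 * ζ ^ 10, ?_⟩
        push_cast
        linear_combination (4 - 3 * ζ) * hrel
      · exact mem_span_singleton_self _
    · rw [span_le]
      rintro x rfl
      exact subset_span (by simp)

end explicit

end Fermat.Agent.FLTReg
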