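/-
FLTReg project: the ring of integers of `ℚ(ζ₁₃)` is a PID.
-/
import Fermat.Agent.FLTReg.PID13Gens

set_option autoImplicit false

namespace Fermat.Agent.FLTReg

open NumberField Polynomial Ideal

theorem minkowski_thirteen (K : Type*) [Field K] [NumberField K]
    [IsCyclotomicExtension {13} ℚ K] :
    ⌊(4 / Real.pi) ^ InfinitePlace.nrComplexPlaces K *
      ((Module.finrank ℚ K).factorial / (Module.finrank ℚ K : ℝ) ^ Module.finrank ℚ K *
        √|(discr K : ℝ)|)⌋₊ ≤ 306 := by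
  have : Fact (Nat.Prime 13) := ⟨by norm_num⟩
  rw [IsCyclotomicExtension.Rat.discr_prime 13 K, IsCyclotomicExtension.finrank (n := 13) K
    (cyclotomic.irreducible_rat (by simp)),
    IsCyclotomicExtension.Rat.nrComplexPlaces_eq_totient_div_two 13,
    Nat.totient_prime (by norm_num : Nat.Prime 13)]
  have hpi : (4 / Real.pi) ^ 6 ≤ (4 / 3.1415 : ℝ) ^ 6 := by
    apply pow_le_pow_left₀ (by positivity)
    apply div_le_div_of_nonneg_left (by norm_num) (by norm_num) Real.pi_gt_d4.le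
  have hsq : √(13 ^ 11 : ℝ) ≤ 1338716 := by
    rw [Real.sqrt_le_iff]; constructor <;> norm_num
  have hval : ((-1 : ℤ) ^ ((13 - 1) / 2) * ((13 : ℕ) : ℤ) ^ (13 - 2) : ℤ) = 13 ^ 11 := by norm_num
  rw [hval]
  have habs : |(((13 ^ 11 : ℤ)) : ℝ)| = (13 ^ 11 : ℝ) := by
    rw [abs_of_pos (by positivity)]
    norm_num
  rw [habs]
  have h12 : (13 - 1 : ℕ) = 12 := by norm_num
  simp only [h12, show (12 / 2 : ℕ) = 6 by norm_num]
  apply Nat.le_of_lt_succ
  rw [Nat.floor_lt (by positivity)]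
  have hfac : ((Nat.factorial 12 : ℕ) : ℝ) = 479001600 := by
    norm_num [Nat.factorial]
  rw [hfac]
  calc (4 / Real.pi) ^ 6 * (479001600 / ((12 : ℕ) : ℝ) ^ 12 * √(13 ^ 11 : ℝ))
      ≤ (4 / 3.1415 : ℝ) ^ 6 * (479001600 / ((12 : ℕ) : ℝ) ^ 12 * 1338716) := by
        gcongr
    _ < ((306 + 1 : ℕ) : ℝ) := by norm_num

theorem key13 {p : ℕ} (hp : p.Prime) (hp306 : p ≤ 306) (h13 : p ≠ 13) (h3 : p ≠ 3)
    (h53 : p ≠ 53) (h79 : p ≠ 79) (h131 : p ≠ 131) (h157 : p ≠ 157) :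
    306 < p ^ orderOf (p : ZMod 13) := by
  have : Fact (Nat.Prime 13) := ⟨by norm_num⟩
  have hx : (p : ZMod 13) ≠ 0 := by
    rw [Ne, ZMod.natCast_eq_zero_iff]
    intro h
    exact h13 ((Nat.prime_dvd_prime_iff_eq (by norm_num) hp).mp h).symm
  have h12 : (p : ZMod 13) ^ 12 = 1 := ZMod.pow_card_sub_one_eq_one hx
  have hdvd : orderOf (p : ZMod 13) ∣ 12 := orderOf_dvd_of_pow_eq_one h12
  have hf := pow_orderOf_eq_one (p : ZMod 13)
  generalize orderOf (p : ZMod 13) = f at *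
  by_contra hlt
  rw [not_lt] at hlt
  have hf' : f ∈ Nat.divisors 12 := by simp [hdvd]
  have hcases : f = 1 ∨ f = 2 ∨ f = 3 ∨ f = 4 ∨ f = 6 ∨ f = 12 := by
    have h : Nat.divisors 12 = {1, 2, 3, 4, 6, 12} := by decide
    simpa [h] using hf'
  have hmod : p ^ f % 13 = 1 := by
    have h := hf
    rw [← Nat.cast_pow, ← Nat.cast_one (R := ZMod 13), ZMod.natCast_eq_natCast_iff'] at h
    simpa using h
  have hp2 := hp.two_le
  rcases hcases with rfl | rfl | rfl | rfl | rfl | rfl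
  · -- f = 1 : p ≡ 1 mod 13
    rw [pow_one] at hmod
    obtain ⟨k, rfl⟩ : ∃ k, p = 13 * k + 1 := ⟨p / 13, by omega⟩
    have hk : k ≤ 23 := by omega
    interval_cases k <;> first | omega | (norm_num at hp)
  · have : p ≤ 17 := by nlinarith
    interval_cases p <;> first | omega | (norm_num at hp)
  · have : p ≤ 6 := by
      by_contra h; rw [not_le] at h
      have : 7 ^ 3 ≤ p ^ 3 := Nat.pow_le_pow_left h 3
      omega
    interval_cases p <;> omega
  · have : p ≤ 4 := by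
      by_contra h; rw [not_le] at h
      have : 5 ^ 4 ≤ p ^ 4 := Nat.pow_le_pow_left h 4
      omega
    interval_cases p <;> omega
  · have : p ≤ 2 := by
      by_contra h; rw [not_le] at h
      have : 3 ^ 6 ≤ p ^ 6 := Nat.pow_le_pow_left h 6
      omega
    interval_cases p; omega
  · have : 2 ^ 12 ≤ p ^ 12 := Nat.pow_le_pow_left hp2 12
    omega

/-- The ring of integers of the `13`-th cyclotomic field is a principal ideal domain. -/
theorem pid_thirteen (K : Type*) [Field K] [NumberField K] [IsCyclotomicExtension {13} ℚ K] :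
    IsPrincipalIdealRing (𝓞 K) := by
  have h13 : Fact (Nat.Prime 13) := ⟨by norm_num⟩
  have : IsGalois ℚ K := IsCyclotomicExtension.isGalois {13} ℚ K
  apply RingOfIntegers.isPrincipalIdealRing_of_isPrincipal_of_lt_or_isPrincipal_of_mem_primesOver_of_mem_Icc
  intro p hp hprime
  have hB := minkowski_thirteen K
  have hp306 : p ≤ 306 := (Finset.mem_Icc.mp hp).2.trans hB
  have hpF : Fact p.Prime := ⟨hprime⟩
  have hζ := IsCyclotomicExtension.zeta_spec 13 ℚ K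
  by_cases hp13 : p = 13
  · subst hp13
    obtain ⟨⟨P, hP1, hP2⟩⟩ := (span {((13 : ℕ) : ℤ)}).nonempty_primesOver (S := 𝓞 K)
    refine ⟨P, ⟨hP1, hP2⟩, Or.inr ?_⟩
    rw [IsCyclotomicExtension.Rat.eq_span_zeta_sub_one_of_liesOver' 13 K hζ P]
    exact ⟨⟨_, rfl⟩⟩
  by_cases hp3 : p = 3
  · subst hp3
    obtain ⟨P, hP, hPp⟩ := pid13_gen_3 K
    exact ⟨P, hP, Or.inr hPp⟩
  by_cases hp53 : p = 53
  · subst hp53
    obtain ⟨P, hP, hPp⟩ := pid13_gen_53 K
    exact ⟨P, hP, Or.inr hPp⟩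
  by_cases hp79 : p = 79
  · subst hp79
    obtain ⟨P, hP, hPp⟩ := pid13_gen_79 K
    exact ⟨P, hP, Or.inr hPp⟩
  by_cases hp131 : p = 131
  · subst hp131
    obtain ⟨P, hP, hPp⟩ := pid13_gen_131 K
    exact ⟨P, hP, Or.inr hPp⟩
  by_cases hp157 : p = 157
  · subst hp157
    obtain ⟨P, hP, hPp⟩ := pid13_gen_157 K
    exact ⟨P, hP, Or.inr hPp⟩
  · obtain ⟨⟨P, hP1, hP2⟩⟩ := (span {(p : ℤ)}).nonempty_primesOver (S := 𝓞 K)
    refine ⟨P, ⟨hP1, hP2⟩, Or.inl ?_⟩
    rw [IsCyclotomicExtension.Rat.inertiaDeg_eq_of_not_dvd p K P (m := 13)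
      (fun h => hp13 ((Nat.prime_dvd_prime_iff_eq hprime (by norm_num)).mp h))]
    exact lt_of_le_of_lt hB (key13 hprime hp306 hp13 hp3 hp53 hp79 hp131 hp157)

end Fermat.Agent.FLTReg
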