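/-
FLTReg project: the ring of integers of `ℚ(ζ₇)` is a PID (Minkowski bound `< 5`).
-/
import Mathlib.NumberTheory.NumberField.Cyclotomic.PID
import Mathlib.NumberTheory.NumberField.Cyclotomic.Ideal
import Mathlib.NumberTheory.NumberField.Cyclotomic.Galois
import Mathlib.Analysis.Real.Pi.Bounds
import Mathlib.Tactic

set_option autoImplicit false

namespace Fermat.Agent.FLTReg

open NumberField Polynomial Ideal

theorem minkowski_seven (K : Type*) [Field K] [NumberField K] [IsCyclotomicExtension {7} ℚ K] :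
    ⌊(4 / Real.pi) ^ InfinitePlace.nrComplexPlaces K *
      ((Module.finrank ℚ K).factorial / (Module.finrank ℚ K : ℝ) ^ Module.finrank ℚ K *
        √|(discr K : ℝ)|)⌋₊ ≤ 4 := by
  have : Fact (Nat.Prime 7) := ⟨by norm_num⟩
  rw [IsCyclotomicExtension.Rat.discr_prime 7 K, IsCyclotomicExtension.finrank (n := 7) K
    (cyclotomic.irreducible_rat (by simp)), IsCyclotomicExtension.Rat.nrComplexPlaces_eq_totient_div_two 7,
    Nat.totient_prime (by norm_num : Nat.Prime 7)]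
  have hpi : (4 / Real.pi) ^ 3 ≤ (4 / 3.14 : ℝ) ^ 3 := by
    apply pow_le_pow_left₀ (by positivity)
    apply div_le_div_of_nonneg_left (by norm_num) (by norm_num) Real.pi_gt_d2.le
  have hsq : √(7 ^ 5 : ℝ) ≤ 129.65 := by
    rw [Real.sqrt_le_iff]; constructor <;> norm_num
  have hval : ((-1 : ℤ) ^ ((7 - 1) / 2) * ((7 : ℕ) : ℤ) ^ (7 - 2) : ℤ) = -(7 ^ 5) := by norm_num
  rw [hval]
  have habs : |((-(7 ^ 5) : ℤ) : ℝ)| = (7 ^ 5 : ℝ) := by
    rw [Int.cast_neg, abs_neg, abs_of_pos (by positivity)]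
    norm_num
  rw [habs]
  have h6 : (7 - 1 : ℕ) = 6 := by norm_num
  simp only [h6, show (6 / 2 : ℕ) = 3 by norm_num]
  apply Nat.le_of_lt_succ
  rw [Nat.floor_lt (by positivity)]
  have hfac : ((Nat.factorial 6 : ℕ) : ℝ) = 720 := by
    norm_num [Nat.factorial]
  rw [hfac]
  calc (4 / Real.pi) ^ 3 * (720 / ((6 : ℕ) : ℝ) ^ 6 * √(7 ^ 5 : ℝ))
      ≤ (4 / 3.14 : ℝ) ^ 3 * (720 / ((6 : ℕ) : ℝ) ^ 6 * 129.65) := by
        gcongr
    _ < ((4 + 1 : ℕ) : ℝ) := by norm_num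

theorem key7 {p : ℕ} (hp : p.Prime) (hp4 : p ≤ 4) : 4 < p ^ orderOf (p : ZMod 7) := by
  have : Fact (Nat.Prime 7) := ⟨by norm_num⟩
  have hp2 := hp.two_le
  have hx : (p : ZMod 7) ≠ 0 := by
    rw [Ne, ZMod.natCast_eq_zero_iff]
    intro h
    have := Nat.le_of_dvd hp.pos h
    omega
  have hf := pow_orderOf_eq_one (p : ZMod 7)
  have hpos : 0 < orderOf (p : ZMod 7) := by
    apply orderOf_pos_iff.mpr
    exact isOfFinOrder_iff_pow_eq_one.mpr ⟨6, by norm_num, ZMod.pow_card_sub_one_eq_one hx⟩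
  generalize orderOf (p : ZMod 7) = f at *
  have hmod : p ^ f % 7 = 1 := by
    have h := hf
    rw [← Nat.cast_pow, ← Nat.cast_one (R := ZMod 7), ZMod.natCast_eq_natCast_iff'] at h
    simpa using h
  by_contra hlt
  rw [not_lt] at hlt
  -- `p ^ f ≤ 4` with `p ≥ 2`, `f ≥ 1` forces `p ^ f ∈ {2, 3, 4}`, none of which is `1 mod 7`
  have h1 : 2 ≤ p ^ f := by
    calc 2 ≤ p := hp2
      _ = p ^ 1 := (pow_one p).symm
      _ ≤ p ^ f := Nat.pow_le_pow_right hp.pos hpos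
  generalize p ^ f = m at *
  interval_cases m <;> omega

theorem pid_seven (K : Type*) [Field K] [NumberField K] [IsCyclotomicExtension {7} ℚ K] :
    IsPrincipalIdealRing (𝓞 K) := by
  have h7 : Fact (Nat.Prime 7) := ⟨by norm_num⟩
  have : IsGalois ℚ K := IsCyclotomicExtension.isGalois {7} ℚ K
  apply RingOfIntegers.isPrincipalIdealRing_of_isPrincipal_of_lt_or_isPrincipal_of_mem_primesOver_of_mem_Icc
  intro p hp hprime
  have hB := minkowski_seven K
  have hp4 : p ≤ 4 := (Finset.mem_Icc.mp hp).2.trans hB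
  have hpF : Fact p.Prime := ⟨hprime⟩
  obtain ⟨⟨P, hP1, hP2⟩⟩ := (span {(p : ℤ)}).nonempty_primesOver (S := 𝓞 K)
  refine ⟨P, ⟨hP1, hP2⟩, Or.inl ?_⟩
  rw [IsCyclotomicExtension.Rat.inertiaDeg_eq_of_not_dvd p K P (m := 7)
    (fun h => by
      have := (Nat.prime_dvd_prime_iff_eq hprime (by norm_num)).mp h
      omega)]
  exact lt_of_le_of_lt hB (key7 hprime hp4)

end Fermat.Agent.FLTReg
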