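import Mathlib

/-!
# Explicit principal primes in prime cyclotomic rings of integers

General tool (used for the PID proofs of `ℤ[ζ₁₁]`, `ℤ[ζ₁₃]`): if `a ∈ ℤ[X]` is monic, irreducible
mod `q`, divides the `p`-th cyclotomic polynomial mod `q`, and `α = fα(ζ)` satisfies
`α ∣ q`, `α ∣ a(ζ)` and `a ∣ fα` mod `q`, then `span {α}` is a prime of `𝓞 K` over `q`.
-/

open NumberField Polynomial Ideal

namespace Fermat.Agent.FLTReg

variable {p : ℕ} [hp : Fact p.Prime] {K : Type*} [Field K] [NumberField K]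
  [hK : IsCyclotomicExtension {p} ℚ K]

omit hK in
theorem minpoly_toInteger_eq_cyclotomic {ζ : K} (hζ : IsPrimitiveRoot ζ p) :
    minpoly ℤ hζ.toInteger = cyclotomic p ℤ := by
  rw [← RingOfIntegers.minpoly_coe]
  show minpoly ℤ ζ = cyclotomic p ℤ
  exact (cyclotomic_eq_minpoly hζ hp.out.pos).symm

theorem map_eq_zero_imp_C_dvd (q : ℕ) (r : ℤ[X])
    (h : r.map (Int.castRingHom (ZMod q)) = 0) : C (q : ℤ) ∣ r := by
  rw [C_dvd_iff_dvd_coeff]
  intro i
  have := congrArg (fun f => f.coeff i) h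
  simp only [coeff_map, coeff_zero, eq_intCast] at this
  exact (ZMod.intCast_zmod_eq_zero_iff_dvd _ _).mp this

theorem exists_principal_prime_over
    {ζ : K} (hζ : IsPrimitiveRoot ζ p) (q : ℕ) [hq : Fact q.Prime]
    (a : ℤ[X]) (ha : a.Monic)
    (hirr : Irreducible (a.map (Int.castRingHom (ZMod q))))
    (hdvd : a.map (Int.castRingHom (ZMod q)) ∣ cyclotomic p (ZMod q))
    (fα fβ fγ : ℤ[X])
    (h1 : aeval hζ.toInteger (fα * fβ) = (q : 𝓞 K))
    (h2 : aeval hζ.toInteger (fα * fγ) = aeval hζ.toInteger a)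
    (h3 : a.map (Int.castRingHom (ZMod q)) ∣ fα.map (Int.castRingHom (ZMod q))) :
    ∃ P ∈ primesOver (span {(q : ℤ)}) (𝓞 K), Submodule.IsPrincipal P := by
  classical
  set ā : (ZMod q)[X] := a.map (Int.castRingHom (ZMod q)) with hā
  have : Fact (Irreducible ā) := ⟨hirr⟩
  set pb := hζ.integralPowerBasis with hpb
  have hgen : pb.gen = hζ.toInteger := hζ.integralPowerBasis_gen
  -- evaluation of integer polynomials at the root
  have hev : ∀ f : ℤ[X], aeval (AdjoinRoot.root ā) f
      = AdjoinRoot.mk ā (f.map (Int.castRingHom (ZMod q))) := by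
    intro f
    rw [← AdjoinRoot.aeval_eq, aeval_def, aeval_def, eval₂_map]
    congr 1
  have hroot : aeval (AdjoinRoot.root ā) (minpoly ℤ pb.gen) = 0 := by
    rw [hgen, minpoly_toInteger_eq_cyclotomic hζ, hev, map_cyclotomic, AdjoinRoot.mk_eq_zero]
    exact hdvd
  set φ : 𝓞 K →ₐ[ℤ] AdjoinRoot ā := pb.lift (AdjoinRoot.root ā) hroot with hφ
  have hφgen : φ hζ.toInteger = AdjoinRoot.root ā := by
    rw [← hgen]; exact pb.lift_gen _ hroot
  have hφev : ∀ f : ℤ[X], φ (aeval hζ.toInteger f)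
      = AdjoinRoot.mk ā (f.map (Int.castRingHom (ZMod q))) := by
    intro f
    rw [← aeval_algHom_apply, hφgen, hev]
  set α : 𝓞 K := aeval hζ.toInteger fα with hα
  -- the kernel is generated by α
  have hker : RingHom.ker (φ : 𝓞 K →+* AdjoinRoot ā) = span {α} := by
    apply le_antisymm
    · intro x hx
      rw [RingHom.mem_ker] at hx
      obtain ⟨f, hf⟩ := pb.exists_eq_aeval' x
      rw [hgen] at hf
      have hdiv := modByMonic_add_div f a
      set r := f %ₘ a with hr
      set s := f /ₘ a with hs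
      have hφx : AdjoinRoot.mk ā (r.map (Int.castRingHom (ZMod q))) = 0 := by
        have : φ x = AdjoinRoot.mk ā (f.map (Int.castRingHom (ZMod q))) := by
          rw [hf]; exact hφev f
        have hx' : (φ : 𝓞 K →+* AdjoinRoot ā) x = φ x := rfl
        rw [hx', this, ← hdiv, Polynomial.map_add, Polynomial.map_mul, map_add, map_mul] at hx
        have hz : AdjoinRoot.mk ā ā = 0 := AdjoinRoot.mk_self
        rw [← hā, hz, zero_mul, add_zero] at hx
        exact hx
      rw [AdjoinRoot.mk_eq_zero] at hφx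
      have hdeg : (r.map (Int.castRingHom (ZMod q))).degree < ā.degree := by
        calc (r.map (Int.castRingHom (ZMod q))).degree ≤ r.degree := degree_map_le
          _ < a.degree := degree_modByMonic_lt f ha
          _ = ā.degree := (ha.degree_map _).symm
      have hr0 : r.map (Int.castRingHom (ZMod q)) = 0 :=
        eq_zero_of_dvd_of_degree_lt hφx hdeg
      obtain ⟨r', hr'⟩ := map_eq_zero_imp_C_dvd q r hr0
      rw [mem_span_singleton]
      have hxeq : x = aeval hζ.toInteger (fα * fγ) * aeval hζ.toInteger s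
          + aeval hζ.toInteger (fα * fβ) * aeval hζ.toInteger r' := by
        rw [hf, ← hdiv, h2, h1, map_add, map_mul, hr', map_mul, aeval_C]
        simp only [eq_intCast, Int.cast_natCast]
        ring
      rw [hxeq, map_mul, map_mul]
      exact ⟨aeval hζ.toInteger fγ * aeval hζ.toInteger s
        + aeval hζ.toInteger fβ * aeval hζ.toInteger r', by ring⟩
    · rw [span_singleton_le_iff_mem, RingHom.mem_ker]
      show φ α = 0
      rw [hα, hφev, AdjoinRoot.mk_eq_zero]
      exact h3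
  refine ⟨span {α}, ⟨?_, ?_⟩, ⟨α, rfl⟩⟩
  · rw [← hker]
    exact RingHom.ker_isPrime _
  · rw [liesOver_iff, under_def, ← hker, RingHom.comap_ker]
    have hcomp : ((φ : 𝓞 K →+* AdjoinRoot ā).comp (algebraMap ℤ (𝓞 K)))
        = (algebraMap (ZMod q) (AdjoinRoot ā)).comp (Int.castRingHom (ZMod q)) :=
      RingHom.ext_int _ _
    rw [hcomp, ← RingHom.comap_ker,
      (RingHom.injective_iff_ker_eq_bot _).mp (algebraMap (ZMod q) (AdjoinRoot ā)).injective,
      ← RingHom.ker_eq_comap_bot, ZMod.ker_intCastRingHom]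

omit hK in
theorem aeval_toInteger_cyclotomic {ζ : K} (hζ : IsPrimitiveRoot ζ p) :
    aeval hζ.toInteger (cyclotomic p ℤ) = 0 := by
  rw [← minpoly_toInteger_eq_cyclotomic hζ]
  exact minpoly.aeval ℤ _

/-- Variant of `exists_principal_prime_over` with the two divisibility identities given as
polynomial identities modulo the cyclotomic polynomial. -/
theorem exists_principal_prime_over_of_eq
    {ζ : K} (hζ : IsPrimitiveRoot ζ p) (q : ℕ) [hq : Fact q.Prime]
    (a : ℤ[X]) (ha : a.Monic)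
    (hirr : Irreducible (a.map (Int.castRingHom (ZMod q))))
    (hdvd : a.map (Int.castRingHom (ZMod q)) ∣ cyclotomic p (ZMod q))
    (fα fβ fγ c₁ c₂ : ℤ[X])
    (h1 : fα * fβ = C (q : ℤ) + c₁ * cyclotomic p ℤ)
    (h2 : fα * fγ = a + c₂ * cyclotomic p ℤ)
    (h3 : a.map (Int.castRingHom (ZMod q)) ∣ fα.map (Int.castRingHom (ZMod q))) :
    ∃ P ∈ primesOver (span {(q : ℤ)}) (𝓞 K), Submodule.IsPrincipal P := by
  refine exists_principal_prime_over hζ q a ha hirr hdvd fα fβ fγ ?_ ?_ h3
  · rw [h1, map_add, map_mul, aeval_toInteger_cyclotomic hζ, mul_zero, add_zero, aeval_C]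
    simp
  · rw [h2, map_add, map_mul, aeval_toInteger_cyclotomic hζ, mul_zero, add_zero]

/-- Degree one case: `a = X - g` with `g` a nontrivial `p`-th root of unity mod `q`. -/
theorem exists_principal_prime_over_deg_one
    {ζ : K} (hζ : IsPrimitiveRoot ζ p) (q : ℕ) [hq : Fact q.Prime] (g : ℤ)
    (hg : (∑ i ∈ Finset.range p, (g : ZMod q) ^ i) = 0)
    (fα fβ fγ c₁ c₂ : ℤ[X])
    (h1 : fα * fβ = C (q : ℤ) + c₁ * cyclotomic p ℤ)
    (h2 : fα * fγ = X - C g + c₂ * cyclotomic p ℤ)
    (h3 : (q : ℤ) ∣ fα.eval g) :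
    ∃ P ∈ primesOver (span {(q : ℤ)}) (𝓞 K), Submodule.IsPrincipal P := by
  have hmap : (X - C g : ℤ[X]).map (Int.castRingHom (ZMod q)) = X - C (g : ZMod q) := by
    simp
  refine exists_principal_prime_over_of_eq hζ q (X - C g) (monic_X_sub_C g) ?_ ?_
    fα fβ fγ c₁ c₂ h1 h2 ?_
  · rw [hmap]; exact irreducible_X_sub_C _
  · rw [hmap, dvd_iff_isRoot, IsRoot.def, cyclotomic_prime, eval_finsetSum]
    simpa using hg
  · rw [hmap, dvd_iff_isRoot, IsRoot.def, eval_map, ← eq_intCast (Int.castRingHom (ZMod q)) g,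
      eval₂_hom, eq_intCast]
    exact (ZMod.intCast_zmod_eq_zero_iff_dvd _ _).mpr h3

end Fermat.Agent.FLTReg
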