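/-
FLTReg: wiring for S11 (helper96).  Everything except Kummer's lemma for `p = 11` is supplied:
`pid_eleven` (PID.lean), `caseI_eleven` (CaseI.lean), `caseII` (CaseII.lean),
`fw_no_freyPackage` (FreyWiring.lean).
-/
import Fermat.Statements.S11
import Fermat.Agent.FLTReg.PID
import Fermat.Agent.FLTReg.CaseI
import Fermat.Agent.FLTReg.CaseII
import Fermat.Agent.FLTReg.FreyWiring

set_option autoImplicit false
open NumberField
open WeierstrassCurve WeierstrassCurve.Affine WeierstrassCurve.Affine.Point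
open CuspForm ModularFormClass UpperHalfPlane FreyPackage

namespace Fermat.Agent.FLTReg

set_option backward.isDefEq.respectTransparency false in
/-- No Frey package has exponent `11`, given Kummer's lemma for `ℚ(ζ₁₁)`. -/
theorem no_freyPackage_eleven_of_kummer
    (hK : ∀ u : (𝓞 (CyclotomicField 11 ℚ))ˣ,
      (∃ n : ℤ, ((11 : ℕ) : 𝓞 (CyclotomicField 11 ℚ)) ∣ (u : 𝓞 (CyclotomicField 11 ℚ)) - n) →
        ∃ v : (𝓞 (CyclotomicField 11 ℚ))ˣ, u = v ^ 11)
    (P : FreyPackage) (hp : P.p = 11) : False := by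
  have h11 : Fact (Nat.Prime 11) := ⟨by norm_num⟩
  have : IsPrincipalIdealRing (𝓞 (CyclotomicField 11 ℚ)) := pid_eleven (CyclotomicField 11 ℚ)
  refine fw_no_freyPackage (p := 11) (by norm_num) (by norm_num) ?_ ?_ P hp
  · intro a b c hab h
    exact_mod_cast caseI_eleven hab h
  · intro a b c hab hc hpc
    exact caseII (p := 11) (by norm_num) (K := CyclotomicField 11 ℚ) hK hab hc
      (by exact_mod_cast hpc)

/-- S11 modulo Kummer's lemma for `ℚ(ζ₁₁)`. -/
theorem s11_of_kummer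
    (hK : ∀ u : (𝓞 (CyclotomicField 11 ℚ))ˣ,
      (∃ n : ℤ, ((11 : ℕ) : 𝓞 (CyclotomicField 11 ℚ)) ∣ (u : 𝓞 (CyclotomicField 11 ℚ)) - n) →
        ∃ v : (𝓞 (CyclotomicField 11 ℚ))ˣ, u = v ^ 11)
    (P : FreyPackage) (hp : P.p = 11) :
    ¬ HasGaloisStableCofixedLine (K := AlgebraicClosure ℚ) ℚ P.freyCurve P.p :=
  (no_freyPackage_eleven_of_kummer hK P hp).elim

end Fermat.Agent.FLTReg
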