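import Mathlib

/-!
# Units that are `p`-th powers, via a homomorphism to an `F_p`-vector space

Let `K` be a number field, `p` a prime, `W` an `F_p`-vector space and
`L : (𝓞 K)ˣ →* Multiplicative W` a group homomorphism.  By Dirichlet's unit theorem the group
`(𝓞 K)ˣ` is generated by `rank K + 1` elements (a generator of the cyclic torsion subgroup and a
system of fundamental units).  Hence, if the images under `L` of some family of `rank K + 1` units
are linearly independent over `F_p`, then the kernel of `L` is exactly the subgroup of `p`-th powers.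
-/

set_option autoImplicit false

open NumberField NumberField.Units

namespace Fermat.Agent.FLTReg.Kummer

variable {K : Type*} [Field K] [NumberField K]

/-- Every unit is a product of powers of `rank K + 1` fixed units. -/
theorem exists_generators :
    ∃ gen : Fin (rank K + 1) → (𝓞 K)ˣ,
      ∀ x : (𝓞 K)ˣ, ∃ a : Fin (rank K + 1) → ℤ, x = ∏ i, gen i ^ a i := by
  obtain ⟨g, hg⟩ := IsCyclic.exists_generator (α := torsion K)
  refine ⟨Fin.cons (g : (𝓞 K)ˣ) (fundSystem K), fun x => ?_⟩
  obtain ⟨⟨t, e⟩, hx, -⟩ := exist_unique_eq_mul_prod K x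
  obtain ⟨k, hk⟩ := Subgroup.mem_zpowers_iff.mp (hg t)
  refine ⟨Fin.cons k e, ?_⟩
  rw [Fin.prod_univ_succ]
  simp only [Fin.cons_zero, Fin.cons_succ]
  rw [hx]
  congr 1
  have := congrArg (Subtype.val) hk
  simpa using this.symm

variable (p : ℕ) [hp : Fact p.Prime]
variable {W : Type*} [AddCommGroup W] [Module (ZMod p) W]

omit [NumberField K] in
/-- Auxiliary: the image of a product of powers under a hom to an `F_p`-vector space. -/
theorem toAdd_map_prod_zpow {ι : Type*} (s : Finset ι) (L : (𝓞 K)ˣ →* Multiplicative W)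
    (gen : ι → (𝓞 K)ˣ) (a : ι → ℤ) :
    Multiplicative.toAdd (L (∏ i ∈ s, gen i ^ a i)) =
      ∑ i ∈ s, ((a i : ℤ) : ZMod p) • Multiplicative.toAdd (L (gen i)) := by
  rw [map_prod, toAdd_prod]
  refine Finset.sum_congr rfl fun i _ => ?_
  rw [map_zpow, toAdd_zpow, Int.cast_smul_eq_zsmul]

/-- **Kernel = `p`-th powers.**  If `L : (𝓞 K)ˣ →* Multiplicative W` is a homomorphism to an
`F_p`-vector space and there are `rank K + 1` units with linearly independent images, then every
unit in the kernel of `L` is a `p`-th power. -/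
theorem exists_pow_eq_of_linearIndependent (L : (𝓞 K)ˣ →* Multiplicative W)
    (us : Fin (rank K + 1) → (𝓞 K)ˣ)
    (hind : LinearIndependent (ZMod p) fun i => Multiplicative.toAdd (L (us i)))
    (u : (𝓞 K)ˣ) (hu : L u = 1) : ∃ v : (𝓞 K)ˣ, u = v ^ p := by
  classical
  obtain ⟨gen, hgen⟩ := exists_generators (K := K)
  set w : Fin (rank K + 1) → W := fun i => Multiplicative.toAdd (L (gen i)) with hw
  -- every `L x` lies in the span of the `w i`
  have hspan : ∀ x : (𝓞 K)ˣ, Multiplicative.toAdd (L x) ∈ Submodule.span (ZMod p) (Set.range w) := by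
    intro x
    obtain ⟨a, rfl⟩ := hgen x
    rw [toAdd_map_prod_zpow p]
    exact Submodule.sum_mem _ fun i _ =>
      Submodule.smul_mem _ _ (Submodule.subset_span (Set.mem_range_self i))
  -- hence the `w i` are linearly independent
  have hwind : LinearIndependent (ZMod p) w := by
    rw [linearIndependent_iff_card_le_finrank_span]
    have hle : Submodule.span (ZMod p) (Set.range fun i => Multiplicative.toAdd (L (us i))) ≤
        Submodule.span (ZMod p) (Set.range w) := by
      rw [Submodule.span_le]
      rintro _ ⟨i, rfl⟩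
      exact hspan (us i)
    have h1 := (linearIndependent_iff_card_le_finrank_span.mp hind)
    have : Module.Finite (ZMod p) (Submodule.span (ZMod p) (Set.range w)) :=
      Module.Finite.span_of_finite _ (Set.finite_range w)
    exact h1.trans (Submodule.finrank_mono hle)
  -- decompose `u`
  obtain ⟨a, rfl⟩ := hgen u
  have h0 : ∑ i, ((a i : ℤ) : ZMod p) • w i = 0 := by
    have := toAdd_map_prod_zpow p Finset.univ L gen a
    rw [hu] at this
    simpa using this.symm
  have hzero : ∀ i, ((a i : ℤ) : ZMod p) = 0 := by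
    intro i
    exact (Fintype.linearIndependent_iff.mp hwind) (fun i => ((a i : ℤ) : ZMod p)) h0 i
  have hdvd : ∀ i, (p : ℤ) ∣ a i := fun i => (ZMod.intCast_zmod_eq_zero_iff_dvd (a i) p).mp (hzero i)
  choose b hb using hdvd
  refine ⟨∏ i, gen i ^ b i, ?_⟩
  rw [← Finset.prod_pow]
  refine Finset.prod_congr rfl fun i _ => ?_
  rw [hb i, mul_comm, zpow_mul, zpow_natCast]

end Fermat.Agent.FLTReg.Kummer
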